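import Fermat.Agent.AtP.SplitU
import Fermat.Agent.SSMod.RamN

/-!
# Vectors with `U = -w` at `q ∥ N` in residue characteristic `q`
-/

set_option autoImplicit false
set_option linter.unusedSectionVars false
set_option linter.style.haveILetI false

noncomputable section

namespace Fermat.Agent.AtP

open ModularCurve Fermat.Agent.GoodRed Fermat.Agent.Models Fermat.Agent.ModFun
open Fermat.Agent.GenusX0 Fermat.Agent.Curves Fermat.Agent.AnJac AlgebraicCurve IsLocalRing
open Fermat.Agent.HeckeQ Fermat.Agent.SSMod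

local notation "ℒ" => LaurentSeries

section General

variable {K κ : Type*} [Field K] [Field κ] {A : ValuationSubring K} {π : A →+* κ}
  {q M : ℕ} [NeZero M] [IsLocalHom π] [hq : Fact q.Prime] [CharP κ q]
  [IsAlgClosed K] [IsAlgClosed κ] [CharZero K] [NeZero q]

attribute [-instance] DivisionRing.toRatAlgebra

variable [IsFunctionField K (modularFunctionFieldFullC K (q * M))]
  [IsFunctionField κ (modularFunctionFieldFullC κ M)]

/-- residues of `Φ² u / u` when `U² u = u` -/
theorem rp_quot [HasPrim A q] [HasPrim K q] {hπ : Function.Surjective π} (ι : K →+* ℂ)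
    (hqM : Nat.Coprime q M) (hE : modularFunctionFieldFullC κ M = resField q hπ (q * M))
    {n : ℕ} (hn : n ≠ 0) {σ : K ≃+* K} (hσ : ActsAt π σ (frob κ q))
    {U : modularFunctionFieldFullC K (q * M) → modularFunctionFieldFullC K (q * M)}
    (hU : ∀ u, (U u : ℒ K) = hW q (u : ℒ K))
    {u f : modularFunctionFieldFullC K (q * M)} (hu : u ≠ 0) (hf : f ≠ 0)
    (hUu : U (U u) = u * f ^ n) :
    RP (two hπ ι hqM _ hE) n true (galF (q * M) σ (galF (q * M) σ u) / u) 1 := by
  have hch := chain (n := n) (hπ := hπ) ι hqM hE hσ hU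
  obtain ⟨a, ha⟩ := RP.exists_of_ne_zero (two hπ ι hqM _ hE) n true hu
  have h1 := hch.Φ_res (hch.Φ_res ha)
  have h2 := hch.U_true (hch.U_true ha)
  rw [hUu] at h2
  have h3 := ha.mul_pow (f := f) hf
  obtain ⟨x, hx, e⟩ := RP.uniq hn h2 h3
  have h4 := h1.div ha
  refine RP.congr hx (h4.of_eq rfl ?_)
  rw [e, one_mul, mul_div_cancel_left₀ _ ha.ne_zero]

/-- **New vectors**: inertia acts on `(Φ² - 1) u` through the cyclotomic character. -/
theorem toric_new [Algebra ℚ K] [Algebra.IsAlgebraic ℚ K] [Algebra.IsAlgebraic ℤ K]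
    (hπ : Function.Surjective π) (ι : K →+* ℂ) (hqM : Nat.Coprime q M)
    (hA : A.LiesOverPrime q) (hr : GoodRed.RankOne π) (h : JLift π M)
    [HasPrim A q] [HasPrim K q] {σ τ : K ≃+* K} (hσ : ActsAt π σ (frob κ q))
    (hτ : ActsAt π τ (RingEquiv.refl κ))
    {U : modularFunctionFieldFullC K (q * M) → modularFunctionFieldFullC K (q * M)}
    (hU : ∀ u, (U u : ℒ K) = hW q (u : ℒ K)) {n l a : ℕ} (hn : n = q ^ l)
    (ha : ∀ ζ : K, ζ ^ n = 1 → τ ζ = ζ ^ a)
    {u g g' : modularFunctionFieldFullC K (q * M)} (hu : u ≠ 0) (hg : g ≠ 0) (hg' : g' ≠ 0)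
    (h1 : U u * al ι hqM u = g ^ n) (h2 : U (al ι hqM u) * u = g' ^ n)
    (hdiv : ∀ P : Place K (modularFunctionFieldFullC K (q * M)), (n : ℤ) ∣ P.ord u) :
    ∀ v, v = galF (q * M) σ (galF (q * M) σ u) / u →
      ∃ f, galF (q * M) τ v / v ^ a = f ^ n := by
  intro v hv
  have hn0 : n ≠ 0 := by rw [hn]; exact pow_ne_zero _ hq.out.ne_zero
  have hE := (resField_eq (q := q) hπ ι hqM hr).symm
  have hm := nodeModel (hπ := hπ) ι hqM hE hA hr h
  have hch := chain (n := n) (hπ := hπ) ι hqM hE hσ hU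
  have halu : al ι hqM u ≠ 0 := by simpa using hu
  have hUne : ∀ x : modularFunctionFieldFullC K (q * M), x ≠ 0 → U x ≠ 0 := by
    intro x hx h0
    have h3 := hU x
    rw [h0] at h3
    exact hW_ne_zero q (fun h4 => hx (Subtype.ext h4)) h3.symm
  have hΦal : ∀ x, al ι hqM (galF (q * M) σ x) = galF (q * M) σ (al ι hqM x) :=
    fun x => al_galF ι hqM σ x
  have hUpow : ∀ (x : modularFunctionFieldFullC K (q * M)) (m : ℕ), U (x ^ m) = U x ^ m :=
    fun x m => hch.U_pow x m
  -- `U² = 1`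
  have e1 : U (U u) = u * (U g / g') ^ n := by
    have k1 : U u = g ^ n / al ι hqM u := by rw [eq_div_iff halu]; exact h1
    have k2 : U (al ι hqM u) = g' ^ n / u := by rw [eq_div_iff hu]; exact h2
    rw [k1, hch.U_div _ _ halu, hUpow, k2, div_pow]
    have := pow_ne_zero n hg'
    field_simp
  have e2 : U (U (al ι hqM u)) = al ι hqM u * (U g' / g) ^ n := by
    have k1 : U u = g ^ n / al ι hqM u := by rw [eq_div_iff halu]; exact h1
    have k2 : U (al ι hqM u) = g' ^ n / u := by rw [eq_div_iff hu]; exact h2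
    rw [k2, hch.U_div _ _ hu, hUpow, k1, div_pow]
    have := pow_ne_zero n hg
    field_simp
  have hf0 : U g / g' ≠ 0 := div_ne_zero (hUne g hg) hg'
  have hf0' : U g' / g ≠ 0 := div_ne_zero (hUne g' hg') hg
  have hΦne : ∀ x : modularFunctionFieldFullC K (q * M), x ≠ 0 → galF (q * M) σ x ≠ 0 :=
    fun x hx => by simpa using hx
  -- the equation for `v`
  have key : ∀ (x f : modularFunctionFieldFullC K (q * M)), x ≠ 0 → f ≠ 0 →
      U (U x) = x * f ^ n →
      U (U (galF (q * M) σ (galF (q * M) σ x) / x)) = (galF (q * M) σ (galF (q * M) σ x) / x) *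
        (galF (q * M) σ (galF (q * M) σ f) / f) ^ n := by
    intro x f hx hf hxf
    rw [hch.U_div _ _ hx, hch.U_div _ _ (hUne x hx), hch.U_Φ, hch.U_Φ, hch.U_Φ, hch.U_Φ, hxf,
      map_mul, map_mul, map_pow, map_pow, div_pow]
    have := pow_ne_zero n hf
    field_simp
  have hv0 : v ≠ 0 := by rw [hv]; exact div_ne_zero (hΦne _ (hΦne _ hu)) hu
  have e3 := key u _ hu hf0 e1
  rw [← hv] at e3
  have halv : al ι hqM v = galF (q * M) σ (galF (q * M) σ (al ι hqM u)) / al ι hqM u := by
    rw [hv, map_div₀, hΦal, hΦal]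
  have e4 := key (al ι hqM u) _ halu hf0' e2
  rw [← halv] at e4
  have r1 : RP (two hπ ι hqM _ hE) n true v 1 := by
    rw [hv]; exact rp_quot ι hqM hE hn0 hσ hU hu hf0 e1
  have r2 : RP (two hπ ι hqM _ hE) n false v 1 := by
    rw [rp_false_iff, halv]
    exact rp_quot ι hqM hE hn0 hσ hU halu hf0' e2
  have hmem : ∀ x ∈ modularFunctionFieldFullC K (q * M),
      hW q x ∈ modularFunctionFieldFullC K (q * M) := by
    intro x hx
    have := (U ⟨x, hx⟩).2
    rwa [hU] at this
  have eU : ∀ x : modularFunctionFieldFullC K (q * M),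
      hW q (hW q (x : ℒ K)) = ((U (U x) : modularFunctionFieldFullC K (q * M)) : ℒ K) := by
    intro x
    rw [hU, hU]
  have s1 : Split (two hπ ι hqM _ hE) true n v := by
    refine split_true ι hqM _ hE hr hmem hn hv0 (f := galF (q * M) σ (galF (q * M) σ (U g / g')) /
      (U g / g')) ?_ ?_
    · rw [eU, e3]; rfl
    · obtain ⟨-, c, hc, x, hx, e⟩ := r1
      exact ⟨c, hc, x, hx, by rw [e, one_mul]⟩
  have s2 : Split (two hπ ι hqM _ hE) false n v := by
    refine split_false ι hqM _ hE hr hmem hn hv0 (f := galF (q * M) σ (galF (q * M) σ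
      (U g' / g)) / (U g' / g)) ?_ ?_
    · rw [eU, e4]; rfl
    · obtain ⟨-, c, hc, x, hx, e⟩ := r2
      exact ⟨c, hc, x, hx, by rw [e, one_mul]⟩
  have hin := inertial (hπ := hπ) ι hqM hE hA hτ
  have hin' := inertial (hπ := hπ) ι hqM hE hA hτ.symm
  rw [placeE_symm] at hin'
  have hqA : (q : K) ∈ (baseRes π hπ).O := natCast_mem _ q
  refine toric hm hn0 hin hin' (galF_t hqM h τ) ha hqA
    (by exact_mod_cast hq.out.ne_zero) ?_ (fun i => ?_) fun P => ?_
  · rw [baseRes_r π hπ hqA]
    have : (⟨(q : K), hqA⟩ : A) = (q : A) := Subtype.ext (by simp)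
    rw [this, map_natCast]
    exact CharP.cast_eq_zero κ q
  · cases i
    · exact s2
    · exact s1
  · have ho : ∀ x : modularFunctionFieldFullC K (q * M),
        (∀ P : Place K (modularFunctionFieldFullC K (q * M)), (n : ℤ) ∣ P.ord x) →
        ∀ P : Place K (modularFunctionFieldFullC K (q * M)),
          (n : ℤ) ∣ P.ord (galF (q * M) σ x) := by
      intro x hx P
      have h3 := placeE_ord σ ((placeE (q * M) σ).symm P) x
      rw [Equiv.apply_symm_apply] at h3
      rw [h3]
      exact hx _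
    rw [hv, div_eq_mul_inv, P.ord_mul (hΦne _ (hΦne _ hu)) (inv_ne_zero hu), P.ord_inv]
    exact (ho _ (ho _ hdiv) P).add ((dvd_neg).mpr (hdiv P))

end General

end Fermat.Agent.AtP
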