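import Fermat.Agent.AtP.Local

/-!
# Local generators at nodes
-/

set_option autoImplicit false
set_option linter.unusedSectionVars false
set_option linter.style.haveILetI false

noncomputable section

namespace Fermat.Agent.AtP

open AlgebraicCurve Fermat.Agent.Curves Fermat.Agent.Models Polynomial

variable {k κ : Type*} [Field k] [Field κ] {B : Res k κ}
variable {F : Type*} [Field F] [Algebra k F]
  {ι : Type*} {𝓕 : ι → Type*} [∀ i, Field (𝓕 i)] [∀ i, Algebra κ (𝓕 i)]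
  {C : ∀ i, Comp B F (𝓕 i)}
  [IsAlgClosed k] [IsAlgClosed κ] [IsFunctionField k F] [∀ i, IsFunctionField κ (𝓕 i)]
  [Fintype ι] [DecidableEq ι] [Nonempty ι]

open Classical in
/-- the coordinate at a node -/
theorem node_coord (hB : B.RankOne) (hBc : B.Commens) (hC : Incomp C) {t : F} (ht : IsGood C t)
    (hS : Surj C t) {M : Ideal (chart C t)} {i₁ i₂ : ι} {𝔭₁ : Place κ (𝓕 i₁)}
    {𝔭₂ : Place κ (𝓕 i₂)} {Y : F} {ϖ : k} (h : IsNode C t M i₁ i₂ 𝔭₁ 𝔭₂ Y ϖ)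
    {P : Place k F} (hP : P ∈ gen t M) :
    value P Y ≠ 0 ∧ value P Y ∈ B.O ∧ B.r (value P Y) = 0 ∧ ϖ / value P Y ∈ B.O ∧
      B.r (ϖ / value P Y) = 0 ∧ Y - algebraMap k F (value P Y) ≠ 0 ∧
      ∀ Q ∈ gen t M, Q.ord (Y - algebraMap k F (value P Y)) = if Q = P then 1 else 0 := by
  have hM := isPoint_of_spec hB hC ht ⟨𝔭₁, h.spec₁⟩
  have hϖF : algebraMap k F ϖ ≠ 0 := by simpa using h.ϖ_ne
  have hY0 : Y ≠ 0 := Res.ne_zero_of_r h.r₁
  have hbr : ∀ i, (spec t M i).Nonempty → i = i₁ ∨ i = i₂ := by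
    intro i hi
    by_contra! hne
    exact h.others i hne.1 hne.2 hi
  have hY2 : Y ∈ (C i₂).O ∧ (C i₂).r Y = 0 := by
    have e : Y = algebraMap k F ϖ * (Y / algebraMap k F ϖ) := by field_simp
    have h1 := Res.mem_of_r_ne_zero h.r₂
    rw [e]
    refine ⟨mul_mem ((C i₂).algebraMap_mem _ h.ϖ_mem) h1, ?_⟩
    rw [Res.r_mul ((C i₂).algebraMap_mem _ h.ϖ_mem) h1, (C i₂).r_algebraMap_eq_zero h.ϖ_mem h.ϖ_r,
      zero_mul]
  have hYinv1 : algebraMap k F ϖ / Y ∈ (C i₁).O ∧ (C i₁).r (algebraMap k F ϖ / Y) = 0 := by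
    rw [div_eq_mul_inv]
    refine ⟨mul_mem ((C i₁).algebraMap_mem _ h.ϖ_mem) (Res.inv_mem_of_r h.r₁), ?_⟩
    rw [Res.r_mul ((C i₁).algebraMap_mem _ h.ϖ_mem) (Res.inv_mem_of_r h.r₁),
      (C i₁).r_algebraMap_eq_zero h.ϖ_mem h.ϖ_r, zero_mul]
  have hYloc : Y ∈ loc t M hM.isMaximal.isPrime := mem_loc_of hB hC ht hS hM
    (fun P hP => (mem_iff_ord P hY0).mpr (h.gen P hP).ge) fun i hi => by
      rcases hbr i hi with rfl | rfl
      · exact Res.mem_of_r_ne_zero h.r₁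
      · exact hY2.1
  have hYiloc : algebraMap k F ϖ / Y ∈ loc t M hM.isMaximal.isPrime :=
    mem_loc_of hB hC ht hS hM (fun P hP => by
      rw [div_eq_mul_inv]
      exact mul_mem (P.algebraMap_mem' _) ((mem_iff_ord P (inv_ne_zero hY0)).mpr
        (by rw [P.ord_inv, h.gen P hP]; simp))) fun i hi => by
      rcases hbr i hi with rfl | rfl
      · exact hYinv1.1
      · have := Res.inv_mem_of_r h.r₂
        rwa [inv_div] at this
  obtain ⟨hPY, hPYO⟩ := loc_mem_place hB hC ht _ hP hYloc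
  obtain ⟨hPYi, hPYiO⟩ := loc_mem_place hB hC ht _ hP hYiloc
  set a := value P Y with ha
  have ha0 : a ≠ 0 := (value_ne_zero_iff hY0 hPY).mpr (h.gen P hP)
  have har : B.r a = 0 := by
    rw [ha, loc_value_place hB hC ht _ hP h.spec₂ hYloc, hY2.2]
    have := value_algebraMap 𝔭₂ (0 : κ)
    rwa [map_zero] at this
  have haF : algebraMap k F a ≠ 0 := by simpa using ha0
  -- `ϖ / a` is small
  have hϖa : value P (algebraMap k F ϖ / Y) = ϖ / a := by
    have h1 := value_inv' hPY ha0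
    rw [div_eq_mul_inv, value_mul P (P.algebraMap_mem' _) h1.1, h1.2, value_algebraMap,
      ← div_eq_mul_inv]
  have hϖaO : ϖ / a ∈ B.O := by rw [← hϖa]; exact hPYiO
  have hϖar : B.r (ϖ / a) = 0 := by
    rw [← hϖa, loc_value_place hB hC ht _ hP h.spec₁ hYiloc, hYinv1.2]
    have := value_algebraMap 𝔭₁ (0 : κ)
    rwa [map_zero] at this
  set g : F := Y - algebraMap k F a with hg
  have hg1 : (C i₁).r g = (C i₁).r Y := by
    rw [hg, Res.r_sub (Res.mem_of_r_ne_zero h.r₁) ((C i₁).algebraMap_mem _ hPYO),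
      (C i₁).r_algebraMap_eq_zero hPYO har, sub_zero]
  have hg10 : (C i₁).r g ≠ 0 := by rw [hg1]; exact h.r₁
  have hg0 : g ≠ 0 := Res.ne_zero_of_r hg10
  have hg2 : (C i₂).r (g / algebraMap k F a) = -1 := by
    have e : g / algebraMap k F a =
        (Y / algebraMap k F ϖ) * algebraMap k F (ϖ / a) - 1 := by
      rw [hg, map_div₀]
      field_simp
    rw [e, Res.r_sub (mul_mem (Res.mem_of_r_ne_zero h.r₂) ((C i₂).algebraMap_mem _ hϖaO))
      (one_mem _), Res.r_mul (Res.mem_of_r_ne_zero h.r₂) ((C i₂).algebraMap_mem _ hϖaO),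
      (C i₂).r_algebraMap_eq_zero hϖaO hϖar, mul_zero, Res.r_one, zero_sub]
  have hg20 : (C i₂).r (g / algebraMap k F a) ≠ 0 := by
    rw [hg2]; exact neg_ne_zero.mpr one_ne_zero
  -- comparison of values
  obtain ⟨m, n, hm, hmn⟩ := hBc a ϖ ha0 h.ϖ_ne hPYO h.ϖ_mem har h.ϖ_r
  have hx1 : (C i₁).r (g ^ m / Y ^ n) = (C i₁).r Y ^ m / (C i₁).r Y ^ n := by
    rw [Res.r_div (pow_mem (Res.mem_of_r_ne_zero hg10) m) (Res.r_pow_ne_zero h.r₁ n),
      Res.r_pow (Res.mem_of_r_ne_zero hg10), Res.r_pow (Res.mem_of_r_ne_zero h.r₁), hg1]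
  have ex : g ^ m / Y ^ n = (g / algebraMap k F a) ^ m * ((Y / algebraMap k F ϖ) ^ n)⁻¹ *
      algebraMap k F (a ^ m / ϖ ^ n) := by
    rw [map_div₀, map_pow, map_pow, div_pow, div_pow]
    field_simp
  have hcr := (C i₂).r_algebraMap_ne_zero hmn
  have hx2 : (C i₂).r (g ^ m / Y ^ n) = (-1) ^ m * ((C i₂).r (Y / algebraMap k F ϖ) ^ n)⁻¹ *
      algebraMap κ (𝓕 i₂) (B.r (a ^ m / ϖ ^ n)) := by
    have h1 := Res.r_pow_ne_zero hg20 m
    have h2 := Res.r_pow_ne_zero h.r₂ n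
    rw [ex, Res.r_mul (mul_mem (Res.mem_of_r_ne_zero h1) (Res.inv_mem_of_r h2))
      (Res.mem_of_r_ne_zero hcr), Res.r_mul (Res.mem_of_r_ne_zero h1) (Res.inv_mem_of_r h2),
      Res.r_pow (Res.mem_of_r_ne_zero hg20), hg2, Res.r_inv h2,
      Res.r_pow (Res.mem_of_r_ne_zero h.r₂),
      (C i₂).r_algebraMap _ (Res.mem_of_r_ne_zero hmn)]
  have hx0 : g ^ m / Y ^ n ≠ 0 := div_ne_zero (pow_ne_zero _ hg0) (pow_ne_zero _ hY0)
  have hcnt := local_conserve' hB hC ht hS hM hx0 (fun i hi => by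
    rcases hbr i hi with rfl | rfl
    · rw [hx1]; exact div_ne_zero (pow_ne_zero _ h.r₁) (pow_ne_zero _ h.r₁)
    · rw [ex]
      exact Res.r_mul_ne_zero (Res.r_mul_ne_zero (Res.r_pow_ne_zero hg20 m)
        (Res.r_inv_ne_zero (Res.r_pow_ne_zero h.r₂ n))) hcr)
  rw [h.sum_eq ht hS, cnt_div _ (pow_ne_zero _ hg0) (pow_ne_zero _ hY0), cnt_pow, cnt_pow,
    cnt_eq_zero h.gen, mul_zero, sub_zero, hx1, hx2] at hcnt
  have ho1 : 𝔭₁.ord ((C i₁).r Y ^ m / (C i₁).r Y ^ n) = m - n := by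
    rw [div_eq_mul_inv, 𝔭₁.ord_mul (pow_ne_zero _ h.r₁) (inv_ne_zero (pow_ne_zero _ h.r₁)),
      𝔭₁.ord_inv, ord_pow, ord_pow, h.ord₁]
    ring
  have ho2 : 𝔭₂.ord ((-1) ^ m * ((C i₂).r (Y / algebraMap k F ϖ) ^ n)⁻¹ *
      algebraMap κ (𝓕 i₂) (B.r (a ^ m / ϖ ^ n))) = n := by
    have h1 : ((-1 : 𝓕 i₂)) ^ m = algebraMap κ (𝓕 i₂) ((-1) ^ m) := by
      rw [map_pow, map_neg, map_one]
    have h2 : ((C i₂).r (Y / algebraMap k F ϖ) ^ n)⁻¹ ≠ 0 := inv_ne_zero (pow_ne_zero _ h.r₂)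
    have h3 : algebraMap κ (𝓕 i₂) ((-1) ^ m) ≠ 0 := by
      rw [← h1]; exact pow_ne_zero _ (neg_ne_zero.mpr one_ne_zero)
    have h4 : algebraMap κ (𝓕 i₂) (B.r (a ^ m / ϖ ^ n)) ≠ 0 := by
      rw [Ne, FaithfulSMul.algebraMap_eq_zero_iff]
      exact hmn
    rw [h1, 𝔭₂.ord_mul (mul_ne_zero h3 h2) h4, 𝔭₂.ord_mul h3 h2, 𝔭₂.ord_inv, ord_pow, h.ord₂,
      ord_algebraMap, ord_algebraMap]
    ring
  rw [ho1, ho2, sub_add_cancel] at hcnt
  have hcnt1 : cnt (Models.gen t M) g = 1 := by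
    have : (m : ℤ) ≠ 0 := by exact_mod_cast hm.ne'
    exact mul_left_cancel₀ this (by rw [hcnt, mul_one])
  have hgloc : g ∈ loc t M hM.isMaximal.isPrime :=
    sub_mem hYloc (chart_le_loc _ (algebraMap_mem_chart t hPYO))
  have hnn : ∀ Q ∈ Models.gen t M, 0 ≤ Q.ord g := fun Q hQ =>
    (mem_iff_ord Q hg0).mp (loc_mem_place hB hC ht _ hQ hgloc).1
  have hP1 : 1 ≤ P.ord g := by
    have := value_spec P hPY
    rw [val_lt_one_iff, ← ha, ← hg, or_iff_right hg0] at this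
    omega
  exact ⟨ha0, hPYO, har, hϖaO, hϖar, hg0,
    fun Q hQ => ord_eq_of_cnt_one hnn hcnt1.le hP hP1 Q hQ⟩

section Two

variable {F 𝓕₁ 𝓕₂ : Type*} [Field F] [Field 𝓕₁] [Field 𝓕₂] [Algebra k F] [Algebra κ 𝓕₁]
  [Algebra κ 𝓕₂]

theorem scale_mono {𝓕 : Type*} [Field 𝓕] [Algebra κ 𝓕] (C : Comp B F 𝓕) {c' β : k} {x : F}
    (hc' : c' ≠ 0) (hβ : β ≠ 0) (h1 : c' / β ∈ B.O) (h2 : (x - 1) / algebraMap k F c' ∈ C.O) :
    (x - 1) / algebraMap k F β ∈ C.O := by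
  have : (x - 1) / algebraMap k F β = algebraMap k F (c' / β) * ((x - 1) / algebraMap k F c') := by
    have := algMap_ne (F := F) hc'
    have := algMap_ne (F := F) hβ
    rw [map_div₀]; field_simp
  rw [this]
  exact mul_mem (C.algebraMap_mem _ h1) h2

/-- a common scale on two components -/
theorem near_or_scale₂ (C₁ : Comp B F 𝓕₁) (C₂ : Comp B F 𝓕₂) {c : k} (hc : c ≠ 0) (x : F) :
    (Near C₁ c x ∧ Near C₂ c x) ∨ ∃ β : k, β ≠ 0 ∧ c / β ∈ B.O ∧ B.r (c / β) = 0 ∧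
      (x - 1) / algebraMap k F β ∈ C₁.O ∧ (x - 1) / algebraMap k F β ∈ C₂.O ∧
      (C₁.r ((x - 1) / algebraMap k F β) ≠ 0 ∨ C₂.r ((x - 1) / algebraMap k F β) ≠ 0) := by
  rcases near_or_scale C₁ hc x with h1 | ⟨β₁, hβ₁, a1, b1, d1⟩
  · rcases near_or_scale C₂ hc x with h2 | ⟨β₂, hβ₂, a2, b2, d2⟩
    · exact Or.inl ⟨h1, h2⟩
    · exact Or.inr ⟨β₂, hβ₂, a2, b2, scale_mono C₁ hc hβ₂ a2 ((near_iff_div hc).mp h1),
        Res.mem_of_r_ne_zero d2, Or.inr d2⟩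
  · rcases near_or_scale C₂ hc x with h2 | ⟨β₂, hβ₂, a2, b2, d2⟩
    · exact Or.inr ⟨β₁, hβ₁, a1, b1, Res.mem_of_r_ne_zero d1,
        scale_mono C₂ hc hβ₁ a1 ((near_iff_div hc).mp h2), Or.inl d1⟩
    · rcases B.O.mem_or_inv_mem (β₁ / β₂) with h | h
      · exact Or.inr ⟨β₂, hβ₂, a2, b2, scale_mono C₁ hβ₁ hβ₂ h (Res.mem_of_r_ne_zero d1),
          Res.mem_of_r_ne_zero d2, Or.inr d2⟩
      · rw [inv_div] at h
        exact Or.inr ⟨β₁, hβ₁, a1, b1, Res.mem_of_r_ne_zero d1,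
          scale_mono C₂ hβ₂ hβ₁ h (Res.mem_of_r_ne_zero d2), Or.inl d1⟩

theorem near_const {C₁ : Comp B F 𝓕₁} {c d : k} (hc : c ≠ 0) (h : (d - 1) / c ∈ B.O) :
    Near C₁ c (algebraMap k F d) := by
  refine ⟨algebraMap k F ((d - 1) / c), C₁.algebraMap_mem _ h, ?_⟩
  rw [← map_mul, mul_div_cancel₀ _ hc, map_sub, map_one]; ring

end Two

/-- **Local generators at nodes.** -/
theorem local_gen_node (hB : B.RankOne) (hBc : B.Commens) (hC : Incomp C) {t : F}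
    (ht : IsGood C t) (hS : Surj C t) {M : Ideal (chart C t)} {i₁ i₂ : ι} {𝔭₁ : Place κ (𝓕 i₁)}
    {𝔭₂ : Place κ (𝓕 i₂)} {Y : F} {ϖ : k} (h : IsNode C t M i₁ i₂ 𝔭₁ 𝔭₂ Y ϖ)
    {n : ℕ} (hn : (n : k) ≠ 0) {c : k}
    (hcO : c ∈ B.O) (hc : c ≠ 0) (hc0 : B.r c = 0) {u : F} (hu₁ : Near (C i₁) ((n : k) * c) u)
    (hu₂ : Near (C i₂) ((n : k) * c) u)
    {D : Divisor k F} (hD : ∀ P : Place k F, P.ord u = n * D P) :
    ∃ (x : F) (α : k), x ≠ 0 ∧ α ≠ 0 ∧ (∀ P ∈ gen t M, P.ord x = D P) ∧ Near (C i₁) c x ∧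
      Near (C i₂) c (x / algebraMap k F α) ∧ (α ^ n - 1) / ((n : k) * c) ∈ B.O := by
  classical
  have hn0 : n ≠ 0 := by rintro rfl; simp at hn
  have hnO : (n : k) ∈ B.O := natCast_mem B.O n
  have hncO : (n : k) * c ∈ B.O := mul_mem hnO hcO
  have hnc0 : B.r ((n : k) * c) = 0 := by rw [Res.r_mul hnO hcO, hc0, mul_zero]
  have hncne : (n : k) * c ≠ 0 := mul_ne_zero hn hc
  have hM := isPoint_of_spec hB hC ht ⟨𝔭₁, h.spec₁⟩
  have hϖF : algebraMap k F ϖ ≠ 0 := algMap_ne h.ϖ_ne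
  have hY0 : Y ≠ 0 := Res.ne_zero_of_r h.r₁
  have hbr : ∀ i, (spec t M i).Nonempty → i = i₁ ∨ i = i₂ := by
    intro i hi
    by_contra! hne
    exact h.others i hne.1 hne.2 hi
  have hnode := fun P (hP : P ∈ gen t M) => node_coord hB hBc hC ht hS h hP
  have hur₁ := hu₁.r_eq hncO hnc0
  have hur₂ := hu₂.r_eq hncO hnc0
  have hu0 : u ≠ 0 := hu₁.ne hncO hnc0
  have hdeg : degOn (gen t M) D = 0 := by
    refine degOn_eq_zero_of hn0 hD ?_
    rw [local_conserve' hB hC ht hS hM hu0 (fun j hj' => by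
      rcases hbr j hj' with rfl | rfl
      · rw [hur₁]; exact one_ne_zero
      · rw [hur₂]; exact one_ne_zero), h.sum_eq ht hS, hur₁, hur₂, Place.ord_one, Place.ord_one,
        add_zero]
  -- the generator
  set x := lgen Y (fun P => value P Y) (gen t M) D with hx
  have hxne : x ≠ 0 := lgen_ne hY0 (fun P hP => (hnode P hP).2.2.2.2.2.1) D
  have hxord : ∀ P ∈ gen t M, P.ord x = D P := fun P hP =>
    ord_lgen hY0 (fun P hP => (hnode P hP).2.2.2.2.2.1) (fun P hP => (hnode P hP).2.2.2.2.2.2) hdeg hP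
  have hxU : Uni B Y x := Uni.prod _ _ fun P hP =>
    (Uni.single Y (hnode P (mem_supp.mp hP).2).2.1 (hnode P (mem_supp.mp hP).2).2.2.1).zpow _
  -- the other end
  set z₂ : F := algebraMap k F ϖ / Y with hz₂
  have hz₂r : (C i₂).r z₂ ≠ 0 := by
    have := Res.r_inv_ne_zero h.r₂
    rwa [inv_div] at this
  have hz₂o : 𝔭₂.ord ((C i₂).r z₂) = 1 := by
    have e : z₂ = (Y / algebraMap k F ϖ)⁻¹ := by rw [inv_div]
    rw [e, Res.r_inv h.r₂, 𝔭₂.ord_inv, h.ord₂]; ring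
  have hz₂ne : z₂ ≠ 0 := Res.ne_zero_of_r hz₂r
  set x₂ := lgen z₂ (fun P => ϖ / value P Y) (gen t M) D with hx₂
  have hx₂U : Uni B z₂ x₂ := Uni.prod _ _ fun P hP =>
    (Uni.single z₂ (hnode P (mem_supp.mp hP).2).2.2.2.1
      (hnode P (mem_supp.mp hP).2).2.2.2.2.1).zpow _
  have hx₂r : (C i₂).r x₂ = 1 := hx₂U.r_eq hz₂r
  have hx₂ne : x₂ ≠ 0 := Res.ne_zero_of_r (C := (C i₂).toRes) (by rw [hx₂r]; exact one_ne_zero)
  set α : k := ∏ P ∈ supp (gen t M) D, ((-(ϖ / value P Y))⁻¹) ^ D P with hα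
  have hα0 : α ≠ 0 := Finset.prod_ne_zero_iff.mpr fun P hP => zpow_ne_zero _
    (inv_ne_zero (neg_ne_zero.mpr (div_ne_zero h.ϖ_ne (hnode P (mem_supp.mp hP).2).1)))
  have hαF := algMap_ne (F := F) hα0
  have hxx₂ : x = algebraMap k F α * x₂ := by
    have e1 : ∀ P ∈ supp (gen t M) D, ((Y - algebraMap k F (value P Y)) / Y) ^ D P =
        algebraMap k F (((-(ϖ / value P Y))⁻¹) ^ D P) * z₂ ^ D P *
          ((z₂ - algebraMap k F (ϖ / value P Y)) / z₂) ^ D P := by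
      intro P hP
      have ha := (hnode P (mem_supp.mp hP).2).1
      have haF := algMap_ne (F := F) ha
      rw [map_zpow₀, ← mul_zpow, ← mul_zpow]
      congr 1
      rw [map_inv₀, map_neg, map_div₀, hz₂]
      field_simp
      ring
    rw [hx, lgen, Finset.prod_congr rfl e1, Finset.prod_mul_distrib, Finset.prod_mul_distrib,
      ← map_prod, ← hα]
    have e2 : ∏ P ∈ supp (gen t M) D, z₂ ^ D P = 1 := by
      have e3 : ∏ P ∈ supp (gen t M) D, z₂ ^ D P = z₂ ^ (∑ P ∈ supp (gen t M) D, D P) := by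
        induction supp (gen t M) D using Finset.induction_on with
        | empty => simp
        | insert a s ha ih => rw [Finset.prod_insert ha, Finset.sum_insert ha, zpow_add₀ hz₂ne, ih]
      rw [e3, sum_supp, hdeg, zpow_zero]
    rw [e2, mul_one]
    rfl
  have hxn₁ : (C i₁).r (x ^ n) = 1 := (hxU.pow n).r_eq h.r₁
  have hxn₁' : (C i₁).r (x ^ n) ≠ 0 := by rw [hxn₁]; exact one_ne_zero
  have hxn₂ : (C i₂).r (x₂ ^ n) = 1 := (hx₂U.pow n).r_eq hz₂r
  have hxn₂' : (C i₂).r (x₂ ^ n) ≠ 0 := by rw [hxn₂]; exact one_ne_zero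
  set η := u / x ^ n with hη
  have hηr : (C i₁).r η = 1 := by
    rw [hη, Res.r_div (hu₁.mem hncO) hxn₁', hur₁, hxn₁, div_one]
  have hηne : η ≠ 0 := div_ne_zero hu0 (pow_ne_zero _ hxne)
  have hηord : ∀ P ∈ gen t M, P.ord η = 0 := by
    intro P hP
    rw [hη, div_eq_mul_inv, P.ord_mul hu0 (inv_ne_zero (pow_ne_zero _ hxne)), P.ord_inv, ord_pow,
      hD, hxord P hP]
    ring
  obtain ⟨hη₂, -⟩ := unit_at_node hB hC ht hS h.spec₁ h.spec₂ hbr hηord
    (by rw [hηr]; exact one_ne_zero) (by rw [hηr, Place.ord_one])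
  -- the constant `δ = α⁻ⁿ`
  set δ : k := (α ^ n)⁻¹ with hδ
  have hδ0 : δ ≠ 0 := inv_ne_zero (pow_ne_zero _ hα0)
  have hηδ : η = u * algebraMap k F δ * (x₂ ^ n)⁻¹ := by
    rw [hη, hxx₂, hδ, map_inv₀, map_pow, mul_pow]
    field_simp
  have hδr : (C i₂).r (algebraMap k F δ) ≠ 0 := by
    have e : algebraMap k F δ = η * x₂ ^ n / u := by rw [hηδ]; field_simp
    rw [e]
    exact Res.r_div_ne_zero (Res.r_mul_ne_zero hη₂ hxn₂') (by rw [hur₂]; exact one_ne_zero)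
  have hδO : δ ∈ B.O := (C i₂).algebraMap_mem_iff.mp (Res.mem_of_r_ne_zero hδr)
  have hδiO : δ⁻¹ ∈ B.O := by
    refine (C i₂).algebraMap_mem_iff.mp ?_
    rw [map_inv₀]; exact Res.inv_mem_of_r hδr
  have hx₁i : (x ^ n)⁻¹ ∈ (C i₁).O := Res.inv_mem_of_r hxn₁'
  have hx₂i : (x₂ ^ n)⁻¹ ∈ (C i₂).O := Res.inv_mem_of_r hxn₂'
  -- the main claim
  have hnear : Near (C i₁) ((n : k) * c) η ∧ Near (C i₂) ((n : k) * c) η := by
    rcases near_or_scale₂ (C i₁) (C i₂) hncne η with h0 | ⟨β, hβ, h1, h2, h3, h4, h5⟩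
    · exact h0
    exfalso
    have hβF := algMap_ne (F := F) hβ
    have hloc : (η - 1) / algebraMap k F β ∈ loc t M hM.isMaximal.isPrime :=
      mem_loc_of hB hC ht hS hM (fun P hP => by
        rw [div_eq_mul_inv, ← map_inv₀]
        exact mul_mem (sub_mem ((mem_iff_ord P hηne).mpr (hηord P hP).ge) (one_mem _))
          (P.algebraMap_mem' _)) fun j hj' => by
        rcases hbr j hj' with rfl | rfl
        · exact h3
        · exact h4
    have hreg₁ := (loc_mem_O hB hC ht _ h.spec₁ hloc).2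
    have hreg₂ := (loc_mem_O hB hC ht _ h.spec₂ hloc).2
    have hval := loc_value_eq hB hC ht _ h.spec₁ h.spec₂ hloc
    -- first component
    have hz1 : (C i₁).r ((η - 1) / algebraMap k F β) = 0 := by
      by_contra hne
      obtain ⟨z, hz, hzu⟩ := hu₁
      have hsm : algebraMap k F ((n : k) * c / β) * z ∈ (C i₁).O ∧
          (C i₁).r (algebraMap k F ((n : k) * c / β) * z) = 0 := by
        have h4 := (C i₁).algebraMap_mem _ h1
        refine ⟨mul_mem h4 hz, ?_⟩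
        rw [Res.r_mul h4 hz, (C i₁).r_algebraMap_eq_zero h1 h2, zero_mul]
      have e : ((x ^ n)⁻¹ - 1) / algebraMap k F β = (η - 1) / algebraMap k F β -
          algebraMap k F ((n : k) * c / β) * z * (x ^ n)⁻¹ := by
        rw [hη, hzu, map_div₀]
        field_simp
        ring
      have hmem : ((x ^ n)⁻¹ - 1) / algebraMap k F β ∈ (C i₁).O := by
        rw [e]
        exact sub_mem h3 (mul_mem hsm.1 hx₁i)
      have hre : (C i₁).r (((x ^ n)⁻¹ - 1) / algebraMap k F β) =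
          (C i₁).r ((η - 1) / algebraMap k F β) := by
        rw [e, Res.r_sub h3 (mul_mem hsm.1 hx₁i), Res.r_mul hsm.1 hx₁i, hsm.2,
          zero_mul, sub_zero]
      rcases (hxU.pow n).inv.key 𝔭₁ h.r₁ h.ord₁ hβ hmem with h4 | h4
      · rw [hre] at h4; exact hne h4
      · rw [hre] at h4
        have := (mem_iff_ord 𝔭₁ hne).mp hreg₁
        omega
    -- second component
    have hz2 : (C i₂).r ((η - 1) / algebraMap k F β) = 0 := by
      obtain ⟨z, hz, hzu⟩ := hu₂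
      have hδF := (C i₂).algebraMap_mem _ hδO
      have hsm : algebraMap k F ((n : k) * c / β) * z ∈ (C i₂).O ∧
          (C i₂).r (algebraMap k F ((n : k) * c / β) * z) = 0 := by
        have h4 := (C i₂).algebraMap_mem _ h1
        refine ⟨mul_mem h4 hz, ?_⟩
        rw [Res.r_mul h4 hz, (C i₂).r_algebraMap_eq_zero h1 h2, zero_mul]
      have hdx : algebraMap k F δ * (x₂ ^ n)⁻¹ ∈ (C i₂).O := mul_mem hδF hx₂i
      have e : (algebraMap k F δ * (x₂ ^ n)⁻¹ - 1) / algebraMap k F β =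
          (η - 1) / algebraMap k F β -
          algebraMap k F ((n : k) * c / β) * z * (algebraMap k F δ * (x₂ ^ n)⁻¹) := by
        rw [hηδ, hzu, map_div₀]
        field_simp
        ring
      have hmem : (algebraMap k F δ * (x₂ ^ n)⁻¹ - 1) / algebraMap k F β ∈ (C i₂).O := by
        rw [e]
        exact sub_mem h4 (mul_mem hsm.1 hdx)
      have hre : (C i₂).r ((algebraMap k F δ * (x₂ ^ n)⁻¹ - 1) / algebraMap k F β) =
          (C i₂).r ((η - 1) / algebraMap k F β) := by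
        rw [e, Res.r_sub h4 (mul_mem hsm.1 hdx), Res.r_mul hsm.1 hdx, hsm.2,
          zero_mul, sub_zero]
      have hlead := (hx₂U.pow n).inv.lead 𝔭₂ hz₂r hz₂o hδO hβ hmem
      have hlF := (C i₂).algebraMap_mem _ hlead
      have e3 : (algebraMap k F δ * (x₂ ^ n)⁻¹ - 1) / algebraMap k F β =
          algebraMap k F δ * (((x₂ ^ n)⁻¹ - 1) / algebraMap k F β) +
            algebraMap k F ((δ - 1) / β) := by
        rw [map_div₀, map_sub, map_one]
        field_simp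
        ring
      have hy3 : ((x₂ ^ n)⁻¹ - 1) / algebraMap k F β ∈ (C i₂).O := by
        have : ((x₂ ^ n)⁻¹ - 1) / algebraMap k F β = algebraMap k F δ⁻¹ *
            ((algebraMap k F δ * (x₂ ^ n)⁻¹ - 1) / algebraMap k F β -
              algebraMap k F ((δ - 1) / β)) := by
          rw [e3, map_inv₀]
          have := algMap_ne (F := F) hδ0
          field_simp
          ring
        rw [this]
        exact mul_mem ((C i₂).algebraMap_mem _ hδiO) (sub_mem hmem hlF)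
      have hrr : (C i₂).r ((η - 1) / algebraMap k F β) = (C i₂).r (algebraMap k F δ) *
          (C i₂).r (((x₂ ^ n)⁻¹ - 1) / algebraMap k F β) +
            algebraMap κ (𝓕 i₂) (B.r ((δ - 1) / β)) := by
        rw [← hre, e3, Res.r_add (mul_mem hδF hy3) hlF, Res.r_mul hδF hy3,
          (C i₂).r_algebraMap _ hlead]
      have hδr' : (C i₂).r (algebraMap k F δ) = algebraMap κ (𝓕 i₂) (B.r δ) :=
        (C i₂).r_algebraMap _ hδO
      have hy3r : (C i₂).r (((x₂ ^ n)⁻¹ - 1) / algebraMap k F β) = 0 := by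
        by_contra hne
        have h6 := ((hx₂U.pow n).inv.key 𝔭₂ hz₂r hz₂o hβ hy3).resolve_left hne
        have h7 : (C i₂).r (((x₂ ^ n)⁻¹ - 1) / algebraMap k F β) =
            ((C i₂).r (algebraMap k F δ))⁻¹ * ((C i₂).r ((η - 1) / algebraMap k F β) -
              algebraMap κ (𝓕 i₂) (B.r ((δ - 1) / β))) := by
          rw [hrr]; field_simp; ring
        have h8 : (C i₂).r (((x₂ ^ n)⁻¹ - 1) / algebraMap k F β) ∈ 𝔭₂.toValuationSubring := by
          rw [h7, hδr', ← map_inv₀]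
          exact mul_mem (𝔭₂.algebraMap_mem' _) (sub_mem hreg₂ (𝔭₂.algebraMap_mem' _))
        have := (mem_iff_ord 𝔭₂ hne).mp h8
        omega
      rw [hz1, value_zero'', hrr, hy3r, mul_zero, zero_add, value_algebraMap] at hval
      rw [hrr, hy3r, mul_zero, zero_add, ← hval, map_zero]
    rcases h5 with h5 | h5
    · exact h5 hz1
    · exact h5 hz2
  obtain ⟨hn₁, hn₂⟩ := hnear
  -- second end
  have hdn : Near (C i₂) ((n : k) * c) (algebraMap k F δ * (x₂ ^ n)⁻¹) := by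
    have : algebraMap k F δ * (x₂ ^ n)⁻¹ = η / u := by rw [hηδ]; field_simp
    rw [this]
    exact hn₂.div hncO hnc0 hu₂
  have hlead := (hx₂U.pow n).inv.lead 𝔭₂ hz₂r hz₂o hδO hncne ((near_iff_div hncne).mp hdn)
  refine ⟨x, α, hxne, hα0, hxord, ?_, ?_, ?_⟩
  · refine hxU.root 𝔭₁ h.r₁ h.ord₁ hn hc ?_
    have : x ^ n = u / η := by rw [hη]; field_simp
    rw [this]
    exact hu₁.div hncO hnc0 hn₁
  · have e : x / algebraMap k F α = x₂ := by rw [hxx₂]; field_simp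
    rw [e]
    refine hx₂U.root 𝔭₂ hz₂r hz₂o hn hc ?_
    have hδF := algMap_ne (F := F) hδ0
    have : x₂ ^ n = algebraMap k F δ * (u / η) := by rw [hηδ]; field_simp
    rw [this]
    exact (near_const hncne hlead).mul hncO (hu₂.div hncO hnc0 hn₂)
  · have e : (α ^ n - 1) / ((n : k) * c) = -((δ - 1) / ((n : k) * c) * δ⁻¹) := by
      rw [hδ]
      have := pow_ne_zero n hα0
      field_simp
      ring
    rw [e]
    exact neg_mem (mul_mem hlead hδiO)

end Fermat.Agent.AtP
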