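import Fermat.Agent.AtP.Rigid
import Fermat.Agent.AtP.LocalNode
import Fermat.Agent.Models.Toric
import Fermat.Agent.Models.RamSlope

/-!
# Inertia acts on classes of toric type through the cyclotomic character
-/

set_option autoImplicit false
set_option linter.unusedSectionVars false
set_option linter.style.haveILetI false

noncomputable section

namespace Fermat.Agent.AtP

open AlgebraicCurve Fermat.Agent.Curves Fermat.Agent.Models Polynomial

section Root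

variable {k κ : Type*} [Field k] [Field κ] {B : Res k κ} [IsAlgClosed k]

/-- a number whose `n`-th power is `1` modulo `n c` is congruent to a root of unity modulo `c` -/
theorem near_root {n : ℕ} (hn : (n : k) ≠ 0) {c α : k} (hc : c ≠ 0)
    (h : (α ^ n - 1) / ((n : k) * c) ∈ B.O) : ∃ ζ : k, ζ ^ n = 1 ∧ (α - ζ) / c ∈ B.O := by
  classical
  have hn0 : 0 < n := Nat.pos_of_ne_zero (by rintro rfl; simp at hn)
  haveI : NeZero (n : k) := ⟨hn⟩
  haveI : NeZero n := ⟨hn0.ne'⟩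
  obtain ⟨ε, hε⟩ := HasEnoughRootsOfUnity.exists_primitiveRoot k n
  set S : Finset k := nthRootsFinset n (1 : k) with hS
  have hSne : S.Nonempty := ⟨1, by rw [hS, mem_nthRootsFinset hn0]; simp⟩
  obtain ⟨ζ₀, hζ₀, hmin⟩ := S.exists_min_image (fun ζ => B.O.valuation (α - ζ)) hSne
  have hζ₀1 : ζ₀ ^ n = 1 := (mem_nthRootsFinset hn0 _).mp hζ₀
  have hprod := X_pow_sub_one_eq_prod hn0 hε
  set Q : k[X] := ∏ ζ ∈ S.erase ζ₀, (X - C ζ) with hQ
  have h1 : (X : k[X]) ^ n - 1 = (X - C ζ₀) * Q := by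
    rw [hprod, hQ, Finset.mul_prod_erase S (fun ζ => X - C ζ) hζ₀]
  have h2 : (n : k) * ζ₀ ^ (n - 1) = ∏ ζ ∈ S.erase ζ₀, (ζ₀ - ζ) := by
    have h3 := congrArg (fun f => eval ζ₀ (derivative f)) h1
    simp only [derivative_sub, derivative_X_pow, derivative_one, derivative_mul, derivative_X,
      derivative_C, sub_zero, one_mul, eval_add, eval_mul, eval_sub, eval_X, eval_C, sub_self,
      zero_mul, add_zero, eval_pow, eval_natCast, map_natCast] at h3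
    rw [h3, hQ, eval_prod]
    simp
  have h3 : α ^ n - 1 = (α - ζ₀) * ∏ ζ ∈ S.erase ζ₀, (α - ζ) := by
    have h4 := congrArg (eval α) h1
    rw [hQ, eval_mul, eval_prod] at h4
    simpa using h4
  set v := B.O.valuation with hv
  have h4 : v (∏ ζ ∈ S.erase ζ₀, (ζ₀ - ζ)) ≤ v (∏ ζ ∈ S.erase ζ₀, (α - ζ)) := by
    rw [map_prod, map_prod]
    refine Finset.prod_le_prod' fun ζ hζ => ?_
    have h5 := hmin ζ (Finset.mem_of_mem_erase hζ)
    have e : ζ₀ - ζ = (α - ζ) - (α - ζ₀) := by ring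
    rw [e]
    refine (Valuation.map_sub v _ _).trans (max_le le_rfl h5)
  have hvζ : v ζ₀ = 1 := by
    have h5 : v ζ₀ ^ n = 1 := by rw [← map_pow, hζ₀1, map_one]
    exact (pow_eq_one_iff_of_nonneg zero_le' hn0.ne').mp h5
  have h6 : v (α - ζ₀) * v (n : k) ≤ v (n : k) * v c := by
    have h7 : v (α ^ n - 1) ≤ v (n : k) * v c := by
      rw [← ValuationSubring.valuation_le_one_iff, map_div₀, map_mul] at h
      rwa [div_le_one₀] at h
      rw [zero_lt_iff]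
      exact mul_ne_zero ((Valuation.ne_zero_iff v).mpr hn) ((Valuation.ne_zero_iff v).mpr hc)
    refine le_trans ?_ h7
    rw [h3, map_mul]
    refine mul_le_mul_right ?_ _
    rw [← h2, map_mul, map_pow, hvζ, one_pow, mul_one] at h4
    exact h4
  refine ⟨ζ₀, hζ₀1, ?_⟩
  rw [← ValuationSubring.valuation_le_one_iff, map_div₀]
  rw [div_le_one₀ (zero_lt_iff.mpr ((Valuation.ne_zero_iff v).mpr hc))]
  rw [mul_comm] at h6
  exact le_of_mul_le_mul_left h6 (zero_lt_iff.mpr ((Valuation.ne_zero_iff v).mpr hn))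

end Root

section Gens

variable {k κ : Type*} [Field k] [Field κ] {B : Res k κ} {F : Type*} [Field F] [Algebra k F]
  {ι : Type*} {𝓕 : ι → Type*} [∀ i, Field (𝓕 i)] [∀ i, Algebra κ (𝓕 i)]
  {C : ∀ i, Comp B F (𝓕 i)}
  [IsAlgClosed k] [IsAlgClosed κ] [IsFunctionField k F] [∀ i, IsFunctionField κ (𝓕 i)]
  [Fintype ι] [DecidableEq ι] [Nonempty ι]

/-- local generators congruent to roots of unity -/
def RootGen (C : ∀ i, Comp B F (𝓕 i)) (t : F) (D : Divisor k F) (n : ℕ) (c : k)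
    (M : Ideal (chart C t)) : Prop :=
  ∃ (x : F) (ζ : ι → k), x ≠ 0 ∧ (∀ i, ζ i ^ n = 1) ∧ (∀ P ∈ gen t M, P.ord x = D P) ∧
    ∀ i, (spec t M i).Nonempty → Near (C i) c (x / algebraMap k F (ζ i))

theorem RootGen.of_smooth (hB : B.RankOne) (hC : Incomp C) {t : F} (ht : IsGood C t)
    (hS : Surj C t) {M : Ideal (chart C t)} {i : ι} {𝔭 : Place κ (𝓕 i)} (h𝔭 : 𝔭 ∈ spec t M i)
    (hj : ∀ j, j ≠ i → ¬ (spec t M j).Nonempty) {n : ℕ} (hn : (n : k) ≠ 0) {c : k}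
    (hcO : c ∈ B.O) (hc : c ≠ 0) (hc0 : B.r c = 0) {u : F}
    (hu : ∀ i, Near (C i) ((n : k) * c) u)
    {D : Divisor k F} (hD : ∀ P : Place k F, P.ord u = n * D P) : RootGen C t D n c M := by
  obtain ⟨x, hx0, hxD, hx⟩ := local_gen_smooth hB hC ht hS h𝔭 hj hn hcO hc hc0 (hu i) hD
  refine ⟨x, fun _ => 1, hx0, fun _ => one_pow n, hxD, fun j hj' => ?_⟩
  rw [map_one, div_one]
  by_cases h : j = i
  · subst h; exact hx
  · exact absurd hj' (hj j h)

theorem inv_mem_of_pow_eq_one {n : ℕ} (hn : n ≠ 0) {ζ : k} (h : ζ ^ n = 1) :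
    ζ ∈ B.O ∧ ζ⁻¹ ∈ B.O := by
  have key : ∀ ζ : k, ζ ^ n = 1 → ζ ∈ B.O := by
    intro ζ h
    have h1 : B.O.valuation ζ ^ n = 1 := by rw [← map_pow, h, map_one]
    rw [← ValuationSubring.valuation_le_one_iff]
    exact ((pow_eq_one_iff_of_nonneg zero_le' hn).mp h1).le
  exact ⟨key ζ h, key ζ⁻¹ (by rw [inv_pow, h, inv_one])⟩

theorem RootGen.of_node (hB : B.RankOne) (hBc : B.Commens) (hC : Incomp C) {t : F}
    (ht : IsGood C t) (hS : Surj C t) {M : Ideal (chart C t)} {i₁ i₂ : ι} {𝔭₁ : Place κ (𝓕 i₁)}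
    {𝔭₂ : Place κ (𝓕 i₂)} {Y : F} {ϖ : k} (h : IsNode C t M i₁ i₂ 𝔭₁ 𝔭₂ Y ϖ)
    {n : ℕ} (hn : (n : k) ≠ 0) {c : k}
    (hcO : c ∈ B.O) (hc : c ≠ 0) (hc0 : B.r c = 0) {u : F}
    (hu : ∀ i, Near (C i) ((n : k) * c) u)
    {D : Divisor k F} (hD : ∀ P : Place k F, P.ord u = n * D P) : RootGen C t D n c M := by
  have hn0 : n ≠ 0 := by rintro rfl; simp at hn
  obtain ⟨x, α, hx0, hα0, hxD, hx1, hx2, hα⟩ := local_gen_node hB hBc hC ht hS h hn hcO hc hc0
    (hu i₁) (hu i₂) hD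
  obtain ⟨ζ, hζ, hζα⟩ := near_root hn hc hα
  obtain ⟨hζO, hζO'⟩ := inv_mem_of_pow_eq_one (B := B) hn0 hζ
  have hζ0 : ζ ≠ 0 := by
    rintro rfl
    rw [zero_pow hn0] at hζ
    exact zero_ne_one hζ
  refine ⟨x, fun i => if i = i₂ then ζ else 1, hx0, fun i => ?_, hxD, fun j hj => ?_⟩
  · dsimp only
    split_ifs
    · exact hζ
    · exact one_pow n
  · dsimp only
    by_cases hj2 : j = i₂
    · subst hj2
      rw [if_pos rfl]
      have hαF : algebraMap k F α ≠ 0 := by simpa using hα0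
      have hζF : algebraMap k F ζ ≠ 0 := by simpa using hζ0
      have e : x / algebraMap k F ζ = (x / algebraMap k F α) * algebraMap k F (α / ζ) := by
        rw [map_div₀]; field_simp
      rw [e]
      refine hx2.mul hcO (near_const hc ?_)
      have e2 : (α / ζ - 1) / c = (α - ζ) / c * ζ⁻¹ := by field_simp
      rw [e2]
      exact mul_mem hζα hζO'
    · rw [if_neg hj2, map_one, div_one]
      by_cases hj1 : j = i₁
      · subst hj1; exact hx1
      · exact absurd hj (h.others j hj1 hj2)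

theorem RootGen.inv (hB : B.RankOne) (hC : Incomp C) {t : F} (ht : IsGood C t)
    (hS' : Surj C t⁻¹) {D : Divisor k F} {n : ℕ} {c : k}
    (hL : ∀ N : Ideal (chart C t), IsPoint t N → RootGen C t D n c N)
    {M : Ideal (chart C t⁻¹)} (hM : IsPoint t⁻¹ M)
    (hMt : (⟨t⁻¹, self_mem_chart ht.inv.mem⟩ : chart C t⁻¹) ∉ M) : RootGen C t⁻¹ D n c M := by
  obtain ⟨N, hN, h1, h2⟩ := chart_inv_point hB hC ht hS' hM hMt
  obtain ⟨x, ζ, hx0, hζ, hxD, hx⟩ := hL N hN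
  exact ⟨x, ζ, hx0, hζ, fun P hP => hxD P (h1 hP), fun i hi => hx i (hi.mono (h2 i))⟩

/-- semilinear automorphisms preserve congruences -/
theorem near_inertial {σ : F ≃+* F} {σ₀ : k ≃+* k} {s : Place k F ≃ Place k F}
    (h : Inertial C σ σ₀ s) {i : ι} {c : k} (hc : c ≠ 0) {x : F} (hx : Near (C i) c x) :
    Near (C i) c (σ x) := by
  obtain ⟨y, hy, rfl⟩ := hx
  have h1 := h.unit c hc
  refine ⟨algebraMap k F (σ₀ c / c) * σ y, mul_mem ((C i).algebraMap_mem _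
    (Res.mem_of_r_ne_zero h1)) (h.mem i y hy), ?_⟩
  have hcF : algebraMap k F c ≠ 0 := by simpa using hc
  rw [map_add, map_one, map_mul, h.map_const, map_div₀]
  field_simp

/-- twisting local generators -/
theorem RootGen.twist (hB : B.RankOne) (hC : Incomp C) {t : F} (ht : IsGood C t)
    (hS : Surj C t) {σ : F ≃+* F} {σ₀ : k ≃+* k} {s : Place k F ≃ Place k F}
    (h : Inertial C σ σ₀ s) (h' : Inertial C σ.symm σ₀.symm s.symm) (hσt : σ t = t)
    {n a : ℕ} (hχ : ∀ ζ : k, ζ ^ n = 1 → σ₀ ζ = ζ ^ a) {c : k} (hcO : c ∈ B.O) (hc : c ≠ 0)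
    (hc0 : B.r c = 0) {D D' : Divisor k F} (hDD : ∀ P, D' P = D (s.symm P) - a * D P)
    {M : Ideal (chart C t)} (hM : IsPoint t M) (hL : RootGen C t D n c M) :
    NearGen C t D' c M := by
  obtain ⟨x, ζ, hx0, hζ, hxD, hx⟩ := hL
  have hσx0 : σ x ≠ 0 := by simpa using hx0
  refine ⟨σ x / x ^ a, div_ne_zero hσx0 (pow_ne_zero _ hx0), fun P hP => ?_, fun i hi => ?_⟩
  · have hP' : s.symm P ∈ gen t M := by
      rw [Inertial.gen_iff' hB hC ht hS h h' hσt hM]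
      rwa [s.apply_symm_apply]
    have e1 := h.ord (s.symm P) x
    rw [s.apply_symm_apply] at e1
    rw [div_eq_mul_inv, P.ord_mul hσx0 (inv_ne_zero (pow_ne_zero _ hx0)), P.ord_inv, ord_pow, e1,
      hxD _ hP', hxD _ hP, hDD]
    ring
  · have h1 := hx i hi
    have hζ0 : ζ i ≠ 0 := by
      intro h0
      have h2 := hζ i
      rcases eq_or_ne n 0 with rfl | hn
      · have h3 := h1.ne hcO hc0
        rw [h0, map_zero, div_zero] at h3
        exact h3 rfl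
      · rw [h0, zero_pow hn] at h2
        exact zero_ne_one h2
    have hζF : algebraMap k F (ζ i) ≠ 0 := by simpa using hζ0
    have e : σ x / x ^ a = σ (x / algebraMap k F (ζ i)) / (x / algebraMap k F (ζ i)) ^ a := by
      rw [map_div₀, h.map_const, hχ _ (hζ i), map_pow, div_pow]
      field_simp
    rw [e]
    exact (near_inertial h hc h1).div hcO hc0 (h1.pow hcO a)

end Gens

section Two

variable {k κ : Type*} [Field k] [Field κ] {B : Res k κ} {F 𝓕 : Type*} [Field F] [Algebra k F]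
  [Field 𝓕] [Algebra κ 𝓕] {C : Bool → Comp B F 𝓕}
  [IsAlgClosed k] [IsAlgClosed κ] [IsFunctionField k F] [IsFunctionField κ 𝓕]

theorem rootGen_of {t : F} (hm : NodeModel C t) {n : ℕ} (hn : (n : k) ≠ 0) {c : k}
    (hcO : c ∈ B.O) (hc : c ≠ 0) (hc0 : B.r c = 0) {u : F}
    (hu : ∀ i, Near (C i) ((n : k) * c) u)
    {D : Divisor k F} (hD : ∀ P : Place k F, P.ord u = n * D P)
    (M : Ideal (chart C t)) (hM : IsPoint t M) : RootGen C t D n c M := by
  by_cases h1 : (spec t M true).Nonempty <;> by_cases h2 : (spec t M false).Nonempty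
  · obtain ⟨𝔭₁, h𝔭₁⟩ := h1
    obtain ⟨𝔭₂, h𝔭₂⟩ := h2
    obtain ⟨Y, ϖ, hn'⟩ := hm.node M 𝔭₁ 𝔭₂ h𝔭₁ h𝔭₂
    exact RootGen.of_node hm.rank hm.commens hm.incomp hm.good hm.surj hn' hn hcO hc hc0 hu hD
  · obtain ⟨𝔭₁, h𝔭₁⟩ := h1
    refine RootGen.of_smooth hm.rank hm.incomp hm.good hm.surj h𝔭₁ (fun j hj => ?_) hn hcO hc
      hc0 hu hD
    cases j
    · exact h2
    · exact absurd rfl hj
  · obtain ⟨𝔭₂, h𝔭₂⟩ := h2
    refine RootGen.of_smooth hm.rank hm.incomp hm.good hm.surj h𝔭₂ (fun j hj => ?_) hn hcO hc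
      hc0 hu hD
    cases j
    · exact absurd rfl hj
    · exact h1
  · obtain ⟨i, 𝔭, h𝔭⟩ := exists_spec hm.rank hm.incomp hm.good hm.surj hM.isMaximal
      fun a ha ha0 => hM.small_mem ha ha0
    cases i
    · exact absurd ⟨𝔭, h𝔭⟩ h2
    · exact absurd ⟨𝔭, h𝔭⟩ h1

theorem rootGen_inv {t : F} (hm : NodeModel C t) {n : ℕ} (hn : (n : k) ≠ 0) {c : k}
    (hcO : c ∈ B.O) (hc : c ≠ 0) (hc0 : B.r c = 0) {u : F}
    (hu : ∀ i, Near (C i) ((n : k) * c) u)
    {D : Divisor k F} (hD : ∀ P : Place k F, P.ord u = n * D P)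
    (M : Ideal (chart C t⁻¹)) (hM : IsPoint t⁻¹ M) : RootGen C t⁻¹ D n c M := by
  by_cases hM' : (⟨t⁻¹, self_mem_chart hm.good.inv.mem⟩ : chart C t⁻¹) ∈ M
  swap
  · exact RootGen.inv hm.rank hm.incomp hm.good hm.surj' (rootGen_of hm hn hcO hc hc0 hu hD) hM hM'
  have hx := hm.cusp M
  by_cases h1 : (spec t⁻¹ M true).Nonempty
  · obtain ⟨𝔭₁, h𝔭₁⟩ := h1
    refine RootGen.of_smooth hm.rank hm.incomp hm.good.inv hm.surj' h𝔭₁ (fun j hj => ?_) hn hcO hc
      hc0 hu hD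
    cases j
    · rintro ⟨𝔭₂, h𝔭₂⟩
      exact hx 𝔭₁ 𝔭₂ hM' h𝔭₁ h𝔭₂
    · exact absurd rfl hj
  · obtain ⟨i, 𝔭, h𝔭⟩ := exists_spec hm.rank hm.incomp hm.good.inv hm.surj' hM.isMaximal
      fun a ha ha0 => hM.small_mem ha ha0
    cases i
    · refine RootGen.of_smooth hm.rank hm.incomp hm.good.inv hm.surj' h𝔭 (fun j hj => ?_) hn hcO hc
        hc0 hu hD
      cases j
      · exact absurd rfl hj
      · exact h1
    · exact absurd ⟨𝔭, h𝔭⟩ h1

/-- **Inertia acts through the cyclotomic character**, normalised version. -/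
theorem toric_aux [CharZero k] {t : F} (hm : NodeModel C t) {n : ℕ} (hn : n ≠ 0)
    {σ : F ≃+* F} {σ₀ : k ≃+* k} {s : Place k F ≃ Place k F}
    (h : Inertial C σ σ₀ s) (h' : Inertial C σ.symm σ₀.symm s.symm) (hσt : σ t = t)
    {a : ℕ} (hχ : ∀ ζ : k, ζ ^ n = 1 → σ₀ ζ = ζ ^ a) {a₀ : k} (haO : a₀ ∈ B.O) (ha0 : a₀ ≠ 0)
    (ha : B.r a₀ = 0) {u : F} (hu : ∀ i, Near (C i) ((n : k) ^ 2 * a₀) u)
    (hdiv : ∀ P : Place k F, (n : ℤ) ∣ P.ord u) :
    ∃ f : F, σ u / u ^ a = f ^ n := by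
  have hnk : (n : k) ≠ 0 := by exact_mod_cast hn
  have hnO : (n : k) ∈ B.O := natCast_mem _ n
  have hcO : (n : k) * a₀ ∈ B.O := mul_mem hnO haO
  have hc : (n : k) * a₀ ≠ 0 := mul_ne_zero hnk ha0
  have hc0 : B.r ((n : k) * a₀) = 0 := Res.r_mul_eq_zero hnO haO ha
  have hc2O : (n : k) ^ 2 * a₀ ∈ B.O := mul_mem (pow_mem hnO 2) haO
  have hc2 : (n : k) ^ 2 * a₀ ≠ 0 := mul_ne_zero (pow_ne_zero _ hnk) ha0
  have hc20 : B.r ((n : k) ^ 2 * a₀) = 0 := Res.r_mul_eq_zero (pow_mem hnO 2) haO ha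
  have hu0 : u ≠ 0 := (hu true).ne hc2O hc20
  have hσu0 : σ u ≠ 0 := by simpa using hu0
  have hu' : ∀ i, Near (C i) ((n : k) * ((n : k) * a₀)) u := by
    intro i
    have e : (n : k) * ((n : k) * a₀) = (n : k) ^ 2 * a₀ := by ring
    rw [e]; exact hu i
  obtain ⟨D, hD⟩ := exists_div hn hdiv
  have hz : ∀ i, Near (C i) ((n : k) ^ 2 * a₀) (σ u / u ^ a) := fun i =>
    (near_inertial h hc2 (hu i)).div hc2O hc20 ((hu i).pow hc2O a)
  have hord : ∀ P : Place k F, P.ord (σ u / u ^ a) = n * (D (s.symm P) - a * D P) := by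
    intro P
    have e1 := h.ord (s.symm P) u
    rw [s.apply_symm_apply] at e1
    rw [div_eq_mul_inv, P.ord_mul hσu0 (inv_ne_zero (pow_ne_zero _ hu0)), P.ord_inv, ord_pow, e1,
      hD, hD]
    ring
  obtain ⟨D', hD'⟩ := exists_div hn (u := σ u / u ^ a) fun P => ⟨_, hord P⟩
  have hDD : ∀ P, D' P = D (s.symm P) - a * D P := by
    intro P
    have h1 := hD' P
    rw [hord P] at h1
    have h2 : (n : ℤ) ≠ 0 := by exact_mod_cast hn
    exact (mul_left_cancel₀ h2 h1).symm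
  refine rigid hm.rank hm.incomp hm.good hm.surj hm.surj' hn haO ha ha0 hz hD'
    (fun M hM => ?_) (fun M hM => ?_)
  · exact RootGen.twist hm.rank hm.incomp hm.good hm.surj h h' hσt hχ hcO hc hc0 hDD hM
      (rootGen_of hm hnk hcO hc hc0 hu' hD M hM)
  · exact RootGen.twist hm.rank hm.incomp hm.good.inv hm.surj' h h' (by rw [map_inv₀, hσt]) hχ hcO
      hc hc0 hDD hM (rootGen_inv hm hnk hcO hc hc0 hu' hD M hM)

/-- `u` is an `n`-th power times a function congruent to one to arbitrary precision -/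
def Split (C : Bool → Comp B F 𝓕) (i : Bool) (n : ℕ) (u : F) : Prop :=
  ∀ c ∈ B.O, c ≠ 0 → ∃ a : F, a ≠ 0 ∧ Near (C i) c (a ^ n * u)

/-- an idempotent to arbitrary precision -/
theorem exists_sep (hB : B.RankOne) (hC : Incomp C) {c : k} (hc : c ≠ 0) :
    ∃ e : F, (∃ y ∈ (C true).O, e = 1 + algebraMap k F c * y) ∧
      ∃ y ∈ (C false).O, e = algebraMap k F c * y := by
  obtain ⟨e, he, he'⟩ := exists_idem hC true
  have h1 : (C true).r e = 1 := by rw [he', if_pos rfl]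
  have h2 : (C false).r e = 0 := by rw [he', if_neg (by decide)]
  have hcF : algebraMap k F c ≠ 0 := by simpa using hc
  have h3 : (C true).r (1 - e) = 0 := by
    rw [Res.r_sub (one_mem _) (he true), Res.r_one, h1, sub_self]
  obtain ⟨N, hN, hN'⟩ := (C false).exists_pow_mul hB (he false) h2 (algebraMap k F c)⁻¹
  obtain ⟨N', hN1, hN1'⟩ := (C true).exists_pow_mul hB (sub_mem (one_mem _) (he true)) h3
    (algebraMap k F c)⁻¹
  set m := N + N' with hm
  -- e^m small at false, (1-e)^m small at true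
  have hA : ∃ y ∈ (C false).O, e ^ m = algebraMap k F c * y := by
    refine ⟨e ^ N' * (e ^ N * (algebraMap k F c)⁻¹), mul_mem (pow_mem (he false) _) hN, ?_⟩
    rw [hm, pow_add]; field_simp
  have hB' : ∃ y ∈ (C true).O, (1 - e) ^ m = algebraMap k F c * y := by
    refine ⟨(1 - e) ^ N * ((1 - e) ^ N' * (algebraMap k F c)⁻¹),
      mul_mem (pow_mem (sub_mem (one_mem _) (he true)) _) hN1, ?_⟩
    rw [hm, pow_add]; field_simp
  obtain ⟨y₁, hy₁, e₁⟩ := hA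
  obtain ⟨y₂, hy₂, e₂⟩ := hB'
  have hmpos : m ≠ 0 ∨ m = 0 := by tauto
  have hmem1 : ∀ i, e ^ m + (1 - e) ^ m ∈ (C i).O := fun i =>
    add_mem (pow_mem (he i) _) (pow_mem (sub_mem (one_mem _) (he i)) _)
  rcases hmpos with hm0 | hm0
  · have hdt : (C true).r (e ^ m + (1 - e) ^ m) ≠ 0 := by
      rw [Res.r_add (pow_mem (he true) _) (pow_mem (sub_mem (one_mem _) (he true)) _),
        Res.r_pow (he true), Res.r_pow (sub_mem (one_mem _) (he true)), h1, h3, one_pow,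
        zero_pow hm0, add_zero]
      exact one_ne_zero
    have hdf : (C false).r (e ^ m + (1 - e) ^ m) ≠ 0 := by
      rw [Res.r_add (pow_mem (he false) _) (pow_mem (sub_mem (one_mem _) (he false)) _),
        Res.r_pow (he false), Res.r_pow (sub_mem (one_mem _) (he false)), h2,
        Res.r_sub (one_mem _) (he false), Res.r_one, h2, sub_zero, one_pow,
        zero_pow hm0, zero_add]
      exact one_ne_zero
    have hd0 : e ^ m + (1 - e) ^ m ≠ 0 := Res.ne_zero_of_r hdt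
    refine ⟨e ^ m / (e ^ m + (1 - e) ^ m), ⟨-(y₂ * (e ^ m + (1 - e) ^ m)⁻¹),
      neg_mem (mul_mem hy₂ (Res.inv_mem_of_r hdt)), ?_⟩,
      ⟨y₁ * (e ^ m + (1 - e) ^ m)⁻¹, mul_mem hy₁ (Res.inv_mem_of_r hdf), ?_⟩⟩
    · have e3 : algebraMap k F c * -(y₂ * (e ^ m + (1 - e) ^ m)⁻¹) =
        -((algebraMap k F c * y₂) * (e ^ m + (1 - e) ^ m)⁻¹) := by ring
      rw [e3, ← e₂]
      field_simp
      ring
    · rw [← mul_assoc, ← e₁, div_eq_mul_inv]
  · rw [hm0, pow_zero] at e₁ e₂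
    refine ⟨1, ⟨0, zero_mem _, by ring⟩, ⟨y₁, hy₁, e₁⟩⟩

omit [IsAlgClosed k] [IsAlgClosed κ] [IsFunctionField k F] [IsFunctionField κ 𝓕] in
theorem exists_denom {C : Comp B F 𝓕} (x : F) :
    ∃ d ∈ B.O, d ≠ 0 ∧ algebraMap k F d * x ∈ C.O := by
  rcases eq_or_ne x 0 with rfl | hx
  · exact ⟨1, one_mem _, one_ne_zero, by simp⟩
  obtain ⟨c, hc0, hc⟩ := C.exists_scale x hx
  by_cases hcO : c ∈ B.O
  · exact ⟨c, hcO, hc0, Res.mem_of_r_ne_zero hc⟩
  · refine ⟨1, one_mem _, one_ne_zero, ?_⟩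
    have hcF : algebraMap k F c ≠ 0 := by simpa using hc0
    have e : algebraMap k F 1 * x = algebraMap k F c⁻¹ * (algebraMap k F c * x) := by
      rw [map_inv₀]; field_simp; simp
    rw [e]
    exact mul_mem (C.algebraMap_mem _ (Res.inv_mem_of_notMem hcO)) (Res.mem_of_r_ne_zero hc)

/-- simultaneous normalisation on the two components -/
theorem exists_near_both (hB : B.RankOne) (hC : Incomp C) {n : ℕ} {u : F} {c : k}
    (hcO : c ∈ B.O) (hc : c ≠ 0) (h1 : ∃ a : F, a ≠ 0 ∧ Near (C true) c (a ^ n * u))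
    (h2 : ∃ a : F, a ≠ 0 ∧ Near (C false) c (a ^ n * u)) (hc0 : B.r c = 0) :
    ∃ a : F, a ≠ 0 ∧ ∀ i, Near (C i) c (a ^ n * u) := by
  obtain ⟨a₁, ha₁, h₁⟩ := h1
  obtain ⟨a₂, ha₂, h₂⟩ := h2
  obtain ⟨d₁, hd₁, hd₁0, hd₁'⟩ := exists_denom (C := C true) (a₂ / a₁)
  obtain ⟨d₂, hd₂, hd₂0, hd₂'⟩ := exists_denom (C := C false) (a₁ / a₂)
  obtain ⟨e, ⟨y₁, hy₁, e₁⟩, ⟨y₂, hy₂, e₂⟩⟩ := exists_sep hB hC (c := c * d₁ * d₂)
    (mul_ne_zero (mul_ne_zero hc hd₁0) hd₂0)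
  have k1 : Near (C true) c ((e * a₁ + (1 - e) * a₂) / a₁) := by
    refine ⟨algebraMap k F (d₁ * d₂) * y₁ - algebraMap k F d₂ * y₁ *
      (algebraMap k F d₁ * (a₂ / a₁)), sub_mem (mul_mem ((C true).algebraMap_mem _
        (mul_mem hd₁ hd₂)) hy₁) (mul_mem (mul_mem ((C true).algebraMap_mem _ hd₂) hy₁) hd₁'), ?_⟩
    rw [e₁]
    simp only [map_mul]
    field_simp
    ring
  have k2 : Near (C false) c ((e * a₁ + (1 - e) * a₂) / a₂) := by
    refine ⟨algebraMap k F d₁ * y₂ * (algebraMap k F d₂ * (a₁ / a₂)) -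
      algebraMap k F (d₁ * d₂) * y₂, sub_mem (mul_mem (mul_mem ((C false).algebraMap_mem _ hd₁)
        hy₂) hd₂') (mul_mem ((C false).algebraMap_mem _ (mul_mem hd₁ hd₂)) hy₂), ?_⟩
    rw [e₂]
    simp only [map_mul]
    field_simp
    ring
  refine ⟨e * a₁ + (1 - e) * a₂, fun h0 => ?_, fun i => ?_⟩
  · rw [h0, zero_div] at k1
    exact k1.ne hcO hc0 rfl
  · cases i
    · have e3 : (e * a₁ + (1 - e) * a₂) ^ n * u =
          ((e * a₁ + (1 - e) * a₂) / a₂) ^ n * (a₂ ^ n * u) := by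
        rw [div_pow]; field_simp
      rw [e3]
      exact (k2.pow hcO n).mul hcO h₂
    · have e3 : (e * a₁ + (1 - e) * a₂) ^ n * u =
          ((e * a₁ + (1 - e) * a₂) / a₁) ^ n * (a₁ ^ n * u) := by
        rw [div_pow]; field_simp
      rw [e3]
      exact (k1.pow hcO n).mul hcO h₁

/-- **Inertia acts through the cyclotomic character** on classes of toric type. -/
theorem toric [CharZero k] {t : F} (hm : NodeModel C t) {n : ℕ} (hn : n ≠ 0)
    {σ : F ≃+* F} {σ₀ : k ≃+* k} {s : Place k F ≃ Place k F}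
    (h : Inertial C σ σ₀ s) (h' : Inertial C σ.symm σ₀.symm s.symm) (hσt : σ t = t)
    {a : ℕ} (hχ : ∀ ζ : k, ζ ^ n = 1 → σ₀ ζ = ζ ^ a) {a₀ : k} (haO : a₀ ∈ B.O) (ha0 : a₀ ≠ 0)
    (ha : B.r a₀ = 0) {u : F} (hs : ∀ i, Split C i n u)
    (hdiv : ∀ P : Place k F, (n : ℤ) ∣ P.ord u) :
    ∃ f : F, σ u / u ^ a = f ^ n := by
  have hnk : (n : k) ≠ 0 := by exact_mod_cast hn
  have hnO : (n : k) ∈ B.O := natCast_mem _ n
  have hcO : (n : k) ^ 2 * a₀ ∈ B.O := mul_mem (pow_mem hnO 2) haO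
  have hc : (n : k) ^ 2 * a₀ ≠ 0 := mul_ne_zero (pow_ne_zero _ hnk) ha0
  have hc0 : B.r ((n : k) ^ 2 * a₀) = 0 := Res.r_mul_eq_zero (pow_mem hnO 2) haO ha
  obtain ⟨b, hb0, hb⟩ := exists_near_both hm.rank hm.incomp hcO hc (hs true _ hcO hc)
    (hs false _ hcO hc) hc0
  have hu0 : u ≠ 0 := by
    rintro rfl
    have := (hb true).ne hcO hc0
    rw [mul_zero] at this
    exact this rfl
  obtain ⟨f, hf⟩ := toric_aux hm hn h h' hσt hχ haO ha0 ha hb fun P => by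
    rw [P.ord_mul (pow_ne_zero _ hb0) hu0, ord_pow]
    exact (dvd_mul_right _ _).add (hdiv P)
  have hσb0 : σ b ≠ 0 := by simpa using hb0
  have hσu0 : σ u ≠ 0 := by simpa using hu0
  refine ⟨f * (b ^ a / σ b), ?_⟩
  rw [mul_pow, ← hf, map_mul, map_pow, mul_pow, div_pow]
  field_simp
  ring

end Two

end Fermat.Agent.AtP
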