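import Fermat.Agent.SSMod.Eich
import Fermat.Agent.AtP.Toric

/-!
# Contraction of the multiplicative operator `U_q` in residue characteristic `q`
-/

set_option autoImplicit false
set_option linter.unusedSectionVars false
set_option linter.style.haveILetI false

noncomputable section

namespace Fermat.Agent.AtP

open ModularCurve Fermat.Agent.GoodRed Fermat.Agent.Models Fermat.Agent.ModFun
open Fermat.Agent.HeckeQ Fermat.Agent.SSMod

local notation "ℒ" => LaurentSeries

section Ring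

variable {R : Type*} [CommRing R]

theorem prod_perturb {ι : Type*} (s : Finset ι) (a : ι → R) (a₀ c b : R)
    (h : ∀ j ∈ s, c * a j = c * a₀) :
    c * ∏ j ∈ s, (a j + c * b) = c * (a₀ + c * b) ^ s.card ∧
      ∏ j ∈ s, (a j + c * b) - ∏ j ∈ s, a j = (a₀ + c * b) ^ s.card - a₀ ^ s.card := by
  classical
  induction s using Finset.induction_on with
  | empty => simp
  | insert j s hj ih =>
    obtain ⟨h1, h2⟩ := ih fun i hi => h i (Finset.mem_insert_of_mem hi)
    have h3 := h j (Finset.mem_insert_self j s)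
    rw [Finset.prod_insert hj, Finset.prod_insert hj, Finset.card_insert_of_notMem hj]
    refine ⟨?_, ?_⟩
    · calc c * ((a j + c * b) * ∏ j ∈ s, (a j + c * b))
          = (c * a j + c * (c * b)) * ∏ j ∈ s, (a j + c * b) := by ring
        _ = (a₀ + c * b) * (c * ∏ j ∈ s, (a j + c * b)) := by rw [h3]; ring
        _ = c * (a₀ + c * b) ^ (s.card + 1) := by rw [h1]; ring
    · obtain ⟨r, hr⟩ : ∃ r, (a₀ + c * b) ^ s.card - a₀ ^ s.card = c * r := by
        obtain ⟨r, hr⟩ := sub_dvd_pow_sub_pow (a₀ + c * b) a₀ s.card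
        exact ⟨b * r, by rw [hr]; ring⟩
      calc (a j + c * b) * ∏ j ∈ s, (a j + c * b) - a j * ∏ j ∈ s, a j
          = a j * (∏ j ∈ s, (a j + c * b) - ∏ j ∈ s, a j) +
            b * (c * ∏ j ∈ s, (a j + c * b)) := by ring
        _ = (c * a j) * r + b * (c * (a₀ + c * b) ^ s.card) := by rw [h2, hr, h1]; ring
        _ = a₀ * (c * r) + b * (c * (a₀ + c * b) ^ s.card) := by rw [h3]; ring
        _ = (a₀ + c * b) ^ (s.card + 1) - a₀ ^ (s.card + 1) := by rw [← hr]; ring

/-- the ring-theoretic heart of the contraction -/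
theorem twist_prod_perturb {q : ℕ} (hq : q.Prime) (ζ : Rˣ) {c : R} (hc : c * (ζ : R) = c)
    (hqc : (q : R) * c = 0) (hcq : c ^ q = 0) (f f' : LaurentSeries R) :
    ∏ j ∈ Finset.range q, twist (ζ ^ j) (f' + HahnSeries.C c * f) =
      ∏ j ∈ Finset.range q, twist (ζ ^ j) f' := by
  have h0 : ∀ u : Rˣ, c * (u : R) = c → ∀ n : ℤ, c * ((u ^ n : Rˣ) : R) = c := by
    intro u hu n
    have h1 : ∀ m : ℕ, c * ((u ^ m : Rˣ) : R) = c := by
      intro m
      induction m with
      | zero => simp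
      | succ m ih => rw [pow_succ, Units.val_mul, ← mul_assoc, ih, hu]
    obtain ⟨m, rfl | rfl⟩ := n.eq_nat_or_neg
    · rw [zpow_natCast]; exact h1 m
    · have h2 := h1 m
      rw [zpow_neg, zpow_natCast]
      nth_rewrite 1 [← h2]
      rw [mul_assoc, ← Units.val_mul, mul_inv_cancel, Units.val_one, mul_one]
  have h1 : ∀ (j : ℕ) (g : LaurentSeries R), HahnSeries.C c * twist (ζ ^ j) g =
      HahnSeries.C c * g := by
    intro j g
    ext n
    rw [HahnSeries.C_mul_eq_smul, HahnSeries.C_mul_eq_smul, HahnSeries.coeff_smul,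
      HahnSeries.coeff_smul, twist_coeff, smul_eq_mul, smul_eq_mul, ← mul_assoc]
    rw [h0 (ζ ^ j) (by
      have := h0 ζ hc j
      rwa [zpow_natCast] at this) n]
  have h2 : ∀ j ∈ Finset.range q, twist (ζ ^ j) (f' + HahnSeries.C c * f) =
      twist (ζ ^ j) f' + HahnSeries.C c * f := by
    intro j _
    rw [map_add, map_mul, twist_C, h1]
  rw [Finset.prod_congr rfl h2, ← sub_eq_zero]
  rw [(prod_perturb (Finset.range q) (fun j => twist (ζ ^ j) f') f' (HahnSeries.C c) f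
    fun j _ => h1 j f').2, Finset.card_range]
  obtain ⟨r, hr⟩ := exists_add_pow_prime_eq hq f' (HahnSeries.C c * f)
  have h3 : (q : LaurentSeries R) * HahnSeries.C c = 0 := by
    rw [← map_natCast (HahnSeries.C : R →+* LaurentSeries R) q, ← map_mul, hqc, map_zero]
  have h4 : (HahnSeries.C c * f) ^ q = 0 := by
    rw [mul_pow, ← map_pow, hcq, map_zero, zero_mul]
  rw [hr, h4]
  linear_combination (f' * f * r) * h3

end Ring

section Val

variable {R : Type*} [CommRing R]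

theorem exists_C_mul {c : R} {D : LaurentSeries R} (h : ∀ n, c ∣ D.coeff n) :
    ∃ g : LaurentSeries R, D = HahnSeries.C c * g := by
  classical
  choose d hd using h
  refine ⟨⟨fun n => if D.coeff n = 0 then 0 else d n, ?_⟩, ?_⟩
  · refine D.isPWO_support.mono fun n hn => ?_
    rw [Function.mem_support] at hn
    rw [HahnSeries.mem_support]
    intro h0
    exact hn (if_pos h0)
  · ext n
    rw [HahnSeries.C_mul_eq_smul, HahnSeries.coeff_smul, smul_eq_mul]
    show D.coeff n = c * (if D.coeff n = 0 then 0 else d n)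
    split_ifs with h0
    · rw [h0, mul_zero]
    · exact hd n

/-- perturbation of `U_q` over a ring containing the `q`-th roots of unity -/
theorem hW_perturb [IsDomain R] {q : ℕ} [NeZero q] (hq : q.Prime) [HasPrim R q] {ζ : Rˣ}
    (hζ : IsPrimitiveRoot ζ q) {c c' : R} (h1 : c' ∣ c * (1 - ζ)) (h2 : c' ∣ q * c)
    (h3 : c' ∣ c ^ q) (f f' : LaurentSeries R) :
    ∃ g : LaurentSeries R, hW q (f' + HahnSeries.C c * f) = hW q f' + HahnSeries.C c' * g := by
  set φ := Ideal.Quotient.mk (Ideal.span {c'}) with hφ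
  have hφ0 : ∀ x : R, φ x = 0 ↔ c' ∣ x := by
    intro x
    rw [hφ, Ideal.Quotient.eq_zero_iff_mem, Ideal.mem_span_singleton]
  have k1 : coeffMap φ (prodTwist q (f' + HahnSeries.C c * f)) = coeffMap φ (prodTwist q f') := by
    rw [prodTwist_eq_range q hζ, prodTwist_eq_range q hζ, map_prod, map_prod]
    have e1 : ∀ g : LaurentSeries R, ∀ j ∈ Finset.range q, coeffMap φ (twist (ζ ^ j) g) =
        twist ((Units.map (φ : R →* _) ζ) ^ j) (coeffMap φ g) := by
      intro g j _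
      rw [coeffMap_twist, map_pow]
    rw [Finset.prod_congr rfl (e1 _), Finset.prod_congr rfl (e1 _), map_add, map_mul]
    have e2 : coeffMap φ (HahnSeries.C c) = HahnSeries.C (φ c) := by
      rw [HahnSeries.C_apply, HahnSeries.C_apply, coeffMap_single]
    rw [e2]
    refine twist_prod_perturb hq _ ?_ ?_ ?_ _ _
    · show φ c * φ (ζ : R) = φ c
      have h4 := (hφ0 _).mpr h1
      rw [map_mul, map_sub, map_one] at h4
      linear_combination -h4
    · rw [← map_natCast φ, ← map_mul]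
      exact (hφ0 _).mpr h2
    · rw [← map_pow]
      exact (hφ0 _).mpr h3
  have k2 : ∀ n, c' ∣ (hW q (f' + HahnSeries.C c * f) - hW q f').coeff n := by
    intro n
    have e1 := congrArg (fun g => HahnSeries.coeff g ((q : ℤ) * n)) k1
    simp only [coeffMap_coeff] at e1
    rw [← qExpand_hW, ← qExpand_hW, qExpand_coeff_mul, qExpand_coeff_mul, ← sub_eq_zero,
      ← map_sub, hφ0] at e1
    rwa [HahnSeries.coeff_sub]
  obtain ⟨g, hg⟩ := exists_C_mul k2
  exact ⟨g, by rw [← hg]; ring⟩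

end Val

section Field

variable {K κ : Type*} [Field K] [Field κ] {A : ValuationSubring K} {π : A →+* κ}

variable (π) in
/-- congruence to one for Laurent series -/
def NearL (c : K) (x : ℒ K) : Prop :=
  ∃ (g : ℒ K) (y : ℒ κ), LR π g y ∧ x = 1 + HahnSeries.C c * g

theorem NearL.mono {c c' : K} (h : ∃ d : A, c = c' * d) {x : ℒ K} (hx : NearL π c x) :
    NearL π c' x := by
  obtain ⟨d, rfl⟩ := h
  obtain ⟨g, y, hg, rfl⟩ := hx
  exact ⟨HahnSeries.C (d : K) * g, _, (LR.C d).mul hg, by rw [map_mul]; ring⟩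

variable {q : ℕ} [hq : Fact q.Prime] [CharP κ q] [NeZero q] [HasPrim A q] [HasPrim K q]

/-- **Contraction.** -/
theorem NearL.contr {ζ : Aˣ} (hζ : IsPrimitiveRoot ζ q) {c c' : A} (h1 : c' ∣ c * (1 - ζ))
    (h2 : c' ∣ q * c) (h3 : c' ∣ c ^ q) {x : ℒ K} (hx : NearL π (c : K) x) :
    NearL π (c' : K) (hW q x) := by
  obtain ⟨g, y, ⟨f, f', hf', e1, e2⟩, rfl⟩ := hx
  obtain ⟨g', hg'⟩ := hW_perturb hq.out hζ h1 h2 h3 f f'
  have hinj : Function.Injective (A.subtype : A →+* K) := Subtype.val_injective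
  have hWf' : coeffMap π (hW q f') ≠ 0 := by
    rw [red_hW]
    intro h0
    exact hf' (coeffMap_injective (frobenius κ q).injective (by rw [h0, map_zero]))
  have k1 := coeffMap_subtype_ne_zero hWf'
  refine ⟨coeffMap A.subtype g' / coeffMap A.subtype (hW q f'), _,
    LR.div (LR.of g') (LR.of (hW q f')) hWf', ?_⟩
  have eC : ∀ a : A, coeffMap A.subtype (HahnSeries.C a) = HahnSeries.C (a : K) := by
    intro a
    rw [HahnSeries.C_apply, HahnSeries.C_apply, coeffMap_single]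
    rfl
  have k2 : coeffMap A.subtype f' * (1 + HahnSeries.C (c : K) * g) =
      coeffMap A.subtype (f' + HahnSeries.C c * f) := by
    rw [map_add, map_mul, eC, ← e1]; ring
  have k3 := congrArg (HeckeQ.hW q) k2
  rw [hW_mul, ← coeffMap_hW q A.subtype hinj, ← coeffMap_hW q A.subtype hinj, hg', map_add,
    map_mul, eC] at k3
  have k4 : HeckeQ.hW q (1 + HahnSeries.C (c : K) * g) =
      (coeffMap A.subtype (HeckeQ.hW q f') + HahnSeries.C (c' : K) * coeffMap A.subtype g') /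
        coeffMap A.subtype (HeckeQ.hW q f') := by
    rw [eq_div_iff k1, mul_comm]; exact k3
  rw [k4, add_div, div_self k1, mul_div_assoc]

/-- the multiplicative operator `U_q` as an endomorphism -/
def Uend (K : Type*) [Field K] (q : ℕ) [NeZero q] [HasPrim K q] : Monoid.End (ℒ K) where
  toFun := HeckeQ.hW q
  map_one' := hW_one q
  map_mul' := hW_mul q

theorem Uend_apply (x : ℒ K) : Uend K q x = HeckeQ.hW q x := rfl

theorem Uend_pow_succ (m : ℕ) (x : ℒ K) : (Uend K q ^ (m + 1)) x = HeckeQ.hW q ((Uend K q ^ m) x) := by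
  rw [pow_succ']; rfl

theorem Uend_pow_ne_zero (m : ℕ) {x : ℒ K} (hx : x ≠ 0) : (Uend K q ^ m) x ≠ 0 := by
  induction m with
  | zero => simpa using hx
  | succ m ih => rw [Uend_pow_succ]; exact hW_ne_zero q ih

theorem Uend_pow_C (m : ℕ) (c : K) :
    (Uend K q ^ m) (HahnSeries.C c) = HahnSeries.C (c ^ q ^ m) := by
  induction m with
  | zero => simp
  | succ m ih => rw [Uend_pow_succ, ih, hW_C, ← pow_mul, pow_succ]

theorem NearL.iterate {ζ : Aˣ} (hζ : IsPrimitiveRoot ζ q) {ε c : A} (h1 : ε ∣ 1 - (ζ : A))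
    (h2 : ε ∣ q) (h3 : ε ∣ c) {x : ℒ K} (hx : NearL π (c : K) x) (m : ℕ) :
    NearL π ((c * ε ^ m : A) : K) ((Uend K q ^ m) x) := by
  induction m with
  | zero => simpa using hx
  | succ m ih =>
    rw [Uend_pow_succ]
    refine ih.contr hζ ?_ ?_ ?_
    · rw [pow_succ, ← mul_assoc]
      exact mul_dvd_mul_left _ h1
    · rw [pow_succ, ← mul_assoc, mul_comm (q : A)]
      exact mul_dvd_mul_left _ h2
    · rw [pow_succ, ← mul_assoc]
      obtain ⟨l, hl⟩ : ∃ l, q = l + 1 := ⟨q - 1, (Nat.succ_pred_eq_of_pos hq.out.pos).symm⟩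
      have hl0 : l ≠ 0 := by
        rintro rfl
        exact hq.out.one_lt.ne' hl
      conv_rhs => rw [hl, pow_succ']
      exact mul_dvd_mul_left _ ((h3.trans (dvd_mul_right c _)).trans (dvd_pow_self _ hl0))

theorem exists_eps {a b c : A} (ha : a ≠ 0) (ha' : π a = 0) (hb : b ≠ 0) (hb' : π b = 0)
    (hc : c ≠ 0) (hc' : π c = 0) : ∃ ε : A, ε ≠ 0 ∧ π ε = 0 ∧ ε ∣ a ∧ ε ∣ b ∧ ε ∣ c := by
  have key : ∀ x y : A, x ≠ 0 → π x = 0 → y ≠ 0 → π y = 0 →
      ∃ ε : A, ε ≠ 0 ∧ π ε = 0 ∧ ε ∣ x ∧ ε ∣ y := by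
    intro x y hx hx' hy hy'
    rcases ValuationRing.dvd_total x y with h | h
    · exact ⟨x, hx, hx', dvd_rfl, h⟩
    · exact ⟨y, hy, hy', h, dvd_rfl⟩
  obtain ⟨e, he, he', h1, h2⟩ := key a b ha ha' hb hb'
  obtain ⟨ε, hε, hε', h3, h4⟩ := key e c he he' hc hc'
  exact ⟨ε, hε, hε', h3.trans h1, h3.trans h2, h4⟩

/-- iterates of `U_q` converge to one -/
theorem NearL.tendsto [CharZero K] (hr : GoodRed.RankOne π) {c : A} (hc0 : c ≠ 0)
    (hc : π c = 0) {x : ℒ K} (hx : NearL π (c : K) x) {α : A} (hα : α ≠ 0) :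
    ∃ m₀ : ℕ, ∀ m, m₀ ≤ m → NearL π (α : K) ((Uend K q ^ m) x) := by
  obtain ⟨ζ, hζ⟩ := (inferInstance : HasPrim A q).ex
  have hζ1 : (1 : A) - ζ ≠ 0 := by
    intro h0
    have h1 : ζ = 1 := Units.ext (by rw [Units.val_one]; exact (sub_eq_zero.mp h0).symm)
    exact hζ.ne_one hq.out.one_lt h1
  have hζ1' : π (1 - (ζ : A)) = 0 := by
    have h1 := map_root_eq_one q π (ξ := ζ) hζ.pow_eq_one
    have h2 := congrArg Units.val h1
    rw [Units.coe_map, Units.val_one] at h2
    rw [map_sub, map_one, sub_eq_zero]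
    exact h2.symm
  have hqA : (q : A) ≠ 0 := by
    intro h0
    have h1 := congrArg (fun z : A => (z : K)) h0
    simp only [ZeroMemClass.coe_zero] at h1
    have h2 : ((q : A) : K) = (q : K) := by simp
    rw [h2] at h1
    exact (Nat.cast_ne_zero.mpr hq.out.ne_zero) h1
  have hqπ : π (q : A) = 0 := by rw [map_natCast]; exact CharP.cast_eq_zero κ q
  obtain ⟨ε, hε, hε', h1, h2, h3⟩ := exists_eps hζ1 hζ1' hqA hqπ hc0 hc
  obtain ⟨m₀, hm₀⟩ := hr ε hε hε' ((α : K)⁻¹)
  refine ⟨m₀, fun m hm => ?_⟩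
  have hα' : (α : K) ≠ 0 := fun h => hα (Subtype.ext h)
  refine (hx.iterate hζ h1 h2 h3 m).mono ⟨c * ε ^ (m - m₀) * ⟨_, hm₀⟩, ?_⟩
  obtain ⟨l, rfl⟩ := Nat.exists_eq_add_of_le hm
  rw [Nat.add_sub_cancel_left]
  push_cast
  rw [pow_add]
  field_simp

/-- closure properties used for rationality questions -/
structure UStable (K : Type*) [Field K] (q : ℕ) [NeZero q] [HasPrim K q] (R : ℒ K → Prop) :
    Prop where
  one : R 1
  mul : ∀ {x y}, R x → R y → R (x * y)
  hW : ∀ {x}, R x → R (HeckeQ.hW q x)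

theorem UStable.pow {R : ℒ K → Prop} (h : UStable K q R) {x : ℒ K} (hx : R x) (n : ℕ) :
    R (x ^ n) := by
  induction n with
  | zero => rw [pow_zero]; exact h.one
  | succ n ih => rw [pow_succ]; exact h.mul ih hx

theorem UStable.end_pow {R : ℒ K → Prop} (h : UStable K q R) {x : ℒ K} (hx : R x) (n : ℕ) :
    R ((Uend K q ^ n) x) := by
  induction n with
  | zero => exact hx
  | succ n ih => rw [Uend_pow_succ]; exact h.hW ih

/-- **The contraction principle.** -/
theorem contract [CharZero K] (hr : GoodRed.RankOne π) {R : ℒ K → Prop} (hR : UStable K q R)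
    {n l : ℕ} (hn : n = q ^ l) {u f : ℒ K} (hu0 : u ≠ 0)
    (hu : HeckeQ.hW q (HeckeQ.hW q u) = u * f ^ n) (hf : R f) {lam : K}
    (hlam : lam ≠ 0) (hlR : R (HahnSeries.C lam)) {θ : ℒ K} (hθ0 : θ ≠ 0) (hθ : R θ) {c : A}
    (hc0 : c ≠ 0) (hc : π c = 0) (hx : NearL π (c : K) (HahnSeries.C lam * u * θ ^ n)) {α : A}
    (hα : α ≠ 0) : ∃ a, R a ∧ a ≠ 0 ∧ NearL π (α : K) (a ^ n * u) := by
  have hn0 : n ≠ 0 := by rw [hn]; exact pow_ne_zero _ hq.out.ne_zero
  have hf0 : f ≠ 0 := by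
    rintro rfl
    rw [zero_pow hn0, mul_zero] at hu
    exact hW_ne_zero q (hW_ne_zero q hu0) hu
  obtain ⟨m₀, hm₀⟩ := hx.tendsto (q := q) hr hc0 hc hα
  have key : ∀ m : ℕ, ∃ g, R g ∧ g ≠ 0 ∧ (Uend K q ^ (2 * m)) u = u * g ^ n := by
    intro m
    induction m with
    | zero => exact ⟨1, hR.one, one_ne_zero, by simp⟩
    | succ m ih =>
      obtain ⟨g, hg, hg0, e⟩ := ih
      refine ⟨f * (Uend K q ^ 2) g, hR.mul hf (hR.end_pow hg 2), mul_ne_zero hf0
        (Uend_pow_ne_zero 2 hg0), ?_⟩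
      have e1 : (Uend K q ^ (2 * (m + 1))) u = (Uend K q ^ 2) ((Uend K q ^ (2 * m)) u) := by
        rw [show 2 * (m + 1) = 2 + 2 * m by ring, pow_add]; rfl
      have e2 : (Uend K q ^ 2) u = u * f ^ n := by
        rw [show (2 : ℕ) = 1 + 1 from rfl, Uend_pow_succ, pow_one, Uend_apply]; exact hu
      rw [e1, e, map_mul, map_pow, e2]
      ring
  set m := max m₀ l with hm
  obtain ⟨g, hg, hg0, e⟩ := key m
  have h1 := hm₀ (2 * m) (by have := le_max_left m₀ l; omega)
  obtain ⟨s, hs⟩ : ∃ s, q ^ (2 * m) = n * s := by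
    rw [hn]
    exact pow_dvd_pow q (by have := le_max_right m₀ l; omega)
  refine ⟨g * (Uend K q ^ (2 * m)) θ * HahnSeries.C lam ^ s,
    hR.mul (hR.mul hg (hR.end_pow hθ _)) (hR.pow hlR s), mul_ne_zero (mul_ne_zero hg0
      (Uend_pow_ne_zero _ hθ0)) (pow_ne_zero _ (by simpa using hlam)), ?_⟩
  rw [map_mul, map_mul, map_pow, e, Uend_pow_C, hs, map_pow, mul_comm n s, pow_mul] at h1
  have e3 : (g * (Uend K q ^ (2 * m)) θ * HahnSeries.C lam ^ s) ^ n * u =
      (HahnSeries.C lam ^ s) ^ n * (u * g ^ n) * (Uend K q ^ (2 * m)) θ ^ n := by ring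
  rw [e3]
  exact h1

end Field

end Fermat.Agent.AtP
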