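import Fermat.Agent.FlatLoc.Tri
import Fermat.Agent.FlatLoc.Inst
import Fermat.Agent.SSMod.TraceDet

/-!
# The cyclotomic character on inertia, and determinants
-/

set_option autoImplicit false
set_option linter.unusedSectionVars false
set_option linter.style.haveILetI false

noncomputable section

namespace Fermat.Agent.AtP

open Matrix IsLocalRing Fermat.Agent.GalRep Fermat.Agent.ECRed Fermat.Agent.DefRing
open Fermat.Agent.FlatLoc (ctx II DD int_val_II vA ge_vA II_mem eq_zeta_sub_one)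

local notation "Qbar" => AlgebraicClosure ℚ
local notation "GQ" => (AlgebraicClosure ℚ ≃ₐ[ℚ] AlgebraicClosure ℚ)

variable {p : ℕ} [hp : Fact p.Prime] {A : ValuationSubring Qbar}

/-- some element of inertia moves `ζ_p` -/
theorem exists_inertia_unit (hp2 : p ≠ 2) (hA : A.LiesOverPrime p) :
    ∃ σ ∈ A.inertiaSubgroupIn ℚ, IsUnit (cycP p σ - 1) := by
  by_contra hcon
  push Not at hcon
  have hp3 : 2 < p := lt_of_le_of_ne hp.out.two_le hp2.symm
  obtain ⟨ζ, hζ⟩ := HasEnoughRootsOfUnity.exists_primitiveRoot Qbar p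
  have hfix : ∀ σ : II A, σ • (ζ - 1) = ζ - 1 := by
    intro σ
    set g : GQ := ((σ : DD A) : GQ) with hg
    have h1 : ¬ IsUnit (cycP p g - 1) := hcon g (II_mem σ)
    have h2 : cycP p g - 1 ∈ IsLocalRing.maximalIdeal ℤ_[p] := h1
    rw [PadicInt.maximalIdeal_eq_span_p] at h2
    have h3 : cycP p g - 1 ∈ RingHom.ker (PadicInt.toZModPow (p := p) 1) := by
      rw [PadicInt.ker_toZModPow, pow_one]
      exact h2
    rw [RingHom.mem_ker, map_sub, map_one, sub_eq_zero] at h3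
    have h4 := cycP_spec p g (n := 1) (t := ζ) (by rw [pow_one]; exact hζ.pow_eq_one)
    haveI : Fact (1 < p ^ 1) := ⟨by rw [pow_one]; exact hp.out.one_lt⟩
    rw [h3, ZMod.val_one, pow_one] at h4
    show g (ζ - 1) = ζ - 1
    rw [map_sub, map_one, h4]
  have hv : (vA hA).Eq (1 / ((p : ℝ) - 1)) (ζ - 1) :=
    eq_zeta_sub_one (ctx hp2 hA).vp hζ
  obtain ⟨n, hn⟩ := int_val_II hA hv.ne hfix
  have h1 : (n : ℝ) = 1 / ((p : ℝ) - 1) := hn.symm.trans hv.2
  have h2 : (2 : ℝ) < p := by exact_mod_cast hp3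
  have h3 : (0 : ℝ) < p - 1 := by linarith
  rw [eq_div_iff h3.ne'] at h1
  have h4 : (n : ℝ) * ((p : ℝ) - 1) = ((n * ((p : ℤ) - 1) : ℤ) : ℝ) := by push_cast; ring
  rw [h4] at h1
  have h5 : n * ((p : ℤ) - 1) = 1 := by exact_mod_cast h1
  have h6 : ((p : ℤ) - 1) ∣ 1 := ⟨n, by rw [mul_comm]; exact h5.symm⟩
  have h7 := Int.le_of_dvd one_pos h6
  omega

/-- the square of the cyclotomic character is ramified at `p` -/
theorem exists_inertia_sq (hp2 : p ≠ 2) (hA : A.LiesOverPrime p) :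
    ∃ σ ∈ A.inertiaSubgroupIn ℚ, cycP p σ * cycP p σ ≠ 1 := by
  by_contra hcon
  push Not at hcon
  have hp3 : 2 < p := lt_of_le_of_ne hp.out.two_le hp2.symm
  obtain ⟨ξ, hξ⟩ := HasEnoughRootsOfUnity.exists_primitiveRoot Qbar (p ^ 2)
  have hξ0 : ξ ≠ 0 := hξ.ne_zero (pow_ne_zero 2 hp.out.ne_zero)
  have hp22 : p ^ 2 ≠ 0 := pow_ne_zero 2 hp.out.ne_zero
  set w : Qbar := (ξ - ξ⁻¹) ^ 2 with hw
  have hfix : ∀ σ : II A, σ • w = w := by
    intro σ
    set g : GQ := ((σ : DD A) : GQ) with hg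
    have h1 := hcon g (II_mem σ)
    have hgw : ∀ z : Qbar, z = ξ ∨ z = ξ⁻¹ → g ξ = z → g w = w := by
      intro z hz hgz
      rw [hw, map_pow, map_sub, map_inv₀, hgz]
      rcases hz with rfl | rfl
      · rfl
      · rw [inv_inv]; ring
    rcases mul_self_eq_one_iff.mp h1 with h2 | h2
    · refine hgw ξ (Or.inl rfl) ?_
      have h4 := cycP_spec p g (n := 2) (t := ξ) hξ.pow_eq_one
      haveI : Fact (1 < p ^ 2) := ⟨Nat.one_lt_pow two_ne_zero hp.out.one_lt⟩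
      rw [h2, map_one, ZMod.val_one, pow_one] at h4
      exact h4
    · refine hgw ξ⁻¹ (Or.inr rfl) ?_
      have h4 := cycP_spec p g (n := 2) (t := ξ) hξ.pow_eq_one
      haveI : NeZero (p ^ 2) := ⟨hp22⟩
      have h5 : ξ * g ξ = 1 := by
        rw [h4, h2, map_neg, map_one, ← pow_succ']
        have h6 : (p ^ 2) ∣ (-1 : ZMod (p ^ 2)).val + 1 := by
          rw [← ZMod.natCast_eq_zero_iff, Nat.cast_add, ZMod.natCast_zmod_val, Nat.cast_one,
            neg_add_cancel]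
        exact (hξ.pow_eq_one_iff_dvd _).mpr h6
      exact eq_inv_of_mul_eq_one_right h5
  set η : Qbar := ξ ^ 2 with hη
  have hcop : Nat.Coprime 2 (p ^ 2) :=
    Nat.Coprime.pow_right 2 ((Nat.coprime_primes Nat.prime_two hp.out).mpr hp2.symm)
  have hηp : IsPrimitiveRoot η (p ^ 2) := hξ.pow_of_coprime 2 hcop
  have hη1 : η ≠ 1 := hηp.ne_one (Nat.one_lt_pow two_ne_zero hp.out.one_lt)
  have hηpp : IsPrimitiveRoot (η ^ p) p :=
    hηp.pow (pow_pos hp.out.pos 2) (by rw [sq])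
  have hv : (vA hA).Eq (1 / ((p : ℝ) - 1)) (η ^ p - 1) :=
    eq_zeta_sub_one (ctx hp2 hA).vp hηpp
  have hηv : (vA hA).Eq 0 η := FlatLoc.ord_root_of_unity hp22 hηp.pow_eq_one
  have hηA : η ∈ A := (ge_vA hA).mp hηv.ge
  have h2 : (2 : ℝ) < p := by exact_mod_cast hp3
  have h3 : (0 : ℝ) < p - 1 := by linarith
  -- the valuation of `(η - 1)^p`
  have hvp : (vA hA).Eq (1 / ((p : ℝ) - 1)) ((η - 1) ^ p) := by
    obtain ⟨r, hr⟩ := exists_add_pow_prime_eq hp.out (⟨η, hηA⟩ : A) (-1)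
    have hr' := congrArg (Subtype.val : A → Qbar) hr
    have h4 : (η - 1) ^ p = (η ^ p - 1) + (p : Qbar) * (((-⟨η, hηA⟩ * r : A)) : Qbar) := by
      have h5 : (-1 : Qbar) ^ p = -1 := (hp.out.odd_of_ne_two hp2).neg_one_pow
      have h6 : (η + -1) ^ p = η ^ p + (-1) ^ p + (p : Qbar) * η * (-1) * (r : Qbar) := hr'
      rw [h5] at h6
      rw [sub_eq_add_neg, h6]
      show _ = _ + (p : Qbar) * (-η * (r : Qbar))
      ring
    rw [h4]
    refine hv.add_gt ?_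
    have h7 : (vA hA).Ge 1 ((p : Qbar) * (((-⟨η, hηA⟩ * r : A)) : Qbar)) := by
      have h8 : (vA hA).Eq 1 (p : Qbar) :=
        ⟨by exact_mod_cast hp.out.ne_zero, (ctx hp2 hA).vp⟩
      have h9 := h8.ge.mul ((ge_vA hA).mpr (-⟨η, hηA⟩ * r : A).2)
      rwa [add_zero] at h9
    refine h7.gt ?_
    rw [div_lt_one h3]
    linarith
  have hη10 : η - 1 ≠ 0 := sub_ne_zero.mpr hη1
  have hord : (p : ℝ) * (vA hA).ord (η - 1) = 1 / ((p : ℝ) - 1) := by
    rw [← OrdFn.ord_pow hη10]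
    exact hvp.2
  have hweq : w = (η⁻¹) * (η - 1) ^ 2 := by
    rw [hw, hη]
    field_simp
  have hw0 : w ≠ 0 := by
    rw [hweq]
    exact mul_ne_zero (inv_ne_zero hηv.ne) (pow_ne_zero 2 hη10)
  obtain ⟨n, hn⟩ := int_val_II hA hw0 hfix
  have hwv : (vA hA).ord w = 2 * (vA hA).ord (η - 1) := by
    rw [hweq, OrdFn.ord_mul (inv_ne_zero hηv.ne) (pow_ne_zero 2 hη10), OrdFn.ord_inv _ hηv.ne,
      hηv.2, OrdFn.ord_pow hη10]
    push_cast
    ring
  rw [hwv] at hn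
  have h4 : (n : ℝ) * ((p : ℝ) * (p - 1)) = 2 := by
    rw [← hn]
    have h5 : (p : ℝ) * (vA hA).ord (η - 1) * ((p : ℝ) - 1) = 1 := by
      rw [hord]
      field_simp
    linear_combination 2 * h5
  have h5 : n * ((p : ℤ) * (p - 1)) = 2 := by exact_mod_cast h4
  have h6 : (p : ℤ) ∣ 2 := ⟨n * (p - 1), by rw [← h5]; ring⟩
  have h7 := Int.le_of_dvd two_pos h6
  omega

section Det

variable {N : ℕ} {D : HData N p} {S : Set ℕ} {R : Type} [CommRing R] [IsLocalRing R]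

/-- the determinant is the cyclotomic character -/
theorem det_cyc (hS : S.Finite) (hN : N ≠ 0) [IsAdicComplete (maximalIdeal R) R]
    (hpR : (p : R) ∈ maximalIdeal R) {π : D.TT S →+* R}
    {T : GQ →* Matrix (Fin 2) (Fin 2) R} (hT : MatCont T) (hπ : HData.FrobCond π T)
    (σ : GQ) : (T σ).det = padicTo p (maximalIdeal R) hpR (cycP p σ) := by
  rw [← sub_eq_zero]
  refine IsHausdorff.haus (inferInstance : IsHausdorff (maximalIdeal R) R) _ fun n => ?_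
  rw [SModEq.zero, smul_eq_mul, Ideal.mul_top]
  obtain ⟨L₁, hL₁, h₁⟩ := hT n
  obtain ⟨L₂, hL₂, h₂⟩ := cyc_finite p (maximalIdeal R) hpR n
  have hfin : (S ∪ {ℓ | ℓ.Prime ∧ ℓ ∣ N * p}).Finite := by
    refine hS.union ((Set.finite_le_nat (N * p)).subset ?_)
    rintro ℓ ⟨-, hℓ⟩
    exact Nat.le_of_dvd (Nat.pos_of_ne_zero
      (mul_ne_zero hN (Fact.out : p.Prime).ne_zero)) hℓ
  obtain ⟨ℓ, hℓ, hℓS, A, hA, τ, hτ, k, -, hk, -⟩ :=
    FrobDens.exists_frobenius (L₁ ⊔ L₂) _ hfin σ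
  have hℓN : ¬ ℓ ∣ N * p := fun h => hℓS (Or.inr ⟨hℓ, h⟩)
  obtain ⟨htr, hdet⟩ := hπ ℓ hℓ hℓN (fun h => hℓS (Or.inl h)) A hA τ hτ
  have hk1 : ∀ x ∈ L₁, (τ ^ k) x = σ x := fun x hx => hk x (le_sup_left (a := L₁) hx)
  have hk2 : ∀ x ∈ L₂, (τ ^ k) x = σ x := fun x hx => hk x (le_sup_right (a := L₁) hx)
  -- the determinant
  have e1 : (T σ).det - (ℓ : R) ^ k ∈ maximalIdeal R ^ n := by
    have h3 : ∀ i j, (T ((τ ^ k)⁻¹ * σ)) i j - (1 : Matrix (Fin 2) (Fin 2) R) i j ∈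
        maximalIdeal R ^ n := h₁ _ (fun x hx => by
      rw [AlgEquiv.mul_apply, ← hk1 x hx]
      exact inv_smul_smul (τ ^ k) x)
    have h4 : (T ((τ ^ k)⁻¹ * σ)).det - 1 ∈ maximalIdeal R ^ n := by
      have h5 : (Ideal.Quotient.mk (maximalIdeal R ^ n)).mapMatrix (T ((τ ^ k)⁻¹ * σ)) = 1 := by
        rw [← map_one ((Ideal.Quotient.mk (maximalIdeal R ^ n)).mapMatrix)]
        ext i j
        exact (Ideal.Quotient.eq).mpr (h3 i j)
      have h6 := congrArg Matrix.det h5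
      rw [← RingHom.map_det, Matrix.det_one, ← map_one (Ideal.Quotient.mk (maximalIdeal R ^ n))] at h6
      exact (Ideal.Quotient.eq).mp h6
    have h7 : σ = τ ^ k * ((τ ^ k)⁻¹ * σ) := by group
    have h8 : (T σ).det = (ℓ : R) ^ k * (T ((τ ^ k)⁻¹ * σ)).det := by
      conv_lhs => rw [h7]
      rw [map_mul, Matrix.det_mul, map_pow, Matrix.det_pow, hdet]
    rw [h8, show (ℓ : R) ^ k * (T ((τ ^ k)⁻¹ * σ)).det - (ℓ : R) ^ k =
      (ℓ : R) ^ k * ((T ((τ ^ k)⁻¹ * σ)).det - 1) by ring]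
    exact Ideal.mul_mem_left _ _ h4
  -- the cyclotomic character
  have e2 : (ℓ : R) ^ k - padicTo p (maximalIdeal R) hpR (cycP p σ) ∈ maximalIdeal R ^ n := by
    have f1 := h₂ (σ⁻¹ * τ ^ k) fun x hx => by
      rw [AlgEquiv.mul_apply, hk2 x hx]
      exact inv_smul_smul σ x
    have f2 : τ ^ k = σ * (σ⁻¹ * τ ^ k) := by group
    have f3 : cyc p (maximalIdeal R) hpR (τ ^ k) =
        cyc p (maximalIdeal R) hpR σ * cyc p (maximalIdeal R) hpR (σ⁻¹ * τ ^ k) := by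
      rw [← map_mul, ← f2]
    rw [map_pow, cyc_frob p (maximalIdeal R) hpR hℓ hA (HData.ne_p hℓN) hτ] at f3
    show (ℓ : R) ^ k - cyc p (maximalIdeal R) hpR σ ∈ _
    rw [f3, show cyc p (maximalIdeal R) hpR σ * cyc p (maximalIdeal R) hpR (σ⁻¹ * τ ^ k) -
      cyc p (maximalIdeal R) hpR σ = cyc p (maximalIdeal R) hpR σ *
        (cyc p (maximalIdeal R) hpR (σ⁻¹ * τ ^ k) - 1) by ring]
    exact Ideal.mul_mem_left _ _ f1
  have e6 : (T σ).det - padicTo p (maximalIdeal R) hpR (cycP p σ) = ((T σ).det - (ℓ : R) ^ k) +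
      ((ℓ : R) ^ k - padicTo p (maximalIdeal R) hpR (cycP p σ)) := by ring
  rw [e6]
  exact Ideal.add_mem _ e1 e2

end Det

end Fermat.Agent.AtP
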