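import Fermat.Agent.AtP.FlatConn
import Fermat.Agent.FlatLoc.Final2
import Fermat.Agent.DefRing.MatRep
import Fermat.Agent.TWGal.Closed

/-!
# Flat adic representations with ordinary reduction
-/

set_option autoImplicit false
set_option linter.unusedSectionVars false
set_option linter.style.haveILetI false

namespace Fermat.Agent.AtP

open Fermat.Agent.ECRed Fermat.Agent.FlatLoc IsLocalRing Fermat.Agent.DefRing Fermat.Agent.TWGal
  Matrix

local notation "Qbar" => AlgebraicClosure ℚ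
local notation "GQ" => (AlgebraicClosure ℚ ≃ₐ[ℚ] AlgebraicClosure ℚ)

variable {p : ℕ} [hp : Fact p.Prime] {A : ValuationSubring Qbar}

lemma mulVec_mem_smul {B : Type*} [CommRing B] {I : Ideal B} {X : Matrix (Fin 2) (Fin 2) B}
    (h : ∀ i j, X i j ∈ I) (v : Fin 2 → B) : X *ᵥ v ∈ I • (⊤ : Submodule B (Fin 2 → B)) := by
  have h1 : X *ᵥ v = ∑ i, (X *ᵥ v) i • (Pi.single i (1 : B) : Fin 2 → B) := by
    ext j
    simp [Finset.sum_apply, Pi.single_apply]
  rw [h1]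
  refine Submodule.sum_mem _ fun i _ => Submodule.smul_mem_smul ?_ trivial
  rw [Matrix.mulVec, dotProduct]
  exact Ideal.sum_mem _ fun j _ => Ideal.mul_mem_right _ _ (h i j)

/-- the finite level version -/
theorem ord_fin (hp2 : p ≠ 2) (hA : A.LiesOverPrime p) {B : Type} [CommRing B] [IsLocalRing B]
    [Finite B] (hpB : (p : B) ∈ maximalIdeal B) {T : GQ →* Matrix (Fin 2) (Fin 2) B}
    (hfl : IsFlatMod (Zloc p) (vecRep T)) {σ₀ : GQ} (hσ₀ : σ₀ ∈ A.inertiaSubgroupIn ℚ) {a b : B}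
    (hab : (T σ₀ - b • 1) * (T σ₀ - a • 1) = 0) (hu : IsUnit (b - a))
    (hres : ∀ τ ∈ A.inertiaSubgroupIn ℚ, ∀ i j, ((T σ₀ - a • 1) * (T τ - 1)) i j ∈
      maximalIdeal B) : ∀ τ ∈ A.inertiaSubgroupIn ℚ, (T σ₀ - a • 1) * (T τ - 1) = 0 := by
  intro τ hτ
  let C := ctx hp2 hA
  let j : II A →* GQ := (A.decompositionSubgroup ℚ).subtype.comp (II A).subtype
  have hR' : ∀ r ∈ RR hA, ∀ σ : II A, σ • r = r := fun r hr => ((C.mem_R r).mp hr).1
  have hfl' : IsFlatMod C.R ((vecRep T).comp j) :=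
    hfl.baseChange (Zloc_le_RR hA) j (fun σ z => rfl) hR'
  obtain ⟨s₀, hs₀, hs₀'⟩ := hσ₀
  obtain ⟨s, hs, hs'⟩ := hτ
  let s₀I : II A := ⟨s₀, hs₀⟩
  let sI : II A := ⟨s, hs⟩
  have hj₀ : j s₀I = σ₀ := hs₀'
  have hj : j sI = τ := hs'
  let ρL : II A →* Module.End B (Fin 2 → B) :=
    (Matrix.toLinAlgEquiv' (R := B) (n := Fin 2)).toAlgHom.toRingHom.toMonoidHom.comp (T.comp j)
  have hρL : ∀ (σ : II A) v, ρL σ v = T (j σ) *ᵥ v := fun σ v => rfl
  have hres' : ∀ (σ : II A) v, ρL s₀I (ρL σ v - v) - a • (ρL σ v - v) =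
      ((T σ₀ - a • 1) * (T (j σ) - 1)) *ᵥ v := by
    intro σ v
    rw [hρL, hρL, hj₀, ← Matrix.mulVec_mulVec, Matrix.sub_mulVec (T (j σ)), Matrix.one_mulVec,
      Matrix.sub_mulVec (T σ₀), Matrix.smul_mulVec, Matrix.one_mulVec]
  have key := fun v => ord_flat C hpB ρL (fun σ v => rfl) hfl' (σ₀ := s₀I) (a := a) (b := b)
    (fun v => by
      have h1 : ((T σ₀ - b • 1) * (T σ₀ - a • 1)) *ᵥ v = 0 := by rw [hab, Matrix.zero_mulVec]
      rw [← Matrix.mulVec_mulVec, Matrix.sub_mulVec, Matrix.smul_mulVec, Matrix.one_mulVec,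
        sub_eq_zero] at h1
      rw [hρL, hρL, hj₀]
      have h2 : T σ₀ *ᵥ v - a • v = (T σ₀ - a • 1) *ᵥ v := by
        rw [Matrix.sub_mulVec, Matrix.smul_mulVec, Matrix.one_mulVec]
      rw [h2]
      exact h1) hu
    (fun σ v => by
      rw [hres']
      exact mulVec_mem_smul (hres _ (II_mem σ)) v) sI v
  refine Matrix.ext_of_mulVec_single fun i => ?_
  have h1 := key (Pi.single i 1)
  rw [← sub_eq_zero, hres', hj] at h1
  rw [h1, Matrix.zero_mulVec]

/-- **Flat adic representations with ordinary reduction.** -/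
theorem ord_adic (hp2 : p ≠ 2) (hA : A.LiesOverPrime p) {B : Type} [CommRing B] [IsLocalRing B]
    [IsNoetherianRing B] [IsHausdorff (maximalIdeal B) B] [Finite (ResidueField B)]
    (hpB : (p : B) ∈ maximalIdeal B) {T : GQ →* Matrix (Fin 2) (Fin 2) B}
    (hfl : ∀ n : ℕ, n ≠ 0 → IsFlatMod (Zloc p) (vecRep (mapT (Ideal.Quotient.mk
      (maximalIdeal B ^ n)) T))) {σ₀ : GQ} (hσ₀ : σ₀ ∈ A.inertiaSubgroupIn ℚ) {a b : B}
    (hab : (T σ₀ - b • 1) * (T σ₀ - a • 1) = 0) (hu : IsUnit (b - a))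
    (hres : ∀ τ ∈ A.inertiaSubgroupIn ℚ, ∀ i j, ((T σ₀ - a • 1) * (T τ - 1)) i j ∈
      maximalIdeal B) : ∀ τ ∈ A.inertiaSubgroupIn ℚ, (T σ₀ - a • 1) * (T τ - 1) = 0 := by
  intro τ hτ
  ext i j
  rw [Matrix.zero_apply]
  refine IsHausdorff.haus (inferInstance : IsHausdorff (maximalIdeal B) B) _ fun n => ?_
  rw [SModEq.zero, smul_eq_mul, Ideal.mul_top]
  rcases Nat.eq_zero_or_pos n with rfl | hn
  · rw [pow_zero, Ideal.one_eq_top]; trivial
  set ψ := Ideal.Quotient.mk (maximalIdeal B ^ n) with hψ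
  have hne : maximalIdeal B ^ n ≠ ⊤ := fun h => by
    have h1 : maximalIdeal B ^ n ≤ maximalIdeal B := Ideal.pow_le_self hn.ne'
    rw [h, top_le_iff] at h1
    exact (maximalIdeal.isMaximal B).ne_top h1
  haveI : Nontrivial (B ⧸ maximalIdeal B ^ n) := Ideal.Quotient.nontrivial_iff.mpr hne
  haveI : IsLocalRing (B ⧸ maximalIdeal B ^ n) :=
    IsLocalRing.of_surjective' ψ Ideal.Quotient.mk_surjective
  haveI : Finite (B ⧸ maximalIdeal B) := inferInstanceAs (Finite (ResidueField B))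
  haveI : Finite (B ⧸ maximalIdeal B ^ n) :=
    Ideal.finite_quotient_pow (IsNoetherian.noetherian _) n
  have hloc : IsLocalHom ψ := IsLocalHom.of_surjective _ Ideal.Quotient.mk_surjective
  have hψm : ∀ x ∈ maximalIdeal B, ψ x ∈ maximalIdeal (B ⧸ maximalIdeal B ^ n) := fun x hx =>
    map_nonunit ψ x hx
  have hmap : ∀ σ, mapT ψ T σ = ψ.mapMatrix (T σ) := fun _ => rfl
  have hsm : ∀ c : B, ψ.mapMatrix (c • (1 : Matrix (Fin 2) (Fin 2) B)) = ψ c • 1 := by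
    intro c
    ext k l
    rw [RingHom.mapMatrix_apply, Matrix.map_apply, Matrix.smul_apply, Matrix.smul_apply,
      smul_eq_mul, smul_eq_mul, map_mul]
    congr 1
    rw [Matrix.one_apply, Matrix.one_apply]
    split_ifs <;> simp
  have h1 := ord_fin hp2 hA (B := B ⧸ maximalIdeal B ^ n) (by
      rw [← map_natCast ψ]; exact hψm _ hpB) (hfl n hn.ne') hσ₀ (a := ψ a) (b := ψ b) (by
        rw [hmap, ← hsm, ← hsm, ← map_sub, ← map_sub, ← map_mul, hab, map_zero]) (by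
        rw [← map_sub]; exact hu.map ψ) (fun σ hσ k l => by
        have h2 : (mapT ψ T σ₀ - ψ a • 1) * (mapT ψ T σ - 1) =
            ψ.mapMatrix ((T σ₀ - a • 1) * (T σ - 1)) := by
          rw [hmap, hmap, ← hsm, ← map_one (ψ.mapMatrix (m := Fin 2)), ← map_sub, ← map_sub,
            ← map_mul]
        rw [h2]
        exact hψm _ (hres σ hσ k l)) τ hτ
  have h2 : (mapT ψ T σ₀ - ψ a • 1) * (mapT ψ T τ - 1) =
      ψ.mapMatrix ((T σ₀ - a • 1) * (T τ - 1)) := by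
    rw [hmap, hmap, ← hsm, ← map_one (ψ.mapMatrix (m := Fin 2)), ← map_sub, ← map_sub,
      ← map_mul]
  rw [h2] at h1
  exact Ideal.Quotient.eq_zero_iff_mem.mp (congrFun (congrFun h1 i) j)

end Fermat.Agent.AtP
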