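import Fermat.Agent.FlatLoc.Tri

/-!
# Connected flat modules have no unramified subquotients; ordinary flat modules
-/

set_option autoImplicit false
set_option linter.unusedSectionVars false

namespace Fermat.Agent.AtP

open Fermat.Agent.ECRed Fermat.Agent.FlatLoc IsLocalRing

variable {K : Type*} [Field K] {κ : Type*} [Field κ] {G : Type*} [Group G]
  [MulSemiringAction G K] {p : ℕ} [hp : Fact p.Prime] (C : Ctx K κ G p)

section Conn

variable {V : Type*} [AddCommGroup V] [Finite V] {ρ : G →* AddMonoid.End V}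
  {H : Subalgebra C.R (V → K)}

/-- the action on a stable subgroup -/
def subRep (ρ : G →* AddMonoid.End V) (M : AddSubgroup V) (hst : ∀ σ, ∀ x ∈ M, ρ σ x ∈ M) :
    G →* AddMonoid.End M where
  toFun σ :=
    { toFun := fun x => ⟨ρ σ x, hst σ x x.2⟩
      map_zero' := Subtype.ext (map_zero (ρ σ))
      map_add' := fun x y => Subtype.ext (map_add (ρ σ) _ _) }
  map_one' := by
    ext x : 1
    apply Subtype.ext
    show ρ 1 (x : V) = x
    rw [map_one]
    rfl
  map_mul' σ τ := by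
    ext x : 1
    apply Subtype.ext
    show ρ (σ * τ) (x : V) = ρ σ (ρ τ x)
    rw [map_mul]
    rfl

/-- connected modules have no unramified subquotients -/
theorem conn (hH : IsOrder C.R ρ H) {M M₁ : AddSubgroup V}
    (hst : ∀ σ, ∀ x ∈ M, ρ σ x ∈ M) (hR : ∀ x ∈ M, RGt C.v H 0 x)
    (hpM : ∀ x ∈ M, p • x ∈ M₁) (hI : ∀ σ, ∀ x ∈ M, ρ σ x - x ∈ M₁) : M ≤ M₁ := by
  let ρM := subRep ρ M hst
  have hHM := hH.restrict (ρ' := ρM) M.subtype Subtype.val_injective (fun _ _ => rfl)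
  let Q := M ⧸ (M₁.addSubgroupOf M)
  let π : M →+ Q := QuotientAddGroup.mk' _
  have hπ : Function.Surjective π := QuotientAddGroup.mk'_surjective _
  have hπ0 : ∀ x : M, π x = 0 ↔ (x : V) ∈ M₁ := fun x => by
    show ((x : M) : Q) = 0 ↔ _
    rw [QuotientAddGroup.eq_zero_iff]
    rfl
  have hπ' : Equivar ρM (1 : G →* AddMonoid.End Q) π := by
    intro σ x
    show π (ρM σ x) = π x
    rw [← sub_eq_zero, ← map_sub, hπ0]
    exact hI σ x x.2
  have hHQ := hHM.quotient C.base π hπ hπ'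
  letI : Module (ZMod p) Q := AddCommGroup.zmodModule (n := p) (fun y => by
    obtain ⟨x, rfl⟩ := hπ y
    rw [← map_nsmul, hπ0]
    exact hpM x x.2)
  intro x hx
  rw [← hπ0 ⟨x, hx⟩]
  refine C.eq_zero_of_fixed hHQ (fun _ => rfl) ?_
  intro f hf
  obtain ⟨g, hg, hgf⟩ := hf
  have h1 : ∀ y : M, f (π y) = g (y : V) := fun y => (congrFun hgf y).symm
  rw [← map_zero π, h1, h1]
  exact hR x hx g hg

end Conn

section Ord

variable {B : Type*} [CommRing B] [IsLocalRing B] [Finite B] {V : Type*} [AddCommGroup V]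
  [Module B V] [Finite V]

lemma range_le_smul {I : Ideal B} {f : V →ₗ[B] V} (hf : ∀ v, f v ∈ I • (⊤ : Submodule B V))
    {n : ℕ} {v : V} (hv : v ∈ I ^ n • (⊤ : Submodule B V)) :
    f v ∈ I ^ (n + 1) • (⊤ : Submodule B V) := by
  have h1 : (I ^ n • (⊤ : Submodule B V)).map f ≤ I ^ (n + 1) • (⊤ : Submodule B V) := by
    rw [Submodule.map_smul'', pow_succ, Submodule.mul_smul]
    refine smul_mono_right _ ?_
    rintro _ ⟨w, -, rfl⟩
    exact hf w
  exact h1 ⟨v, hv, rfl⟩

lemma stable_smul {I : Ideal B} (f : V →ₗ[B] V) {n : ℕ} {v : V}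
    (hv : v ∈ I ^ n • (⊤ : Submodule B V)) : f v ∈ I ^ n • (⊤ : Submodule B V) := by
  have h1 : (I ^ n • (⊤ : Submodule B V)).map f ≤ I ^ n • (⊤ : Submodule B V) := by
    rw [Submodule.map_smul'']
    exact smul_mono_right _ le_top
  exact h1 ⟨v, hv, rfl⟩

/-- **Ordinary flat modules.** -/
theorem ord_flat (hpB : (p : B) ∈ maximalIdeal B) {ρ : G →* AddMonoid.End V}
    (ρL : G →* Module.End B V) (hρL : ∀ σ v, ρ σ v = ρL σ v) (hfl : IsFlatMod C.R ρ) {σ₀ : G}
    {a b : B} (hab : ∀ v, ρL σ₀ (ρL σ₀ v - a • v) = b • (ρL σ₀ v - a • v)) (hu : IsUnit (b - a))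
    (hres : ∀ τ v, ρL σ₀ (ρL τ v - v) - a • (ρL τ v - v) ∈
      maximalIdeal B • (⊤ : Submodule B V)) (τ : G) (v : V) :
    ρL σ₀ (ρL τ v - v) = a • (ρL τ v - v) := by
  obtain ⟨H, hH⟩ := hfl
  set 𝔪 := maximalIdeal B with h𝔪
  let N : G → Module.End B V := fun τ => ρL τ - 1
  have hN : ∀ τ v, N τ v = ρL τ v - v := fun τ v => rfl
  let E : Module.End B V := ρL σ₀ - a • 1
  have hE : ∀ v, E v = ρL σ₀ v - a • v := fun v => rfl
  let L : Submodule B V := ⨆ τ, LinearMap.range (N τ)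
  have hNL : ∀ τ v, N τ v ∈ L := fun τ v =>
    Submodule.mem_iSup_of_mem τ ⟨v, rfl⟩
  have hLst : ∀ g, ∀ x ∈ L, ρL g x ∈ L := by
    intro g x hx
    have : ρL g x = N g x + x := by rw [hN, sub_add_cancel]
    rw [this]
    exact L.add_mem (hNL g x) hx
  have hRG : ∀ x ∈ L, RGt C.v H 0 x := by
    intro x hx
    rw [← hH.mem_gtSub C.hRv]
    refine Submodule.iSup_induction (fun τ => LinearMap.range (N τ))
      (motive := fun x => x ∈ hH.gtSub C.hRv 0) hx ?_ ?_ ?_
    · rintro τ _ ⟨w, rfl⟩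
      rw [hN, ← hρL, hH.mem_gtSub C.hRv]
      exact hH.scalar_zero C.hv C.hRv (C.inert τ) w
    · exact AddSubgroup.zero_mem _
    · intro x y hx hy
      exact AddSubgroup.add_mem _ hx hy
  have key : ∀ i : ℕ, ∀ x ∈ L, E x ∈ 𝔪 ^ i • (⊤ : Submodule B V) := by
    intro i
    induction i with
    | zero => intro x _; rw [pow_zero, one_smul]; trivial
    | succ i ih =>
      set F : ℕ → Submodule B V := fun i => 𝔪 ^ i • (⊤ : Submodule B V) with hF
      have hFle : F (i + 1) ≤ F i := Submodule.smul_mono_left (Ideal.pow_le_pow_right (Nat.le_succ i))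
      let M : Submodule B V := L ⊓ F i
      let M₁ : Submodule B V := (⨆ τ, M.map (N τ)) ⊔ (L ⊓ F (i + 1))
      have hMM : M.toAddSubgroup ≤ M₁.toAddSubgroup := by
        refine conn C hH (fun σ x hx => ?_) (fun x hx => hRG x hx.1) (fun x hx => ?_)
          (fun σ x hx => ?_)
        · rw [hρL]
          exact ⟨hLst σ x hx.1, stable_smul (ρL σ) hx.2⟩
        · refine Submodule.mem_sup_right ⟨L.toAddSubgroup.nsmul_mem hx.1 p, ?_⟩
          rw [← Nat.cast_smul_eq_nsmul B, hF]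
          show (p : B) • x ∈ 𝔪 ^ (i + 1) • (⊤ : Submodule B V)
          rw [pow_succ', Submodule.mul_smul]
          exact Submodule.smul_mem_smul hpB hx.2
        · rw [hρL, ← hN]
          exact Submodule.mem_sup_left (Submodule.mem_iSup_of_mem σ ⟨x, hx, rfl⟩)
      have hM₁ : M₁ ≤ (F (i + 1)).comap E := by
        refine sup_le (iSup_le fun τ => ?_) ?_
        · rintro _ ⟨y, hy, rfl⟩
          have h1 : ∀ v, (E * N τ) v ∈ 𝔪 • (⊤ : Submodule B V) := fun v => hres τ v
          exact range_le_smul h1 hy.2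
        · intro y hy
          exact stable_smul E hy.2
      intro x hx
      have hyM : E x ∈ M := by
        refine ⟨?_, ih x hx⟩
        rw [hE]
        exact L.sub_mem (hLst _ _ hx) (L.smul_mem _ hx)
      have h2 : E (E x) ∈ F (i + 1) := hM₁ (hMM hyM)
      have h3 : E (E x) = (b - a) • E x := by
        rw [hE (E x), hE x, hab, sub_smul]
      rw [h3] at h2
      exact (Submodule.smul_mem_iff_of_isUnit _ hu).mp h2
  obtain ⟨n, hn⟩ : ∃ n, 𝔪 ^ n = ⊥ := by
    obtain ⟨n, hn⟩ := IsArtinianRing.isNilpotent_jacobson_bot (R := B)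
    rw [IsLocalRing.jacobson_eq_maximalIdeal ⊥ bot_ne_top] at hn
    exact ⟨n, hn⟩
  have h1 := key n _ (hNL τ v)
  rw [hn, Submodule.bot_smul, Submodule.mem_bot, hE, sub_eq_zero, hN] at h1
  exact h1

end Ord

end Fermat.Agent.AtP
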