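import Fermat.Agent.AtP.Polar

/-!
# Local generators congruent to one
-/

set_option autoImplicit false
set_option linter.unusedSectionVars false
set_option linter.style.haveILetI false

noncomputable section

namespace Fermat.Agent.AtP

open AlgebraicCurve Fermat.Agent.Curves Fermat.Agent.Models Polynomial

section Prod

variable {k F : Type*} [Field k] [Field F] [Algebra k F] [IsAlgClosed k] [IsFunctionField k F]

theorem ord_prod' {ι : Type*} (P : Place k F) (s : Finset ι) (f : ι → F)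
    (hf : ∀ i ∈ s, f i ≠ 0) : P.ord (∏ i ∈ s, f i) = ∑ i ∈ s, P.ord (f i) := by
  classical
  induction s using Finset.induction_on with
  | empty => rw [Finset.prod_empty, Finset.sum_empty]; exact P.ord_one
  | insert a s ha ih =>
    rw [Finset.prod_insert ha, Finset.sum_insert ha, P.ord_mul (hf a (Finset.mem_insert_self _ _))
      (Finset.prod_ne_zero_iff.mpr fun i hi => hf i (Finset.mem_insert_of_mem hi)),
      ih fun i hi => hf i (Finset.mem_insert_of_mem hi)]

open Classical in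
/-- the part of the support of a divisor in a set of places -/
def supp (G : Set (Place k F)) (D : Divisor k F) : Finset (Place k F) :=
  D.support.filter fun P => P ∈ G

theorem mem_supp {G : Set (Place k F)} {D : Divisor k F} {P : Place k F} :
    P ∈ supp G D ↔ D P ≠ 0 ∧ P ∈ G := by
  classical
  rw [supp, Finset.mem_filter, Finsupp.mem_support_iff]

theorem sum_supp (G : Set (Place k F)) (D : Divisor k F) : ∑ P ∈ supp G D, D P = degOn G D := by
  classical
  rw [degOn_eq_sum, supp, Finset.sum_filter]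

/-- the explicit local generator -/
def lgen (Z : F) (a : Place k F → k) (G : Set (Place k F)) (D : Divisor k F) : F :=
  ∏ P ∈ supp G D, ((Z - algebraMap k F (a P)) / Z) ^ D P

theorem lgen_ne {Z : F} {a : Place k F → k} {G : Set (Place k F)} (hZ : Z ≠ 0)
    (ha : ∀ P ∈ G, Z - algebraMap k F (a P) ≠ 0) (D : Divisor k F) : lgen Z a G D ≠ 0 :=
  Finset.prod_ne_zero_iff.mpr fun P hP =>
    zpow_ne_zero _ (div_ne_zero (ha P (mem_supp.mp hP).2) hZ)

open Classical in
theorem ord_lgen {Z : F} {a : Place k F → k} {G : Set (Place k F)} (hZ : Z ≠ 0)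
    (ha : ∀ P ∈ G, Z - algebraMap k F (a P) ≠ 0)
    (ho : ∀ P ∈ G, ∀ Q ∈ G, Q.ord (Z - algebraMap k F (a P)) = if Q = P then 1 else 0)
    {D : Divisor k F} (hD : degOn G D = 0) {Q : Place k F} (hQ : Q ∈ G) :
    Q.ord (lgen Z a G D) = D Q := by
  rw [lgen, ord_prod' Q _ _ fun P hP => zpow_ne_zero _ (div_ne_zero (ha P (mem_supp.mp hP).2) hZ)]
  have h1 : ∀ P ∈ supp G D, Q.ord (((Z - algebraMap k F (a P)) / Z) ^ D P) =
      (if Q = P then D P else 0) - D P * Q.ord Z := by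
    intro P hP
    rw [ord_zpow', div_eq_mul_inv, Q.ord_mul (ha P (mem_supp.mp hP).2) (inv_ne_zero hZ), Q.ord_inv,
      ho P (mem_supp.mp hP).2 Q hQ]
    split_ifs <;> ring
  rw [Finset.sum_congr rfl h1, Finset.sum_sub_distrib, ← Finset.sum_mul, sum_supp, hD, zero_mul,
    sub_zero, Finset.sum_ite_eq]
  split_ifs with h2
  · rfl
  · rw [mem_supp, not_and_or, not_not] at h2
    exact (h2.resolve_right (not_not.mpr hQ)).symm

end Prod

variable {k κ : Type*} [Field k] [Field κ] {B : Res k κ}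

section Scale

variable {F 𝓕 : Type*} [Field F] [Field 𝓕] [Algebra k F] [Algebra κ 𝓕]

theorem near_or_scale (C : Comp B F 𝓕) {c : k} (hc : c ≠ 0) (x : F) :
    Near C c x ∨ ∃ β : k, β ≠ 0 ∧ c / β ∈ B.O ∧ B.r (c / β) = 0 ∧
      C.r ((x - 1) / algebraMap k F β) ≠ 0 := by
  rcases eq_or_ne x 1 with rfl | hx1
  · exact Or.inl (Near.one C c)
  obtain ⟨γ, hγ0, hγ⟩ := C.exists_scale (x - 1) (sub_ne_zero.mpr hx1)
  have hγ' : (x - 1) / algebraMap k F γ⁻¹ = algebraMap k F γ * (x - 1) := by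
    rw [map_inv₀, div_inv_eq_mul, mul_comm]
  by_cases h : (c * γ)⁻¹ ∈ B.O
  · left
    refine ⟨algebraMap k F (c * γ)⁻¹ * (algebraMap k F γ * (x - 1)),
      mul_mem (C.algebraMap_mem _ h) (Res.mem_of_r_ne_zero hγ), ?_⟩
    have h1 := algMap_ne (F := F) hγ0
    have h2 := algMap_ne (F := F) hc
    rw [map_inv₀, map_mul]
    field_simp
    ring
  · right
    have h1 := Res.inv_mem_of_notMem h
    have h2 := Res.r_inv_of_notMem h
    rw [inv_inv] at h1 h2
    refine ⟨γ⁻¹, inv_ne_zero hγ0, ?_, ?_, by rw [hγ']; exact hγ⟩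
    · rwa [div_inv_eq_mul]
    · rwa [div_inv_eq_mul]

end Scale

variable {F : Type*} [Field F] [Algebra k F]
  {ι : Type*} {𝓕 : ι → Type*} [∀ i, Field (𝓕 i)] [∀ i, Algebra κ (𝓕 i)]
  {C : ∀ i, Comp B F (𝓕 i)}
  [IsAlgClosed k] [IsAlgClosed κ] [IsFunctionField k F] [∀ i, IsFunctionField κ (𝓕 i)]
  [Fintype ι] [DecidableEq ι] [Nonempty ι]

theorem value_zero'' {κ E : Type*} [Field κ] [Field E] [Algebra κ E] [IsAlgClosed κ]
    [IsFunctionField κ E] (𝔭 : Place κ E) : value 𝔭 (0 : E) = 0 := by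
  have := value_algebraMap 𝔭 (0 : κ)
  rwa [map_zero] at this

open Classical in
/-- the coordinate at a smooth point -/
theorem smooth_coord (hB : B.RankOne) (hC : Incomp C) {t : F} (ht : IsGood C t)
    (hS : Surj C t) {M : Ideal (chart C t)} {i : ι} {𝔭 : Place κ (𝓕 i)} (h𝔭 : 𝔭 ∈ spec t M i)
    (hj : ∀ j, j ≠ i → ¬ (spec t M j).Nonempty) :
    ∃ Z ∈ chart C t, (C i).r Z ≠ 0 ∧ 𝔭.ord ((C i).r Z) = 1 ∧ ∀ P ∈ gen t M,
      value P Z ∈ B.O ∧ B.r (value P Z) = 0 ∧ Z - algebraMap k F (value P Z) ≠ 0 ∧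
      ∀ Q ∈ gen t M, Q.ord (Z - algebraMap k F (value P Z)) = if Q = P then 1 else 0 := by
  have hM := isPoint_of_spec hB hC ht ⟨𝔭, h𝔭⟩
  obtain ⟨f, hf, hf0, hf1⟩ := exists_uniformizer_affine (ht.trans i) h𝔭.1
  obtain ⟨s, hs, hsf⟩ := hS i f hf
  have hsM : (⟨s, hs⟩ : chart C t) ∈ M := by
    rw [h𝔭.2]
    show value 𝔭 ((C i).r s) = 0
    rw [hsf, value_eq_zero_iff 𝔭 (hf 𝔭 h𝔭.1), val_lt_one_iff]
    right; omega
  refine ⟨s, hs, by rw [hsf]; exact hf0, by rw [hsf]; exact hf1, fun P hP => ?_⟩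
  have hvO : value P s ∈ B.O := value_mem hB hC ht hs hP.1 hP.2.1
  have hv0 : B.r (value P s) = 0 := (hP.2.2 ⟨s, hs⟩).mp hsM
  set h : F := s - algebraMap k F (value P s) with hh
  have hmem : h ∈ chart C t := sub_mem hs (algebraMap_mem_chart t hvO)
  have hr : (C i).r h = f := by
    rw [hh, Res.r_sub (hs.2 i) ((C i).algebraMap_mem _ hvO), (C i).r_algebraMap_eq_zero hvO hv0,
      sub_zero, hsf]
  have hr0 : (C i).r h ≠ 0 := by rw [hr]; exact hf0
  have hh0 : h ≠ 0 := Res.ne_zero_of_r hr0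
  refine ⟨hvO, hv0, hh0, ?_⟩
  have hcnt := local_conserve' hB hC ht hS hM hh0 (fun j hj' => by
    by_cases hji : j = i
    · subst hji; exact hr0
    · exact absurd hj' (hj j hji))
  rw [Finset.sum_eq_single i (fun j _ hji => cnt_empty (hj j hji) _)
    (fun h => absurd (Finset.mem_univ i) h), cnt_subsingleton (spec_subsingleton ht hS M i) h𝔭,
    hr, hf1] at hcnt
  have hnn : ∀ Q ∈ gen t M, 0 ≤ Q.ord h := fun Q hQ =>
    (mem_iff_ord Q hh0).mp (hmem.1 Q hQ.1)
  have hP1 : 1 ≤ P.ord h := by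
    have := value_spec P (hs.1 P hP.1)
    rw [val_lt_one_iff, ← hh, or_iff_right hh0] at this
    omega
  intro Q hQ
  exact ord_eq_of_cnt_one hnn hcnt.le hP hP1 Q hQ

theorem degOn_eq_zero_of {G : Set (Place k F)} {n : ℕ} (hn0 : n ≠ 0) {u : F} {D : Divisor k F}
    (hD : ∀ P : Place k F, P.ord u = n * D P) (h : cnt G u = 0) : degOn G D = 0 := by
  have h1 : divisorOf (k := k) u = n • D := by
    ext P
    rw [Finsupp.smul_apply, divisorOf_apply, hD, nsmul_eq_mul]
  rw [cnt, h1, map_nsmul, nsmul_eq_mul] at h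
  rcases mul_eq_zero.mp h with h | h
  · exact absurd (by exact_mod_cast h) hn0
  · exact h

/-- **Local generators at smooth points.** -/
theorem local_gen_smooth (hB : B.RankOne) (hC : Incomp C) {t : F} (ht : IsGood C t)
    (hS : Surj C t) {M : Ideal (chart C t)} {i : ι} {𝔭 : Place κ (𝓕 i)} (h𝔭 : 𝔭 ∈ spec t M i)
    (hj : ∀ j, j ≠ i → ¬ (spec t M j).Nonempty) {n : ℕ} (hn : (n : k) ≠ 0) {c : k}
    (hcO : c ∈ B.O) (hc : c ≠ 0) (hc0 : B.r c = 0) {u : F} (hu : Near (C i) ((n : k) * c) u)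
    {D : Divisor k F} (hD : ∀ P : Place k F, P.ord u = n * D P) :
    ∃ x : F, x ≠ 0 ∧ (∀ P ∈ gen t M, P.ord x = D P) ∧ Near (C i) c x := by
  classical
  have hn0 : n ≠ 0 := by rintro rfl; simp at hn
  have hnO : (n : k) ∈ B.O := natCast_mem B.O n
  have hncO : (n : k) * c ∈ B.O := mul_mem hnO hcO
  have hnc0 : B.r ((n : k) * c) = 0 := by rw [Res.r_mul hnO hcO, hc0, mul_zero]
  have hncne : (n : k) * c ≠ 0 := mul_ne_zero hn hc
  have hM := isPoint_of_spec hB hC ht ⟨𝔭, h𝔭⟩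
  obtain ⟨Z, hZc, hZ0, hZ1, hZ⟩ := smooth_coord hB hC ht hS h𝔭 hj
  have hZne : Z ≠ 0 := Res.ne_zero_of_r hZ0
  have hur := hu.r_eq hncO hnc0
  have hu0 : u ≠ 0 := hu.ne hncO hnc0
  have hdeg : degOn (gen t M) D = 0 := by
    refine degOn_eq_zero_of hn0 hD ?_
    rw [local_conserve' hB hC ht hS hM hu0 (fun j hj' => by
      by_cases hji : j = i
      · subst hji; rw [hur]; exact one_ne_zero
      · exact absurd hj' (hj j hji)), Finset.sum_eq_single i
        (fun j _ hji => cnt_empty (hj j hji) _) (fun h => absurd (Finset.mem_univ i) h), hur,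
        cnt_one]
  set x := lgen Z (fun P => value P Z) (gen t M) D with hx
  have hxne : x ≠ 0 := lgen_ne hZne (fun P hP => (hZ P hP).2.2.1) D
  have hxord : ∀ P ∈ gen t M, P.ord x = D P := fun P hP =>
    ord_lgen hZne (fun P hP => (hZ P hP).2.2.1) (fun P hP => (hZ P hP).2.2.2) hdeg hP
  have hxU : Uni B Z x := Uni.prod _ _ fun P hP =>
    (Uni.single Z (hZ P (mem_supp.mp hP).2).1 (hZ P (mem_supp.mp hP).2).2.1).zpow _
  have hxr : (C i).r x = 1 := hxU.r_eq hZ0
  have hxnr : (C i).r (x ^ n) = 1 := (hxU.pow n).r_eq hZ0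
  have hxn1 : (C i).r (x ^ n) ≠ 0 := by rw [hxnr]; exact one_ne_zero
  set η := u / x ^ n with hη
  have hηr : (C i).r η = 1 := by
    rw [hη, Res.r_div (hu.mem hncO) hxn1, hur, hxnr, div_one]
  have hηne : η ≠ 0 := div_ne_zero hu0 (pow_ne_zero _ hxne)
  have hηord : ∀ P ∈ gen t M, P.ord η = 0 := by
    intro P hP
    rw [hη, div_eq_mul_inv, P.ord_mul hu0 (inv_ne_zero (pow_ne_zero _ hxne)), P.ord_inv, ord_pow,
      hD, hxord P hP]
    ring
  -- the main claim
  have hηnear : Near (C i) ((n : k) * c) η := by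
    rcases near_or_scale (C i) hncne η with h | ⟨β, hβ, h1, h2, h3⟩
    · exact h
    exfalso
    have hβF := algMap_ne (F := F) hβ
    have hloc : (η - 1) / algebraMap k F β ∈ loc t M hM.isMaximal.isPrime :=
      mem_loc_of hB hC ht hS hM (fun P hP => by
        rw [div_eq_mul_inv, ← map_inv₀]
        exact mul_mem (sub_mem ((mem_iff_ord P hηne).mpr (hηord P hP).ge) (one_mem _))
          (P.algebraMap_mem' _)) fun j hj' => by
        by_cases hji : j = i
        · subst hji; exact Res.mem_of_r_ne_zero h3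
        · exact absurd hj' (hj j hji)
    have hreg := (loc_mem_O hB hC ht _ h𝔭 hloc).2
    obtain ⟨z, hz, hzu⟩ := hu
    have hsm : algebraMap k F ((n : k) * c / β) * z ∈ (C i).O ∧
        (C i).r (algebraMap k F ((n : k) * c / β) * z) = 0 := by
      have h4 := (C i).algebraMap_mem _ h1
      refine ⟨mul_mem h4 hz, ?_⟩
      rw [Res.r_mul h4 hz, (C i).r_algebraMap_eq_zero h1 h2, zero_mul]
    have hxi : (x ^ n)⁻¹ ∈ (C i).O := Res.inv_mem_of_r hxn1
    have e : ((x ^ n)⁻¹ - 1) / algebraMap k F β = (η - 1) / algebraMap k F β -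
        algebraMap k F ((n : k) * c / β) * z * (x ^ n)⁻¹ := by
      rw [hη, hzu, map_div₀]
      field_simp
      ring
    have hmem : ((x ^ n)⁻¹ - 1) / algebraMap k F β ∈ (C i).O := by
      rw [e]
      exact sub_mem (Res.mem_of_r_ne_zero h3) (mul_mem hsm.1 hxi)
    have hre : (C i).r (((x ^ n)⁻¹ - 1) / algebraMap k F β) =
        (C i).r ((η - 1) / algebraMap k F β) := by
      rw [e, Res.r_sub (Res.mem_of_r_ne_zero h3) (mul_mem hsm.1 hxi), Res.r_mul hsm.1 hxi, hsm.2,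
        zero_mul, sub_zero]
    rcases (hxU.pow n).inv.key 𝔭 hZ0 hZ1 hβ hmem with h4 | h4
    · rw [hre] at h4; exact h3 h4
    · rw [hre] at h4
      have := (mem_iff_ord 𝔭 h3).mp hreg
      omega
  refine ⟨x, hxne, hxord, ?_⟩
  refine hxU.root 𝔭 hZ0 hZ1 hn hc ?_
  have : x ^ n = u / η := by rw [hη]; field_simp
  rw [this]
  exact hu.div hncO hnc0 hηnear

end Fermat.Agent.AtP
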