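import Fermat.Agent.Models.Toric

/-!
# Functions congruent to one on a component
-/

set_option autoImplicit false
set_option linter.unusedSectionVars false
set_option linter.style.haveILetI false

noncomputable section

namespace Fermat.Agent.AtP

open AlgebraicCurve Fermat.Agent.Curves Fermat.Agent.Models Polynomial

variable {k κ : Type*} [Field k] [Field κ] {B : Res k κ} {F 𝓕 : Type*} [Field F] [Field 𝓕]
    [Algebra k F] [Algebra κ 𝓕]

/-- `x ≡ 1` modulo `c` on the component -/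
def Near (C : Comp B F 𝓕) (c : k) (x : F) : Prop := ∃ y ∈ C.O, x = 1 + algebraMap k F c * y

variable {C : Comp B F 𝓕} {c c' : k} {x y : F}

theorem algMap_ne {c : k} (hc : c ≠ 0) : algebraMap k F c ≠ 0 := by simpa using hc

theorem near_iff_div (hc : c ≠ 0) : Near C c x ↔ (x - 1) / algebraMap k F c ∈ C.O := by
  have h := algMap_ne (F := F) hc
  constructor
  · rintro ⟨y, hy, rfl⟩
    rwa [add_sub_cancel_left, mul_div_cancel_left₀ _ h]
  · intro h1
    exact ⟨_, h1, by rw [mul_div_cancel₀ _ h]; ring⟩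

theorem Near.one (C : Comp B F 𝓕) (c : k) : Near C c (1 : F) := ⟨0, zero_mem _, by ring⟩

theorem Near.mem (hcO : c ∈ B.O) (h : Near C c x) : x ∈ C.O := by
  obtain ⟨y, hy, rfl⟩ := h
  exact add_mem (one_mem _) (mul_mem (C.algebraMap_mem c hcO) hy)

theorem Near.mul (hcO : c ∈ B.O) (h : Near C c x) (h' : Near C c y) : Near C c (x * y) := by
  obtain ⟨a, ha, rfl⟩ := h
  obtain ⟨b, hb, rfl⟩ := h'
  exact ⟨a + b + algebraMap k F c * a * b, add_mem (add_mem ha hb)
    (mul_mem (mul_mem (C.algebraMap_mem c hcO) ha) hb), by ring⟩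

theorem Near.pow (hcO : c ∈ B.O) (h : Near C c x) (n : ℕ) : Near C c (x ^ n) := by
  induction n with
  | zero => rw [pow_zero]; exact Near.one C c
  | succ n ih => rw [pow_succ]; exact ih.mul hcO h

theorem Near.mono (hcc : ∃ d ∈ B.O, c = c' * d) (h : Near C c x) : Near C c' x := by
  obtain ⟨d, hd, rfl⟩ := hcc
  obtain ⟨a, ha, rfl⟩ := h
  exact ⟨algebraMap k F d * a, mul_mem (C.algebraMap_mem d hd) ha, by rw [map_mul]; ring⟩

theorem Near.r_eq (hcO : c ∈ B.O) (hc0 : B.r c = 0) (h : Near C c x) : C.r x = 1 := by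
  obtain ⟨y, hy, rfl⟩ := h
  rw [Res.r_add (one_mem _) (mul_mem (C.algebraMap_mem c hcO) hy), Res.r_one,
    Res.r_mul (C.algebraMap_mem c hcO) hy, C.r_algebraMap_eq_zero hcO hc0, zero_mul, add_zero]

theorem Near.ne (hcO : c ∈ B.O) (hc0 : B.r c = 0) (h : Near C c x) : x ≠ 0 :=
  Res.ne_zero_of_r (C := C.toRes) (by rw [h.r_eq hcO hc0]; exact one_ne_zero)

theorem Near.inv (hcO : c ∈ B.O) (hc0 : B.r c = 0) (h : Near C c x) : Near C c x⁻¹ := by
  have h1 := h.r_eq hcO hc0
  have h2 : x⁻¹ ∈ C.O := Res.inv_mem_of_r (by rw [h1]; exact one_ne_zero)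
  have hx := h.ne hcO hc0
  obtain ⟨a, ha, e⟩ := h
  refine ⟨-(a * x⁻¹), neg_mem (mul_mem ha h2), ?_⟩
  have h3 : x⁻¹ * (1 + algebraMap k F c * a) = 1 := by rw [← e, inv_mul_cancel₀ hx]
  linear_combination h3

theorem Near.div (hcO : c ∈ B.O) (hc0 : B.r c = 0) (h : Near C c x) (h' : Near C c y) :
    Near C c (x / y) := by
  rw [div_eq_mul_inv]; exact h.mul hcO (h'.inv hcO hc0)

theorem Near.zpow (hcO : c ∈ B.O) (hc0 : B.r c = 0) (h : Near C c x) (n : ℤ) :
    Near C c (x ^ n) := by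
  obtain ⟨m, rfl | rfl⟩ := n.eq_nat_or_neg
  · rw [zpow_natCast]; exact h.pow hcO m
  · rw [zpow_neg, zpow_natCast]; exact (h.pow hcO m).inv hcO hc0

theorem Near.prod (hcO : c ∈ B.O) {ι : Type*} (s : Finset ι) (f : ι → F)
    (h : ∀ i ∈ s, Near C c (f i)) : Near C c (∏ i ∈ s, f i) := by
  classical
  induction s using Finset.induction_on with
  | empty => rw [Finset.prod_empty]; exact Near.one C c
  | insert a s ha ih =>
    rw [Finset.prod_insert ha]
    exact (h a (Finset.mem_insert_self _ _)).mul hcO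
      (ih fun i hi => h i (Finset.mem_insert_of_mem hi))

/-- `(1 - x)^n = 1 - n x + x² q` -/
theorem one_sub_pow {R : Type*} [CommRing R] (x : R) (n : ℕ) :
    ∃ q : R, (1 - x) ^ n = 1 - n * x + x ^ 2 * q ∧ ∀ S : Subring R, x ∈ S → q ∈ S := by
  induction n with
  | zero => exact ⟨0, by simp, fun S _ => S.zero_mem⟩
  | succ n ih =>
    obtain ⟨q, hq, hS⟩ := ih
    refine ⟨n + q * (1 - x), ?_, fun S hx => S.add_mem (natCast_mem S n)
      (S.mul_mem (hS S hx) (S.sub_mem S.one_mem hx))⟩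
    rw [pow_succ, hq]
    push_cast
    ring

/-- `(1 + x)^n = 1 + n x + x² q` -/
theorem one_add_pow' {R : Type*} [CommRing R] (x : R) (n : ℕ) :
    ∃ q : R, (1 + x) ^ n = 1 + n * x + x ^ 2 * q ∧ ∀ S : Subring R, x ∈ S → q ∈ S := by
  obtain ⟨q, hq, hS⟩ := one_sub_pow (-x) n
  refine ⟨q, ?_, fun S hx => hS S (S.neg_mem hx)⟩
  have : (1 + x) ^ n = (1 - -x) ^ n := by rw [sub_neg_eq_add]
  rw [this, hq]; ring

/-- powers improve congruences -/
theorem Near.pow_n {a : k} (haO : a ∈ B.O) {n : ℕ} (h : Near C ((n : k) * a) x) :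
    Near C ((n : k) ^ 2 * a) (x ^ n) := by
  obtain ⟨y, hy, rfl⟩ := h
  obtain ⟨q, hq, hS⟩ := one_add_pow' (algebraMap k F ((n : k) * a) * y) n
  have haF := C.algebraMap_mem a haO
  have hnF : algebraMap k F (n : k) ∈ C.O := by rw [map_natCast]; exact natCast_mem C.O n
  have hq' := hS C.O.toSubring (mul_mem (by rw [map_mul]; exact mul_mem hnF haF) hy)
  refine ⟨y + algebraMap k F a * y ^ 2 * q, add_mem hy (mul_mem (mul_mem haF (pow_mem hy 2)) hq'), ?_⟩
  rw [hq]
  simp only [map_mul, map_pow, map_natCast]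
  ring

end Fermat.Agent.AtP
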