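import Mathlib

/-!
# Linear algebra for ordinary representations
-/

set_option autoImplicit false
set_option linter.unusedSectionVars false

namespace Fermat.Agent.AtP

open Matrix Polynomial IsLocalRing

section Line

variable {B : Type*} [CommRing B]

/-- an eigenvector whose eigenvalue is the determinant: inertia acts trivially on the quotient -/
theorem line_alg [IsDomain B] {G : Type*} {T : G → Matrix (Fin 2) (Fin 2) B} {χ : G → B}
    {I : Set G} (hdet : ∀ τ ∈ I, (T τ).det = χ τ) (hχ : ∀ τ ∈ I, χ τ ≠ 0)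
    {X : Matrix (Fin 2) (Fin 2) B} (hX : X ≠ 0) (h : ∀ τ ∈ I, (T τ - χ τ • 1) * X = 0) :
    ∀ τ ∈ I, ∀ τ' ∈ I, (T τ - χ τ • 1) * (T τ' - 1) = 0 := by
  obtain ⟨i₀, j, hij⟩ : ∃ i j, X i j ≠ 0 := by
    by_contra hcon
    push Not at hcon
    exact hX (Matrix.ext hcon)
  set v0 := X 0 j with hv0
  set v1 := X 1 j with hv1
  have hv : v0 ≠ 0 ∨ v1 ≠ 0 := by
    fin_cases i₀
    · exact Or.inl hij
    · exact Or.inr hij
  have e0 : ∀ τ ∈ I, T τ 0 0 * v0 + T τ 0 1 * v1 = χ τ * v0 := by
    intro τ hτ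
    have := congrFun (congrFun (h τ hτ) 0) j
    rw [Matrix.mul_apply, Fin.sum_univ_two] at this
    simp only [Matrix.sub_apply, Matrix.smul_apply, Matrix.one_apply, smul_eq_mul,
      Matrix.zero_apply, ← hv0, ← hv1] at this
    norm_num at this
    linear_combination this
  have e1 : ∀ τ ∈ I, T τ 1 0 * v0 + T τ 1 1 * v1 = χ τ * v1 := by
    intro τ hτ
    have := congrFun (congrFun (h τ hτ) 1) j
    rw [Matrix.mul_apply, Fin.sum_univ_two] at this
    simp only [Matrix.sub_apply, Matrix.smul_apply, Matrix.one_apply, smul_eq_mul,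
      Matrix.zero_apply, ← hv0, ← hv1] at this
    norm_num at this
    linear_combination this
  -- parallelism
  have par0 : ∀ τ ∈ I, v0 * T τ 1 0 = v1 * (T τ 0 0 - 1) := by
    intro τ hτ
    have hd := hdet τ hτ
    rw [Matrix.det_fin_two] at hd
    refine mul_left_cancel₀ (hχ τ hτ) ?_
    linear_combination (-T τ 1 0) * e0 τ hτ + (T τ 0 0) * e1 τ hτ - v1 * hd
  have par1 : ∀ τ ∈ I, v0 * (T τ 1 1 - 1) = v1 * T τ 0 1 := by
    intro τ hτ
    have hd := hdet τ hτ
    rw [Matrix.det_fin_two] at hd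
    refine mul_left_cancel₀ (hχ τ hτ) ?_
    linear_combination (-T τ 1 1) * e0 τ hτ + (T τ 0 1) * e1 τ hτ + v0 * hd
  intro τ hτ τ' hτ'
  have f0 := e0 τ hτ
  have f1 := e1 τ hτ
  have p0 := par0 τ' hτ'
  have p1 := par1 τ' hτ'
  -- cancel `v0` or `v1`
  have key : ∀ x y : B, v0 * x = 0 → v1 * x = 0 → x = 0 := fun x _ h0 h1 => by
    rcases hv with h | h
    · exact (mul_eq_zero.mp h0).resolve_left h
    · exact (mul_eq_zero.mp h1).resolve_left h
  ext a b
  rw [Matrix.mul_apply, Fin.sum_univ_two, Matrix.zero_apply]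
  refine key _ 0 ?_ ?_ <;>
  · fin_cases a <;> fin_cases b <;>
    simp only [Matrix.sub_apply, Matrix.smul_apply, Matrix.one_apply, smul_eq_mul,
      Fin.zero_eta, Fin.mk_one, Fin.isValue, if_true, one_ne_zero, zero_ne_one, if_false,
      mul_one, mul_zero, sub_zero]
    all_goals first
      | linear_combination (T τ' 0 0 - 1) * f0 + (T τ 0 1) * p0
      | linear_combination (T τ' 0 1) * f0 + (T τ 0 1) * p1
      | linear_combination (T τ' 0 0 - 1) * f1 + (T τ 1 1 - χ τ) * p0
      | linear_combination (T τ' 0 1) * f1 + (T τ 1 1 - χ τ) * p1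
      | linear_combination (T τ' 1 0) * f0 - (T τ 0 0 - χ τ) * p0
      | linear_combination (T τ' 1 1 - 1) * f0 - (T τ 0 0 - χ τ) * p1
      | linear_combination (T τ' 1 0) * f1 - (T τ 1 0) * p0
      | linear_combination (T τ' 1 1 - 1) * f1 - (T τ 1 0) * p1

/-- Cayley–Hamilton -/
theorem ch_two (M : Matrix (Fin 2) (Fin 2) B) {a b : B} (htr : M.trace = a + b)
    (hd : M.det = a * b) : (M - b • 1) * (M - a • 1) = 0 := by
  rw [Matrix.trace_fin_two] at htr
  rw [Matrix.det_fin_two] at hd
  ext i j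
  rw [Matrix.mul_apply, Fin.sum_univ_two, Matrix.zero_apply]
  fin_cases i <;> fin_cases j <;>
    simp only [Matrix.sub_apply, Matrix.smul_apply, Matrix.one_apply, smul_eq_mul,
      Fin.zero_eta, Fin.mk_one, Fin.isValue, if_true, one_ne_zero, zero_ne_one, if_false,
      mul_one, mul_zero, sub_zero]
  · linear_combination (M 0 0) * htr - hd
  · linear_combination (M 0 1) * htr
  · linear_combination (M 1 0) * htr
  · linear_combination (M 1 1) * htr - hd

/-- Hensel factorization of a quadratic characteristic polynomial -/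
theorem hensel_two [IsLocalRing B] [IsAdicComplete (maximalIdeal B) B] {t d : B}
    (h1 : 1 - t + d ∈ maximalIdeal B) (hd : IsUnit (1 - d)) :
    ∃ a b : B, a + b = t ∧ a * b = d ∧ b - 1 ∈ maximalIdeal B := by
  haveI : HenselianRing B (maximalIdeal B) := IsAdicComplete.henselianRing B (maximalIdeal B)
  obtain ⟨b, hb, hb1⟩ := HenselianRing.is_henselian (I := maximalIdeal B)
    (X ^ 2 - C t * X + C d) (by monicity!) 1 (by simpa using h1) (by
      have h2 : (derivative (X ^ 2 - C t * X + C d)).eval 1 = (1 - d) + (1 - t + d) := by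
        simp
        ring
      rw [h2, map_add, Ideal.Quotient.eq_zero_iff_mem.mpr h1, add_zero]
      exact hd.map _)
  refine ⟨t - b, b, by ring, ?_, hb1⟩
  have h3 : b ^ 2 - t * b + d = 0 := by simpa [Polynomial.IsRoot.def] using hb
  linear_combination -h3

/-- the unit root is `1` -/
theorem unit_root_eq_one [IsDomain B] {M : Matrix (Fin 2) (Fin 2) B} {a b : B}
    (htr : M.trace = a + b) (hd : M.det = a * b) (hab : b ≠ a)
    (h : (M - a • 1) * (M - 1) = 0) : b = 1 := by
  by_contra hb
  have h1 := ch_two M htr hd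
  have h2 : (b - 1) • (M - a • 1) = 0 := by
    have e1 : (M - a • 1) * (M - b • 1) = 0 := by
      rw [← h1]
      simp only [mul_sub, sub_mul, smul_mul_assoc, mul_smul_comm, one_mul, mul_one, smul_sub,
        smul_smul]
      rw [mul_comm a b]
      abel
    have e2 : (M - a • 1) * (M - 1) - (M - a • 1) * (M - b • 1) = (b - 1) • (M - a • 1) := by
      rw [← mul_sub, sub_sub_sub_cancel_left, sub_smul, one_smul, mul_sub, mul_one,
        mul_smul_comm, mul_one]
    rw [← e2, e1, h, sub_self]
  have h3 : M = a • 1 := by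
    rw [← sub_eq_zero]
    exact (smul_eq_zero.mp h2).resolve_left (sub_ne_zero.mpr hb)
  apply hab
  rw [h3, Matrix.trace_fin_two] at htr
  simp at htr
  exact htr.symm

end Line

end Fermat.Agent.AtP
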