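import Fermat.Agent.AtP.NewPadic
import Fermat.Agent.AtP.OrdAlg
import Fermat.Agent.AtP.CycIn
import Fermat.Agent.SSMod.RamExt
import Fermat.Agent.SSMod.S35Final
import Fermat.Agent.FlatLoc.Inst2

/-!
# The `p`-new case
-/

set_option autoImplicit false
set_option linter.unusedSectionVars false
set_option linter.style.haveILetI false
set_option maxHeartbeats 400000
set_option synthInstance.maxHeartbeats 400000

noncomputable section

namespace Fermat.Agent.AtP

open Fermat.Agent.SSMod Fermat.Agent.HeckeQ Fermat.Agent.MazurP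
open Fermat.Agent.AnJac Fermat.Agent.GalRep Fermat.Agent.GalRep.HData Fermat.Agent.S43Glue
open CuspForm Matrix IsLocalRing Fermat.Agent.DefRing

local notation "Qbar" => AlgebraicClosure ℚ
local notation "GQ" => Qbar ≃ₐ[ℚ] Qbar

variable {A : ValuationSubring Qbar} {p : ℕ} [hp : Fact p.Prime]

/-- the Hecke polynomials act on eigenvectors through the character -/
theorem mt_eig' {N : ℕ} [NeZero N] {S : Set ℕ} (hSN : ∀ i : JS S, ¬ i.1 ∣ N)
    {B : Type} [CommRing B] (θ : heckeAlgebra N 2 S →+* B)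
    {w : Fin (Module.finrank ℤ (Lat N)) → B}
    (hw : ∀ i : JS S, castHom (Module.finrank ℤ (Lat N)) B (KSys.tm (bL N) (LTot N i.1)) *ᵥ w =
      θ (heckeAlgebra.T i.2.1 (hSN i) i.2.2) • w) (P : FreeAlgebra ℤ (JS S)) :
    castHom (Module.finrank ℤ (Lat N)) B (MazurP.mt N P) *ᵥ w = θ (hkA N hSN P) • w := by
  induction P using FreeAlgebra.induction with
  | grade0 c =>
    have h1 : MazurP.mt N (algebraMap ℤ (FreeAlgebra ℤ (JS S)) c) = (c : Matrix _ _ ℤ) := by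
      rw [MazurP.mt, AlgHom.commutes, eq_intCast, map_intCast]
    rw [h1, AlgHom.commutes, eq_intCast, map_intCast, map_intCast, Matrix.intCast_mulVec]
  | grade1 i =>
    have h1 : MazurP.mt N (FreeAlgebra.ι ℤ i) = KSys.tm (bL N) (LTot N i.1) := by
      rw [MazurP.mt, lat, FreeAlgebra.lift_ι_apply]
      rfl
    rw [h1, hw i, hkA_ι]
  | mul P Q hP hQ =>
    have h1 : MazurP.mt N (P * Q) = MazurP.mt N P * MazurP.mt N Q := by
      rw [MazurP.mt, MazurP.mt, MazurP.mt, map_mul (lat N), map_mul (tmA (bL N))]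
    rw [h1, map_mul (castHom (Module.finrank ℤ (Lat N)) B), ← Matrix.mulVec_mulVec, hQ,
      Matrix.mulVec_smul, hP, smul_smul, map_mul (hkA N hSN), map_mul θ, mul_comm]
  | add P Q hP hQ =>
    have h1 : MazurP.mt N (P + Q) = MazurP.mt N P + MazurP.mt N Q := by
      show tmA (bL N) (lat N (P + Q)) = tmA (bL N) (lat N P) + tmA (bL N) (lat N Q)
      exact (congrArg (tmA (bL N)) (map_add (lat N) P Q)).trans (map_add (tmA (bL N)) _ _)
    have h2 : θ (hkA N hSN (P + Q)) = θ (hkA N hSN P) + θ (hkA N hSN Q) :=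
      (congrArg θ (map_add (hkA N hSN) P Q)).trans (RingHom.map_add θ _ _)
    rw [h1, h2, map_add (castHom (Module.finrank ℤ (Lat N)) B), Matrix.add_mulVec, hP, hQ,
      add_smul]

/-- the Hecke polynomials act on eigenvectors through the character -/
theorem mt_eig {N : ℕ} [NeZero N] {S : Set ℕ} (hSN : ∀ i : JS S, ¬ i.1 ∣ N)
    (hSp : ∀ i : JS S, ¬ i.1 ∣ N * p) {B : Type} [CommRing B]
    (θ : heckeAlgebra N 2 S →+* B) {w : Fin (hdata N p (esHyp N p)).r → B}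
    (hw : ∀ x : (hdata N p (esHyp N p)).TT S, castHom (hdata N p (esHyp N p)).r B x.1 *ᵥ w =
      (θ.comp (HData.Phi S (hdata_link (esHyp N p)))) x • w) (P : FreeAlgebra ℤ (JS S)) :
    castHom (hdata N p (esHyp N p)).r B (MazurP.mt N P) *ᵥ w = θ (hkA N hSN P) • w := by
  refine mt_eig' hSN θ (fun i => ?_) P
  have h2 := hw ⟨(hdata N p (esHyp N p)).T i.1, T_mem i.2.1 (hSp i) i.2.2⟩
  refine h2.trans ?_
  rw [RingHom.comp_apply, HData.Phi_T S (hdata_link (esHyp N p)) i.2.1 (hSp i) i.2.2]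
  rfl

/-- relations on the eigenspace are relations among matrices -/
theorem rel_generic {N : ℕ} (hN : N ≠ 0) {D : HData N p} {S : Set ℕ} (hS : S.Finite)
    {B : Type} [CommRing B] [IsDomain B] [IsLocalRing B] [CharZero B]
    [IsAdicComplete (maximalIdeal B) B] (hpB : (p : B) ∈ maximalIdeal B) (π : D.TT S →+* B)
    {T : GQ →* Matrix (Fin 2) (Fin 2) B} (hT : MatCont T)
    (hspan : Submodule.span B (Set.range T) = ⊤) (hπ : FrobCond π T)
    {X : Matrix (Fin D.r) (Fin D.r) ℤ} {c : B} (hc : c ≠ 0)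
    (hX : ∀ w : Fin D.r → B, (∀ x : D.TT S, castHom D.r B x.1 *ᵥ w = π x • w) →
      castHom D.r B X *ᵥ w = c • w) {σ τ : GQ}
    (hm : (D.ρ τ - cycP p τ • 1) * ((D.ρ σ * D.ρ σ - 1) * castHom D.r ℤ_[p] X) = 0) :
    (T τ - (T τ).det • 1) * (T σ * T σ - 1) = 0 := by
  set f := padicTo p (maximalIdeal B) hpB with hf
  have hdet := det_cyc (D := D) hS hN hpB hT hπ
  rw [← hf] at hdet
  -- an eigenvector
  let K := FractionRing B
  haveI : CharZero K := IsFractionRing.charZero_of_isFractionRing B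
  obtain ⟨v, hv, hve⟩ := exists_eigvec (D.TT S) ((algebraMap B K).comp π)
  obtain ⟨w, hw, hwe⟩ := exists_int_vec (K := K) (fun x : D.TT S => (x : Matrix _ _ ℤ))
    (fun x => π x) hv hve
  let U : Matrix (Fin D.r) (Fin D.r) ℤ_[p] := 1
  have hUc : ∀ g, D.ρ g * U = U * D.ρ g := fun g => by rw [mul_one, one_mul]
  have hfU : f.mapMatrix U = 1 := map_one _
  have hwW : w ∈ Weig π (f.mapMatrix U) := ⟨hwe, by
    rw [hfU, Matrix.one_mulVec, Matrix.one_mulVec]⟩
  haveI : Nontrivial (Weig π (f.mapMatrix U)) :=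
    ⟨⟨⟨w, hwW⟩, 0, fun h => hw (congrArg Subtype.val h)⟩⟩
  have h1 : ∀ g, rhoW π U f hUc g + ((f : ℤ_[p] →* B).comp (cycP p)) g • rhoW π U f hUc g⁻¹ =
      (T g).trace • (1 : Module.End B (Weig π (f.mapMatrix U))) := by
    intro g
    ext w : 1
    apply Subtype.ext
    have h3 := trace_smul_eig hS hN hpB hT hπ w.2.1 g
    rw [← hf, th, map_add] at h3
    show f.mapMatrix (D.ρ g) *ᵥ (w : Fin D.r → B) +
      f (cycP p g) • (f.mapMatrix (D.ρ g⁻¹) *ᵥ (w : Fin D.r → B)) =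
        (T g).trace • (w : Fin D.r → B)
    have h4 : f.mapMatrix (cycP p g • D.ρ g⁻¹) = f (cycP p g) • f.mapMatrix (D.ρ g⁻¹) := by
      ext a b
      exact map_mul f _ _
    rw [← h3, Matrix.add_mulVec, h4, Matrix.smul_mulVec]
  -- the relation
  have hm' := congrArg f.mapMatrix hm
  have h4 : f.mapMatrix (cycP p τ • (1 : Matrix (Fin D.r) (Fin D.r) ℤ_[p])) =
      f (cycP p τ) • 1 := by
    ext a b
    rw [RingHom.mapMatrix_apply, Matrix.map_apply, Matrix.smul_apply, Matrix.smul_apply,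
      smul_eq_mul, smul_eq_mul, map_mul]
    congr 1
    rw [Matrix.one_apply, Matrix.one_apply]
    split_ifs <;> simp
  rw [map_mul, map_mul, map_sub, map_sub, map_mul, map_one, map_zero, h4, map_castHom'] at hm'
  let z : MonoidAlgebra B GQ := (MonoidAlgebra.of B GQ τ - algebraMap B _ (f (cycP p τ))) *
    (MonoidAlgebra.of B GQ σ * MonoidAlgebra.of B GQ σ - 1)
  have hz : Rt (rhoW π U f hUc) z = 0 := by
    ext w : 1
    apply Subtype.ext
    have h2 : c • ((f.mapMatrix (D.ρ τ) - f (cycP p τ) • 1) *ᵥ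
          ((f.mapMatrix (D.ρ σ) * f.mapMatrix (D.ρ σ) - 1) *ᵥ (w : Fin D.r → B))) = 0 := by
      rw [← Matrix.mulVec_smul, ← Matrix.mulVec_smul, ← hX w.1 w.2.1, Matrix.mulVec_mulVec,
        Matrix.mulVec_mulVec, Matrix.mul_assoc, hm', Matrix.zero_mulVec]
    have h3 := (smul_eq_zero.mp h2).resolve_left hc
    have h4 : ((Rt (rhoW π U f hUc) z w : Weig π (f.mapMatrix U)) : Fin D.r → B) =
        (f.mapMatrix (D.ρ τ) - f (cycP p τ) • 1) *ᵥ
          ((f.mapMatrix (D.ρ σ) * f.mapMatrix (D.ρ σ) - 1) *ᵥ (w : Fin D.r → B)) := by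
      show ((Rt (rhoW π U f hUc) ((MonoidAlgebra.of B GQ τ - algebraMap B _ (f (cycP p τ))) *
        (MonoidAlgebra.of B GQ σ * MonoidAlgebra.of B GQ σ - 1)) w :
          Weig π (f.mapMatrix U)) : Fin D.r → B) = _
      rw [map_mul, map_sub, map_sub, map_mul, Rt_of, Rt_of, AlgHom.commutes,
        map_one (Rt (rhoW π U f hUc)), Matrix.sub_mulVec, Matrix.sub_mulVec, Matrix.smul_mulVec, Matrix.one_mulVec,
        Matrix.one_mulVec, ← Matrix.mulVec_mulVec]
      rfl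
    rw [h4]
    exact h3
  have h6 := ker_of_acts hspan h1 hz
  have h7 : Tt T z = (T τ - (T τ).det • 1) * (T σ * T σ - 1) := by
    show Tt T ((MonoidAlgebra.of B GQ τ - algebraMap B _ (f (cycP p τ))) *
        (MonoidAlgebra.of B GQ σ * MonoidAlgebra.of B GQ σ - 1)) = _
    rw [map_mul, map_sub, map_sub, map_mul, Tt_of, Tt_of, AlgHom.commutes, map_one (Tt T), hdet,
      Algebra.algebraMap_eq_smul_one]
  rw [← h7]
  exact h6

/-- the final linear algebra -/
theorem new_alg (hp2 : p ≠ 2) (hA : A.LiesOverPrime p)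
    {B : Type} [CommRing B] [IsDomain B] {T : GQ →* Matrix (Fin 2) (Fin 2) B}
    {f : ℤ_[p] →+* B} (hfi : Function.Injective f) (hdet : ∀ g, (T g).det = f (cycP p g))
    (hrel : ∀ σ : GQ, A.IsFrobeniusAt σ p → ∀ τ ∈ A.inertiaSubgroupIn ℚ,
      (T τ - (T τ).det • 1) * (T σ * T σ - 1) = 0) :
    ∀ τ ∈ A.inertiaSubgroupIn ℚ, ∀ τ' ∈ A.inertiaSubgroupIn ℚ,
      (T τ - (T τ).det • 1) * (T τ' - 1) = 0 := by
  obtain ⟨φ, hφ⟩ := Frob.exists_isFrobeniusAt_Qbar A hp.out hA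
  obtain ⟨τ₀, hτ₀, hsq⟩ := exists_inertia_sq hp2 hA
  have hne : ∃ σ : GQ, A.IsFrobeniusAt σ p ∧ T σ * T σ - 1 ≠ 0 := by
    by_contra hcon
    push Not at hcon
    have e1 := hcon φ hφ
    have e2 := hcon (τ₀ * φ) (FlatLoc.frob_inertia_mul hφ hτ₀)
    have hs : ∀ σ : GQ, T σ * T σ - 1 = 0 → cycP p σ * cycP p σ = 1 := by
      intro σ h
      apply hfi
      rw [map_mul, map_one, ← hdet, ← Matrix.det_mul, sub_eq_zero.mp h, Matrix.det_one]
    have e3 := hs _ e1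
    have e4 := hs _ e2
    apply hsq
    rw [map_mul] at e4
    calc cycP p τ₀ * cycP p τ₀ = cycP p τ₀ * cycP p τ₀ * (cycP p φ * cycP p φ) := by
          rw [e3, mul_one]
      _ = cycP p τ₀ * cycP p φ * (cycP p τ₀ * cycP p φ) := by ring
      _ = 1 := e4
  obtain ⟨σ, hσ, hX⟩ := hne
  have hdu : ∀ τ, (T τ).det ≠ 0 := by
    intro τ h
    have h2 : (T τ).det * (T τ⁻¹).det = 1 := by
      rw [← Matrix.det_mul, ← map_mul, mul_inv_cancel, map_one, Matrix.det_one]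
    rw [h, zero_mul] at h2
    exact zero_ne_one h2
  exact line_alg (T := T) (χ := fun τ => (T τ).det) (I := (A.inertiaSubgroupIn ℚ : Set GQ))
    (fun τ _ => rfl) (fun τ _ => hdu τ) hX (fun τ hτ => hrel σ hσ τ hτ)

/-- the matrix form of `new_vec` -/
theorem new_mat (hp2 : p ≠ 2) (hA : A.LiesOverPrime p) {M : ℕ} [NeZero M]
    [NeZero (p * M)] (hqM : Nat.Coprime p M) {S : Set ℕ} (hSN : ∀ i : JS S, ¬ i.1 ∣ p * M)
    {P : FreeAlgebra ℤ (JS S)} (hP : lat M P = 0) {σ τ : GQ} (hσ : A.IsFrobeniusAt σ p)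
    (hτ : τ ∈ A.inertiaSubgroupIn ℚ) :
    ((KQ (p * M)).rho (bL (p * M)) p τ - cycP p τ • 1) *
      (((KQ (p * M)).rho (bL (p * M)) p σ * (KQ (p * M)).rho (bL (p * M)) p σ - 1) *
        (Int.castRingHom ℤ_[p]).mapMatrix (MazurP.mt (p * M) P)) = 0 := by
  refine Matrix.ext_of_mulVec_single fun i => ?_
  have h := new_vec hp2 hA hqM hSN hP hσ hτ (x := Pi.single i 1) rfl rfl
  rw [Matrix.zero_mulVec, ← Matrix.mulVec_mulVec, ← Matrix.mulVec_mulVec, Matrix.sub_mulVec,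
    Matrix.smul_mulVec, Matrix.one_mulVec, sub_eq_zero, Matrix.sub_mulVec, Matrix.one_mulVec,
    ← Matrix.mulVec_mulVec (M := (KQ (p * M)).rho (bL (p * M)) p σ)]
  exact h

/-- **The `p`-new case.** -/
theorem new_case (hp2 : p ≠ 2) (hA : A.LiesOverPrime p) {M : ℕ} [NeZero M]
    [NeZero (p * M)] (hqM : Nat.Coprime p M) {S : Set ℕ} (hS : S.Finite)
    (hSN : ∀ i : JS S, ¬ i.1 ∣ p * M) (hSp : ∀ i : JS S, ¬ i.1 ∣ (p * M) * p)
    {B : Type} [CommRing B] [IsDomain B] [IsLocalRing B] [CharZero B]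
    [IsAdicComplete (maximalIdeal B) B] (hpB : (p : B) ∈ maximalIdeal B)
    (θ : heckeAlgebra (p * M) 2 S →+* B)
    {T : GQ →* Matrix (Fin 2) (Fin 2) B} (hT : MatCont T)
    (hspan : Submodule.span B (Set.range T) = ⊤)
    (hπ : FrobCond (D := hdata (p * M) p (esHyp (p * M) p)) (S := S)
      (θ.comp (HData.Phi S (hdata_link (esHyp (p * M) p)))) T)
    {P : FreeAlgebra ℤ (JS S)} (hP : lat M P = 0) (hP' : θ (hkA (p * M) hSN P) ≠ 0) :
    ∀ τ ∈ A.inertiaSubgroupIn ℚ, ∀ τ' ∈ A.inertiaSubgroupIn ℚ,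
      (T τ - (T τ).det • 1) * (T τ' - 1) = 0 := by
  refine new_alg hp2 hA (padicTo_injective hpB)
    (det_cyc hS (NeZero.ne (p * M)) hpB hT hπ) (fun σ hσ τ hτ => ?_)
  exact rel_generic (NeZero.ne (p * M)) hS hpB _ hT hspan hπ
    (X := MazurP.mt (p * M) P) hP' (fun w hw => mt_eig hSN hSp θ hw P)
    (new_mat hp2 hA hqM hSN hP hσ hτ)

end Fermat.Agent.AtP
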