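import Fermat.Agent.AtP.NewVec
import Fermat.Agent.SSMod.JL

/-!
# New vectors: levels
-/

set_option autoImplicit false
set_option linter.unusedSectionVars false
set_option linter.style.haveILetI false

noncomputable section

namespace Fermat.Agent.AtP

open ModularCurve Fermat.Agent.GoodRed Fermat.Agent.Models Fermat.Agent.ModFun
open Fermat.Agent.GenusX0 Fermat.Agent.Curves Fermat.Agent.AnJac AlgebraicCurve IsLocalRing
open Fermat.Agent.HeckeQ Fermat.Agent.SSMod Fermat.Agent.GalRep IntermediateField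

local notation "ℒ" => LaurentSeries
local notation "Qbar" => AlgebraicClosure ℚ
local notation "GQ" => Qbar ≃ₐ[ℚ] Qbar

/-- The relation `C (τ - a) (Φ² - 1) u = 0` modulo `n`-th powers for functions with `U u = - w u`
and `U w u = - u`. -/
def NewAt (q M n C a : ℕ) [NeZero q] [NeZero M] (hqM : Nat.Coprime q M) [HasPrim Qbar q]
    (σ τ : Qbar ≃+* Qbar) : Prop :=
  ∀ (u g g' : modularFunctionFieldFullC Qbar (q * M)), u ≠ 0 → g ≠ 0 → g' ≠ 0 →
    hW q (u : ℒ Qbar) * ((al ιQ hqM u : modularFunctionFieldFullC Qbar (q * M)) : ℒ Qbar) =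
      (g : ℒ Qbar) ^ n →
    hW q ((al ιQ hqM u : modularFunctionFieldFullC Qbar (q * M)) : ℒ Qbar) * (u : ℒ Qbar) =
      (g' : ℒ Qbar) ^ n →
    (∀ P : Place Qbar (modularFunctionFieldFullC Qbar (q * M)), (n : ℤ) ∣ P.ord u) →
    ∀ v, v = galF (q * M) σ (galF (q * M) σ u) / u →
      ∃ f : modularFunctionFieldFullC Qbar (q * M), (galF (q * M) τ v / v ^ a) ^ C = f ^ n

theorem swapDiv_level {q M M' : ℕ} [NeZero q] (hqM : Nat.Coprime q M) (hqM' : Nat.Coprime q M')
    (hMM : M ∣ M') {δ : ℕ} (hδ : δ ∣ q * M) : swapDiv q M' δ = swapDiv q M δ := by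
  obtain ⟨d, e, hd, he, rfl⟩ := exists_div_decomp hqM hδ
  rw [swapDiv_mul hqM hd he, swapDiv_mul hqM' hd (he.trans hMM)]

/-- the Atkin–Lehner automorphisms are compatible with changes of level -/
theorem al_level {q M M' : ℕ} [NeZero q] [NeZero M] [NeZero M'] (hqM : Nat.Coprime q M)
    (hqM' : Nat.Coprime q M') (hMM : M ∣ M')
    (hle : modularFunctionFieldFullC Qbar (q * M) ≤ modularFunctionFieldFullC Qbar (q * M'))
    (x : modularFunctionFieldFullC Qbar (q * M)) :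
    ((al ιQ hqM' ⟨(x : ℒ Qbar), hle x.2⟩ : modularFunctionFieldFullC Qbar (q * M')) : ℒ Qbar) =
      ((al ιQ hqM x : modularFunctionFieldFullC Qbar (q * M)) : ℒ Qbar) := by
  let i : modularFunctionFieldFullC Qbar (q * M) →+* modularFunctionFieldFullC Qbar (q * M') :=
    (IntermediateField.inclusion hle).toRingHom
  have h1 : ((algebraMap (modularFunctionFieldFullC Qbar (q * M')) (ℒ Qbar)).comp
      ((al ιQ hqM').toRingHom.comp i)) =
      ((algebraMap (modularFunctionFieldFullC Qbar (q * M)) (ℒ Qbar)).comp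
        (al ιQ hqM).toRingHom) := by
    refine ringHom_ext_gj (fun c => ?_) fun d h0 hd => ?_
    · show ((al ιQ hqM' (i (algebraMap Qbar _ c)) :
        modularFunctionFieldFullC Qbar (q * M')) : ℒ Qbar) =
        ((al ιQ hqM (algebraMap Qbar _ c) : modularFunctionFieldFullC Qbar (q * M)) : ℒ Qbar)
      have e1 : i (algebraMap Qbar _ c) = algebraMap Qbar _ c := rfl
      rw [e1, al_const, al_const]
      rfl
    · show ((al ιQ hqM' (i (gj Qbar d h0 hd)) :
        modularFunctionFieldFullC Qbar (q * M')) : ℒ Qbar) =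
        ((al ιQ hqM (gj Qbar d h0 hd) : modularFunctionFieldFullC Qbar (q * M)) : ℒ Qbar)
      have hd' : d ∣ q * M' := hd.trans (mul_dvd_mul_left q hMM)
      have e1 : i (gj Qbar d h0 hd) = gj Qbar d h0 hd' := rfl
      rw [e1, al_gj, al_gj]
      exact genx_congr Qbar (swapDiv_ne_zero hqM' hd') (swapDiv_ne_zero hqM hd)
        (swapDiv_level hqM hqM' hMM hd)
  exact congrArg (fun f => f x) h1

/-- descent along a change of level -/
theorem newAt_of_level {q M ℓ n C a : ℕ} [NeZero q] [NeZero M] [NeZero (ℓ * M)]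
    (hqM : Nat.Coprime q M) (hqM' : Nat.Coprime q (ℓ * M)) [HasPrim Qbar q]
    {σ τ : Qbar ≃+* Qbar} (hℓ : ℓ.Prime) (hℓN : ¬ ℓ ∣ q * M)
    (h : NewAt q (ℓ * M) n C a hqM' σ τ) : NewAt q M n (C * (ℓ + 1)) a hqM σ τ := by
  intro u g g' hu hg hg' h1 h2 hdiv v hv
  haveI : NeZero ℓ := ⟨hℓ.ne_zero⟩
  haveI : NeZero (q * M) := ⟨mul_ne_zero (NeZero.ne q) (NeZero.ne M)⟩
  haveI : NeZero (q * (ℓ * M)) := ⟨mul_ne_zero (NeZero.ne q) (NeZero.ne (ℓ * M))⟩
  haveI : NeZero (ℓ * (q * M)) := ⟨mul_ne_zero (NeZero.ne ℓ) (NeZero.ne (q * M))⟩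
  haveI := isFunctionField_fullC Qbar (q * M) (by exact_mod_cast NeZero.ne (q * M))
  haveI := isFunctionField_fullC Qbar (q * (ℓ * M)) (by exact_mod_cast NeZero.ne (q * (ℓ * M)))
  have hMM : M ∣ ℓ * M := dvd_mul_left M ℓ
  have hle := full_degeneracyC_le (K := Qbar) (mul_dvd_mul_left q hMM)
  have hlv : ℓ * (q * M) = q * (ℓ * M) := by ring
  let i : modularFunctionFieldFullC Qbar (q * M) →+* modularFunctionFieldFullC Qbar (q * (ℓ * M)) :=
    (IntermediateField.inclusion hle).toRingHom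
  have hi : ∀ x : modularFunctionFieldFullC Qbar (q * M), ((i x : _) : ℒ Qbar) = x := fun x => rfl
  have hi0 : ∀ x : modularFunctionFieldFullC Qbar (q * M), x ≠ 0 → i x ≠ 0 :=
    fun x hx => (map_ne_zero i).mpr hx
  have hial : ∀ x : modularFunctionFieldFullC Qbar (q * M),
      ((al ιQ hqM' (i x) : modularFunctionFieldFullC Qbar (q * (ℓ * M))) : ℒ Qbar) =
      ((al ιQ hqM x : modularFunctionFieldFullC Qbar (q * M)) : ℒ Qbar) :=
    fun x => al_level hqM hqM' hMM hle x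
  have hig : ∀ (ς : Qbar ≃+* Qbar) (x : modularFunctionFieldFullC Qbar (q * M)),
      i (galF (q * M) ς x) = galF (q * (ℓ * M)) ς (i x) := by
    intro ς x
    apply Subtype.ext
    rw [hi, coe_galF, coe_galF, hi]
  obtain ⟨f, hf⟩ := h (i u) (i g) (i g') (hi0 u hu) (hi0 g hg) (hi0 g' hg')
    (by rw [hial, hi, hi, h1]) (by rw [hial, hi, hi, h2])
    (fun P => ord_level (mul_dvd_mul_left q hMM) u.2 (hle u.2) hdiv P) (i v)
    (by rw [hv, map_div₀, hig, hig])
  rw [← hig, ← map_pow, ← map_div₀, ← map_pow] at hf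
  -- descend
  have hd : relfinrank (modularFunctionFieldFullC Qbar (q * M))
      (modularFunctionFieldFullC Qbar (q * (ℓ * M))) = ℓ + 1 := by
    rw [← hlv]
    exact relfinrank_full hℓ hℓN (by exact_mod_cast NeZero.ne (ℓ * (q * M)))
  rw [relfinrank_eq_finrank_of_le hle] at hd
  set z := (galF (q * M) τ v / v ^ a) ^ C with hz
  let w' : extendScalars hle := ⟨(f : ℒ Qbar), f.2⟩
  have k1 : algebraMap (modularFunctionFieldFullC Qbar (q * M)) (extendScalars hle) z = w' ^ n :=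
    Subtype.ext (congrArg Subtype.val hf)
  have k2 := congrArg (Algebra.norm (modularFunctionFieldFullC Qbar (q * M))) k1
  rw [Algebra.norm_algebraMap, map_pow, hd] at k2
  exact ⟨_, by rw [pow_mul, ← hz]; exact k2⟩

section Main

variable {A : ValuationSubring Qbar} {q : ℕ}

attribute [-instance] DivisionRing.toRatAlgebra in
theorem newAt_jLift (hq : q.Prime) [NeZero q] [HasPrim Qbar q] (hA : A.LiesOverPrime q) {M : ℕ}
    [NeZero M] (hqM : Nat.Coprime q M) {n l a : ℕ} (hn : n = q ^ l) (h : JLift (residue A) M)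
    {σ τ : GQ} (hσ : A.IsFrobeniusAt σ q) (hτ : τ ∈ A.inertiaSubgroupIn ℚ)
    (ha : ∀ ζ : Qbar, ζ ^ n = 1 → τ ζ = ζ ^ a) :
    NewAt q M n 1 a hqM (σ : Qbar ≃+* Qbar) (τ : Qbar ≃+* Qbar) := by
  intro u g g' hu hg hg' h1 h2 hdiv v hv
  haveI : Fact q.Prime := ⟨hq⟩
  haveI := FrobDens.charP_residueField A hq hA
  haveI : Algebra.IsAlgebraic ℚ Qbar := AlgebraicClosure.isAlgebraic ℚ
  haveI : @Algebra.IsAlgebraic ℤ Qbar _ _ (Ring.toIntAlgebra Qbar) := algebraic_int_Qbar
  haveI : NeZero (q * M) := ⟨mul_ne_zero (NeZero.ne q) (NeZero.ne M)⟩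
  haveI : HasPrim A q := hasPrim_val' A
  haveI := isFunctionField_fullC Qbar (q * M) (by exact_mod_cast NeZero.ne (q * M))
  haveI := isFunctionField_fullC (ResidueField A) M (cast_ne_zero_of_coprime (q := q) hqM)
  have hr : RankOne (residue A) := @rankOne_of_liesOver Qbar _ A _ algebraic_int_Qbar q hq hA
  have h3 := toric_new residue_surjective ιQ hqM hA hr h (actsAt_frob hq hA hσ)
    (actsAt_inertia hτ)
    (U := fun x => ⟨hW q (x : ℒ Qbar), hW_mem_Qbar (dvd_mul_right q M) x.2⟩) (fun x => rfl)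
    hn ha hu hg hg' (Subtype.ext h1) (Subtype.ext h2) hdiv v hv
  obtain ⟨f, hf⟩ := h3
  exact ⟨f, by rw [pow_one]; exact hf⟩

/-- new vectors at `q ∥ N`, in residue characteristic `q` odd -/
theorem newAt_all (hq : q.Prime) (hq2 : q ≠ 2) [NeZero q] [HasPrim Qbar q]
    (hA : A.LiesOverPrime q) {M : ℕ} [NeZero M] (hqM : Nat.Coprime q M) :
    ∃ C : ℕ, 0 < C ∧ ∀ {n l a : ℕ}, n = q ^ l → ∀ {σ τ : GQ}, A.IsFrobeniusAt σ q →
      τ ∈ A.inertiaSubgroupIn ℚ → (∀ ζ : Qbar, ζ ^ n = 1 → τ ζ = ζ ^ a) →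
      NewAt q M n C a hqM (σ : Qbar ≃+* Qbar) (τ : Qbar ≃+* Qbar) := by
  haveI : Fact q.Prime := ⟨hq⟩
  haveI := FrobDens.charP_residueField A hq hA
  by_cases h5 : 5 ≤ q
  · exact ⟨1, one_pos, fun hn _ _ hσ hτ ha => newAt_jLift hq hA hqM hn
      (jLift_of_five residue_surjective ιQ hqM h5) hσ hτ ha⟩
  · have h3 : q = 3 := by
      have h2 := hq.two_le
      interval_cases q
      · exact absurd rfl hq2
      · rfl
      · exact absurd hq (by decide)
    subst h3
    by_cases h2 : 2 ∣ M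
    · exact ⟨1, one_pos, fun hn _ _ hσ hτ ha => newAt_jLift hq hA hqM hn
        (jl23 3 A hA M (Or.inr ⟨rfl, h2, (Nat.Prime.coprime_iff_not_dvd hq).1 hqM⟩)) hσ hτ ha⟩
    · haveI : NeZero (2 * M) := ⟨mul_ne_zero (by norm_num) (NeZero.ne M)⟩
      have hM' : ¬ 3 ∣ 2 * M := by
        intro h
        rcases hq.dvd_mul.mp h with h | h
        · revert h; decide
        · exact (Nat.Prime.coprime_iff_not_dvd hq).1 hqM h
      have hqM' : Nat.Coprime 3 (2 * M) := (Nat.Prime.coprime_iff_not_dvd hq).2 hM'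
      refine ⟨1 * (2 + 1), by norm_num, fun hn _ _ hσ hτ ha => newAt_of_level hqM hqM'
        Nat.prime_two ?_ (newAt_jLift hq hA hqM' hn (jl23 3 A hA (2 * M)
          (Or.inr ⟨rfl, ⟨M, rfl⟩, hM'⟩)) hσ hτ ha)⟩
      intro h
      rcases Nat.prime_two.dvd_mul.mp h with h | h
      · revert h; decide
      · exact h2 h

end Main

end Fermat.Agent.AtP
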