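import Fermat.Agent.AtP.NewLevel
import Fermat.Agent.MazurP.NewP

/-!
# New vectors in the lattice modulo `p ^ k`
-/

set_option autoImplicit false
set_option linter.unusedSectionVars false
set_option linter.style.haveILetI false
set_option synthInstance.maxHeartbeats 400000

noncomputable section

namespace Fermat.Agent.AtP

open ModularCurve Fermat.Agent.GoodRed Fermat.Agent.Models Fermat.Agent.ModFun
open Fermat.Agent.Curves AlgebraicCurve Fermat.Agent.SSMod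
open Fermat.Agent.HeckeQ Fermat.Agent.MazurP
open Fermat.Agent.AnJac Fermat.Agent.GalRep Fermat.Agent.S43Glue CuspForm Matrix
open Fermat.Agent.AnJacH (Nq coe_Nq UmN)

local notation "ℒ" => LaurentSeries
local notation "Qbar" => AlgebraicClosure ℚ
local notation "GQ" => Qbar ≃ₐ[ℚ] Qbar

section HVn

variable {N : ℕ} [NeZero N] {S : Set ℕ} (n : ℕ)

/-- the Hecke operators on `Λ / n` -/
def HVn (P : FreeAlgebra ℤ (JS S)) : Matrix (Fin (rk N)) (Fin (rk N)) (ZMod n) :=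
  (Int.castRingHom (ZMod n)).mapMatrix (MazurP.mt N P)

variable {n}

theorem HVn_ι (i : JS S) : HVn (N := N) n (FreeAlgebra.ι ℤ i) =
    (Int.castRingHom (ZMod n)).mapMatrix (KSys.tm (bL N) (LTot N i.1)) := by
  rw [HVn, mt_ι]

theorem HVn_mul (P Q : FreeAlgebra ℤ (JS S)) : HVn (N := N) n (P * Q) = HVn n P * HVn n Q := by
  rw [HVn, MazurP.mt, map_mul, map_mul, map_mul]
  rfl

theorem HVn_add (P Q : FreeAlgebra ℤ (JS S)) : HVn (N := N) n (P + Q) = HVn n P + HVn n Q := by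
  rw [HVn, MazurP.mt, map_add, map_add, map_add]
  rfl

theorem HVn_algebraMap (c : ℤ) : HVn (N := N) (S := S) n (algebraMap ℤ _ c) = (c : Matrix _ _ _) := by
  rw [HVn, MazurP.mt, AlgHom.commutes]
  rw [eq_intCast, map_intCast, map_intCast]

theorem HVn_eq_zero {P : FreeAlgebra ℤ (JS S)} (hP : lat N P = 0) :
    HVn (N := N) n P = 0 := by
  rw [HVn, MazurP.mt, hP, map_zero, map_zero]

theorem isMat_HVn (hSN : ∀ i : JS S, ¬ i.1 ∣ N) (i : JS S) :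
    KSys.IsMat (KQ N) (bL N) (KQ N) (bL N) n (hMf hSN i) (HVn n (FreeAlgebra.ι ℤ i)) := by
  rintro u x ⟨φ, hφ, rfl⟩
  haveI : NeZero i.1 := ⟨i.2.1.ne_zero⟩
  haveI : Fact i.1.Prime := ⟨i.2.1⟩
  haveI : HasPrim Qbar i.1 := hasPrim_field i
  refine ⟨LTot N i.1 φ, compat_hM ιQ (hSN i) hφ rfl, ?_⟩
  rw [HVn_ι]
  exact (KSys.tm_mulVec (bL N) (LTot N i.1) n φ).symm

end HVn

section New

variable {q M n : ℕ} [hq : Fact q.Prime] [NeZero q] [NeZero M] [NeZero (q * M)]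
  (hn0 : n ≠ 0) (hqM : Nat.Coprime q M) {S : Set ℕ}
  {Wm : Matrix (Fin (rk (q * M))) (Fin (rk (q * M))) (ZMod n)}
  (hWm : KSys.IsMat (KQ (q * M)) (bL (q * M)) (KQ (q * M)) (bL (q * M)) n (al ιQ hqM) Wm)
  {Am : Matrix (Fin (rk M)) (Fin (rk (q * M))) (ZMod n)}
  (hAm : KSys.IsMat (KQ (q * M)) (bL (q * M)) (KQ M) (bL M) n (Nq q M) Am)

include hn0 hqM hAm in
theorem A_HVn (hSM : ∀ i : JS S, ¬ i.1 ∣ M) (hSN : ∀ i : JS S, ¬ i.1 ∣ q * M) (i : JS S)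
    (x : Fin (rk (q * M)) → ZMod n) :
    HVn n (FreeAlgebra.ι ℤ i) *ᵥ (Am *ᵥ x) = Am *ᵥ (HVn n (FreeAlgebra.ι ℤ i) *ᵥ x) := by
  have h0 := (hAm.comp (isMat_HVn hSM i)).eq hn0 (B := Am * HVn n (FreeAlgebra.ι ℤ i)) (by
    have h1 := (isMat_HVn hSN i).comp hAm
    have h2 : (fun u => Nq q M (hMf hSN i u)) = fun u => hMf hSM i (Nq q M u) := by
      funext u
      apply Subtype.ext
      haveI : NeZero i.1 := ⟨i.2.1.ne_zero⟩
      haveI : HasPrim Qbar i.1 := hasPrim_field i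
      haveI : HasPrim Qbar q := hasPrim_K
      have hco : Nat.Coprime i.1 q := by
        rw [Nat.coprime_primes i.2.1 hq.out]
        intro h
        exact hSN i (h ▸ dvd_mul_right q M)
      have e1 : ((al ιQ hqM (hMf hSN i u) : modularFunctionFieldFullC Qbar (q * M)) : ℒ Qbar) =
          hM i.1 ((al ιQ hqM u : modularFunctionFieldFullC Qbar (q * M)) : ℒ Qbar) :=
        al_hM ιQ hqM i.2.1 (hSN i) rfl
      rw [coe_Nq hqM, e1]
      show hM i.1 (u : ℒ Qbar) * hW q (hM i.1 _) = hM i.1 ((Nq q M u : _) : ℒ Qbar)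
      rw [coe_Nq hqM, hM_mul, hW_hM hco]
    rw [← h2]
    exact h1)
  rw [Matrix.mulVec_mulVec, Matrix.mulVec_mulVec]
  exact congrArg (fun B => B *ᵥ x) h0

include hn0 hWm in
theorem W_HVn (hSN : ∀ i : JS S, ¬ i.1 ∣ q * M) (i : JS S) (x : Fin (rk (q * M)) → ZMod n) :
    HVn n (FreeAlgebra.ι ℤ i) *ᵥ (Wm *ᵥ x) = Wm *ᵥ (HVn n (FreeAlgebra.ι ℤ i) *ᵥ x) := by
  have h0 := (hWm.comp (isMat_HVn hSN i)).eq hn0 (B := Wm * HVn n (FreeAlgebra.ι ℤ i)) (by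
    have h1 := (isMat_HVn hSN i).comp hWm
    have h2 : (fun u => al ιQ hqM (hMf hSN i u)) = fun u => hMf hSN i (al ιQ hqM u) := by
      funext u
      apply Subtype.ext
      haveI : NeZero i.1 := ⟨i.2.1.ne_zero⟩
      haveI : HasPrim Qbar i.1 := hasPrim_field i
      exact al_hM ιQ hqM i.2.1 (hSN i) rfl
    rw [← h2]
    exact h1)
  rw [Matrix.mulVec_mulVec, Matrix.mulVec_mulVec]
  exact congrArg (fun B => B *ᵥ x) h0

/-- commutation with all Hecke polynomials -/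
theorem HVn_comm {N N' : ℕ} [NeZero N] [NeZero N'] {Cm : Matrix (Fin (rk N')) (Fin (rk N)) (ZMod n)}
    (h : ∀ (i : JS S) (x : Fin (rk N) → ZMod n),
      HVn n (FreeAlgebra.ι ℤ i) *ᵥ (Cm *ᵥ x) = Cm *ᵥ (HVn n (FreeAlgebra.ι ℤ i) *ᵥ x))
    (P : FreeAlgebra ℤ (JS S)) : ∀ x, HVn n P *ᵥ (Cm *ᵥ x) = Cm *ᵥ (HVn n P *ᵥ x) := by
  induction P using FreeAlgebra.induction with
  | grade0 c =>
    intro x
    have h1 : ∀ (r : ℕ), (c : Matrix (Fin r) (Fin r) (ZMod n)) = (c : ZMod n) • 1 := by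
      intro r
      rw [← Algebra.algebraMap_eq_smul_one, map_intCast]
    rw [HVn_algebraMap, HVn_algebraMap, h1, h1, Matrix.smul_mulVec, Matrix.smul_mulVec,
      Matrix.one_mulVec, Matrix.one_mulVec, Matrix.mulVec_smul]
  | grade1 i => exact h i
  | mul P Q hP hQ =>
    intro x
    rw [HVn_mul, HVn_mul, ← Matrix.mulVec_mulVec, ← Matrix.mulVec_mulVec, hQ, hP]
  | add P Q hP hQ =>
    intro x
    rw [HVn_add, HVn_add, Matrix.add_mulVec, Matrix.add_mulVec, hP, hQ, Matrix.mulVec_add]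

include hn0 hWm hAm in
/-- `U_q = - w_q` -/
theorem U_eq_n (hSN : ∀ i : JS S, ¬ i.1 ∣ q * M) {P : FreeAlgebra ℤ (JS S)} (hP : lat M P = 0)
    (x : Fin (rk (q * M)) → ZMod n) :
    UmN (q * M) n q (dvd_mul_right q M) *ᵥ (HVn n P *ᵥ x) = -(Wm *ᵥ (HVn n P *ᵥ x)) := by
  have hSM : ∀ i : JS S, ¬ i.1 ∣ M := fun i h => hSN i (h.mul_left q)
  have h1 := AnJacH.ker_AW hqM hAm hWm hn0 (x := HVn n P *ᵥ x) (by
    rw [← Matrix.mulVec_mulVec, ← HVn_comm (W_HVn hn0 hqM hWm hSN) P,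
      ← HVn_comm (A_HVn hn0 hqM hAm hSM hSN) P, HVn_eq_zero hP, Matrix.zero_mulVec])
  exact (neg_eq_of_add_eq_zero_right h1).symm

end New

section Main

variable {A : ValuationSubring Qbar} {q : ℕ}

/-- **new vectors modulo `q ^ l`** -/
theorem new_vec_mod (hq : q.Prime) (hq2 : q ≠ 2) (hA : A.LiesOverPrime q) {M : ℕ} [NeZero M]
    [NeZero (q * M)] (hqM : Nat.Coprime q M) {S : Set ℕ} (hSN : ∀ i : JS S, ¬ i.1 ∣ q * M)
    {P : FreeAlgebra ℤ (JS S)} (hP : lat M P = 0) :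
    ∃ C : ℕ, 0 < C ∧ ∀ {n l a : ℕ} (hn0 : n ≠ 0), n = q ^ l → ∀ {σ τ : GQ}, A.IsFrobeniusAt σ q →
      τ ∈ A.inertiaSubgroupIn ℚ → (∀ ζ : Qbar, ζ ^ n = 1 → τ ζ = ζ ^ a) →
      ∀ x y : Fin (rk (q * M)) → ZMod n,
        y = (KQ (q * M)).M (bL (q * M)) hn0 σ *ᵥ ((KQ (q * M)).M (bL (q * M)) hn0 σ *ᵥ
          (HVn n P *ᵥ x)) - HVn n P *ᵥ x →
        C • ((KQ (q * M)).M (bL (q * M)) hn0 τ *ᵥ y - a • y) = 0 := by
  haveI : Fact q.Prime := ⟨hq⟩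
  haveI : NeZero q := ⟨hq.ne_zero⟩
  haveI : HasPrim Qbar q := hasPrim_K
  obtain ⟨C, hC, H⟩ := newAt_all hq hq2 hA (M := M) hqM
  refine ⟨C, hC, fun {n l a} hn0 hn {σ τ} hσ hτ ha x y hy => ?_⟩
  obtain ⟨Wm, hWm⟩ := AnJacH.exists_alMat (q := q) (M := M) hqM hn0
  obtain ⟨Am, hAm⟩ := AnJacH.exists_NqMat q M hn0
  obtain ⟨ζ, hζ⟩ := exists_zeta q
  set x' := HVn n P *ᵥ x with hx'
  obtain ⟨u, hu⟩ := (KQ (q * M)).exists_cls (bL (q * M)) hn0 x'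
  have hu0 := hu.ne_zero
  have hU1 := U_eq_n hn0 hqM hWm hAm hSN hP x
  have hU2 := U_eq_n hn0 hqM hWm hAm hSN hP (Wm *ᵥ x)
  rw [HVn_comm (W_HVn hn0 hqM hWm hSN) P] at hU2
  rw [← hx'] at hU1 hU2
  rw [Matrix.mulVec_mulVec (M := Wm) (N := Wm), AnJacH.W_sq hqM hWm hn0,
    Matrix.one_mulVec] at hU2
  have hw := hWm u x' hu
  have hw0 := hw.ne_zero
  have h1 := (AnJacH.isMat_U (n := n) (dvd_mul_right q M) hζ u x' hu).mul hw
  rw [hU1, neg_add_cancel] at h1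
  obtain ⟨g, hg0, hg⟩ := h1.exists_pow_one hn0
  have h2 := (AnJacH.isMat_U (n := n) (dvd_mul_right q M) hζ _ _ hw).mul hu
  rw [hU2, neg_add_cancel] at h2
  obtain ⟨g', hg'0, hg'⟩ := h2.exists_pow_one hn0
  have hu' := hu
  obtain ⟨φ, hφ, -⟩ := hu'
  set Φ := (KQ (q * M)).act σ with hΦ
  have hcoe : ∀ a, ((Φ a : modularFunctionFieldFullC Qbar (q * M))) =
      galF (q * M) (σ : Qbar ≃+* Qbar) a := fun a => Subtype.ext rfl
  set v := Φ (Φ u) / u with hv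
  obtain ⟨f, hf⟩ := H hn hσ hτ ha u g g' hu0 hg0 hg'0
    (by
      rw [← AnJacH.heckeW_eq_hW hζ]
      exact congrArg Subtype.val hg)
    (by
      rw [← AnJacH.heckeW_eq_hW hζ]
      exact congrArg Subtype.val hg')
    (fun P => ClX.dvd_ord ιQ hφ P) v (by rw [hv, hcoe, hcoe])
  have hΦ0 : ∀ {a}, a ≠ 0 → Φ a ≠ 0 := fun ha => (map_ne_zero _).mpr ha
  have hv0 : v ≠ 0 := div_ne_zero (hΦ0 (hΦ0 hu0)) hu0
  have hcv : (KQ (q * M)).Cls (bL (q * M)) n v y := by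
    rw [hy]
    exact KSys.Cls.div hn0 ((hu.act hn0 σ).act hn0 σ) hu
  have hcv' := KSys.Cls.npow hn0 (KSys.Cls.div hn0 (hcv.act hn0 τ) (KSys.Cls.npow hn0 hcv a)) C
  have e : ((KQ (q * M)).act τ v / v ^ a) ^ C = f ^ n := hf
  have hf0 : f ≠ 0 := by
    rintro rfl
    rw [zero_pow hn0] at e
    exact pow_ne_zero C (div_ne_zero ((map_ne_zero _).mpr hv0) (pow_ne_zero _ hv0)) e
  rw [e] at hcv'
  exact hcv'.unique hn0 (KSys.cls_pow hn0 hf0)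

end Main

end Fermat.Agent.AtP
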