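import Fermat.Agent.AtP.NewMod

/-!
# New vectors in the Tate module
-/

set_option autoImplicit false
set_option linter.unusedSectionVars false
set_option linter.style.haveILetI false
set_option synthInstance.maxHeartbeats 400000

noncomputable section

namespace Fermat.Agent.AtP

open ModularCurve Fermat.Agent.GoodRed Fermat.Agent.Models Fermat.Agent.ModFun
open Fermat.Agent.Curves AlgebraicCurve Fermat.Agent.SSMod
open Fermat.Agent.HeckeQ Fermat.Agent.MazurP
open Fermat.Agent.AnJac Fermat.Agent.GalRep Fermat.Agent.GalRep.HData Fermat.Agent.S43Glue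
open CuspForm Matrix

local notation "ℒ" => LaurentSeries
local notation "Qbar" => AlgebraicClosure ℚ
local notation "GQ" => Qbar ≃ₐ[ℚ] Qbar

variable {A : ValuationSubring Qbar} {p : ℕ} [hp : Fact p.Prime]

/-- **Inertia acts on `(Φ² - 1) P` through the cyclotomic character**, `P` a Hecke operator
vanishing at level `M`. -/
theorem new_vec (hp2 : p ≠ 2) (hA : A.LiesOverPrime p) {M : ℕ} [NeZero M]
    [NeZero (p * M)] (hqM : Nat.Coprime p M) {S : Set ℕ} (hSN : ∀ i : JS S, ¬ i.1 ∣ p * M)
    {P : FreeAlgebra ℤ (JS S)} (hP : lat M P = 0) {σ τ : GQ} (hσ : A.IsFrobeniusAt σ p)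
    (hτ : τ ∈ A.inertiaSubgroupIn ℚ) {x y z : Fin (rk (p * M)) → ℤ_[p]}
    (hy : y = (Int.castRingHom ℤ_[p]).mapMatrix (MazurP.mt (p * M) P) *ᵥ x)
    (hz : z = (KQ (p * M)).rho (bL (p * M)) p σ *ᵥ ((KQ (p * M)).rho (bL (p * M)) p σ *ᵥ y) - y) :
    (KQ (p * M)).rho (bL (p * M)) p τ *ᵥ z = cycP p τ • z := by
  obtain ⟨C, hC, H⟩ := new_vec_mod hp.out hp2 hA hqM hSN hP
  have hmain : C • ((KQ (p * M)).rho (bL (p * M)) p τ *ᵥ z - cycP p τ • z) = 0 := by
    ext i
    rw [← PadicInt.ext_of_toZModPow]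
    intro k
    have hmv : ∀ (T : Matrix (Fin (rk (p * M))) (Fin (rk (p * M))) ℤ_[p])
        (x : Fin (rk (p * M)) → ℤ_[p]),
        (fun i => PadicInt.toZModPow k ((T *ᵥ x) i)) =
          (PadicInt.toZModPow k).mapMatrix T *ᵥ fun i => PadicInt.toZModPow k (x i) := by
      intro T x
      ext j
      exact RingHom.map_mulVec _ _ _ _
    have hsm : ∀ (m : ℕ) (x : Fin (rk (p * M)) → ℤ_[p]),
        (fun i => PadicInt.toZModPow k ((m • x) i)) = m • fun i => PadicInt.toZModPow k (x i) := by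
      intro m x
      ext j
      exact map_nsmul _ _ _
    have hsub : ∀ (x y : Fin (rk (p * M)) → ℤ_[p]),
        (fun i => PadicInt.toZModPow k ((x - y) i)) =
          (fun i => PadicInt.toZModPow k (x i)) - fun i => PadicInt.toZModPow k (y i) := by
      intro x y
      ext j
      exact map_sub _ _ _
    have key := H (n := p ^ k) (a := (PadicInt.toZModPow k (cycP p τ)).val) (KSys.pn0 p k) rfl
      hσ hτ (fun ζ hζ => cycP_spec p τ hζ) (fun i => PadicInt.toZModPow k (x i))
      (fun i => PadicInt.toZModPow k (z i)) (by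
        have e : HVn (p ^ k) P = (PadicInt.toZModPow k).mapMatrix
            ((Int.castRingHom ℤ_[p]).mapMatrix (MazurP.mt (p * M) P)) :=
          (KSys.map_castHom (p := p) k (MazurP.mt (p * M) P)).symm
        rw [e, ← KSys.rho_spec, ← hmv, ← hmv, ← hmv, ← hsub, ← hy, ← hz])
    rw [← KSys.rho_spec, ← hmv] at key
    have hck : (fun i => PadicInt.toZModPow k ((cycP p τ • z) i)) =
        (PadicInt.toZModPow k (cycP p τ)).val • fun i => PadicInt.toZModPow k (z i) := by
      ext j
      rw [Pi.smul_apply, Pi.smul_apply, smul_eq_mul, map_mul, nsmul_eq_mul]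
      congr 1
      haveI : NeZero (p ^ k) := ⟨KSys.pn0 p k⟩
      rw [ZMod.natCast_val, ZMod.cast_id]
    rw [← hck, ← hsub, ← hsm] at key
    have := congrFun key i
    rw [Pi.zero_apply, map_zero]
    exact this
  ext i
  have h1 := congrFun hmain i
  rw [Pi.smul_apply, Pi.zero_apply, nsmul_eq_mul, Pi.sub_apply] at h1
  exact sub_eq_zero.mp ((mul_eq_zero.mp h1).resolve_left (by exact_mod_cast hC.ne'))

end Fermat.Agent.AtP
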