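import Fermat.Agent.AtP.OrdAlg
import Fermat.Agent.GalRep.WrapAdic
import Fermat.Agent.TWGal.Tame
import Fermat.Prelude.Def_GaloisRep_LocalConditions

/-!
# Ordinary representations from a matrix identity
-/

set_option autoImplicit false
set_option linter.unusedSectionVars false
set_option linter.style.haveILetI false

noncomputable section

namespace Fermat.Agent.AtP

open Matrix IsLocalRing Fermat.Agent.GalRep

open scoped TensorProduct

local notation "Qbar" => AlgebraicClosure ℚ
local notation "GQ" => (AlgebraicClosure ℚ ≃ₐ[ℚ] AlgebraicClosure ℚ)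

/-- inertia elements are in the decomposition group -/
lemma inertia_le {A : ValuationSubring Qbar} {σ : GQ} (hσ : σ ∈ A.inertiaSubgroupIn ℚ) :
    σ ∈ A.decompositionSubgroup ℚ := by
  obtain ⟨s, -, rfl⟩ := hσ
  exact s.2

section Res

variable {R : Type} [CommRing R] [IsLocalRing R] (ρ : GaloisRepAdic R)

/-- the identity for linear maps -/
theorem res_aux {k V : Type} [Field k] [AddCommGroup V] [Module k V] {f g : V →ₗ[k] V}
    (b' : Module.Basis (Fin 2) k V) {L : Submodule k V} (hL : L = Submodule.span k {b' 0})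
    (hD : ∀ v ∈ L, f v ∈ L) (hf : ∀ v, f v - v ∈ L) (hg : ∀ v, g v - v ∈ L) :
    (f - LinearMap.det f • LinearMap.id) ∘ₗ (g - LinearMap.id) = 0 := by
  classical
  have hb0 : b' 0 ∈ L := by rw [hL]; exact Submodule.mem_span_singleton_self _
  obtain ⟨s, hs⟩ : ∃ s : k, s • b' 0 = f (b' 0) := by
    have h1 := hD _ hb0
    rw [hL] at h1
    exact Submodule.mem_span_singleton.mp h1
  obtain ⟨u, hu⟩ : ∃ u : k, u • b' 0 = f (b' 1) - b' 1 := by
    have h1 := hf (b' 1)
    rw [hL] at h1
    exact Submodule.mem_span_singleton.mp h1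
  have hdet : LinearMap.det f = s := by
    rw [← LinearMap.det_toMatrix b', Matrix.det_fin_two]
    simp only [LinearMap.toMatrix_apply]
    have e1 : f (b' 1) = b' 1 + u • b' 0 := by rw [hu]; abel
    rw [← hs, e1]
    simp
  rw [hdet]
  apply LinearMap.ext
  intro v
  have h1 := hg v
  rw [hL] at h1
  obtain ⟨c, hc⟩ := Submodule.mem_span_singleton.mp h1
  rw [LinearMap.comp_apply, LinearMap.zero_apply, LinearMap.sub_apply g, LinearMap.id_apply,
    ← hc, LinearMap.sub_apply, LinearMap.smul_apply, LinearMap.id_apply, map_smul, ← hs,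
    smul_comm s c, sub_self]

lemma map_smul_one {R k : Type} [CommRing R] [CommRing k] (φ : R →+* k) (c : R) :
    φ.mapMatrix (c • (1 : Matrix (Fin 2) (Fin 2) R)) = φ c • 1 := by
  ext i j
  rw [RingHom.mapMatrix_apply, Matrix.map_apply, Matrix.smul_apply, Matrix.smul_apply,
    smul_eq_mul, smul_eq_mul, map_mul]
  congr 1
  rw [Matrix.one_apply, Matrix.one_apply]
  split_ifs <;> simp

/-- residual ordinarity, in matrix form -/
theorem res_matrix (b : Module.Basis (Fin 2) R ρ.V) {p : ℕ}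
    (h : (GaloisRepAdic.ofResidualGaloisRep ρ.residual).IsOrdinaryAt p)
    {A : ValuationSubring Qbar} (hA : A.LiesOverPrime p) {σ τ : GQ}
    (hσ : σ ∈ A.inertiaSubgroupIn ℚ) (hτ : τ ∈ A.inertiaSubgroupIn ℚ) (i j : Fin 2) :
    ((repMat ρ b σ - (repMat ρ b σ).det • 1) * (repMat ρ b τ - 1)) i j ∈ maximalIdeal R := by
  classical
  obtain ⟨L, ⟨b', hL⟩, hD, hI⟩ := h A hA
  -- the linear maps
  let f : GQ → (ResidueField R ⊗[R] ρ.V →ₗ[ResidueField R] ResidueField R ⊗[R] ρ.V) :=
    fun g => (ρ.ρ g).baseChange (ResidueField R)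
  have hcomp : (f σ - LinearMap.det (f σ) • LinearMap.id) ∘ₗ (f τ - LinearMap.id) = 0 :=
    res_aux (V := ResidueField R ⊗[R] ρ.V) b' hL (hD σ (inertia_le hσ)) (hI σ hσ) (hI τ hτ)
  -- the matrices
  let bk : Module.Basis (Fin 2) (ResidueField R) (ResidueField R ⊗[R] ρ.V) :=
    Algebra.TensorProduct.basis (ResidueField R) b
  have hM : ∀ g, LinearMap.toMatrix bk bk (f g) = (residue R).mapMatrix (repMat ρ b g) :=
    fun g => by
    rw [repMat_apply]
    exact LinearMap.toMatrix_baseChange (ResidueField R) (ρ.ρ g) b b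
  have hdet2 : LinearMap.det (f σ) = residue R (repMat ρ b σ).det := by
    rw [← LinearMap.det_toMatrix bk, hM]
    exact (RingHom.map_det (residue R) (repMat ρ b σ)).symm
  have hmat := congrArg (LinearMap.toMatrix bk bk) hcomp
  rw [LinearMap.toMatrix_comp bk bk bk] at hmat
  have e1 : LinearMap.toMatrix bk bk (f σ - LinearMap.det (f σ) • LinearMap.id) =
      (residue R).mapMatrix (repMat ρ b σ - (repMat ρ b σ).det • 1) := by
    rw [map_sub (LinearMap.toMatrix bk bk), map_smul (LinearMap.toMatrix bk bk), hM,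
      LinearMap.toMatrix_id, hdet2, map_sub (residue R).mapMatrix, map_smul_one]
  have e2 : LinearMap.toMatrix bk bk (f τ - LinearMap.id) =
      (residue R).mapMatrix (repMat ρ b τ - 1) := by
    rw [map_sub (LinearMap.toMatrix bk bk), hM, LinearMap.toMatrix_id,
      map_sub (residue R).mapMatrix, map_one]
  rw [e1, e2, ← map_mul, map_zero (LinearMap.toMatrix bk bk)] at hmat
  rw [← residue_eq_zero_iff]
  exact congrFun (congrFun hmat i) j

/-- **Ordinary representations from a matrix identity.** -/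
theorem isOrdinaryAt_of_identity (b : Module.Basis (Fin 2) R ρ.V) {p : ℕ}
    (h : ∀ A : ValuationSubring Qbar, A.LiesOverPrime p → ∃ σ₀ ∈ A.inertiaSubgroupIn ℚ,
      IsUnit ((repMat ρ b σ₀).det - 1) ∧ ∀ τ ∈ A.inertiaSubgroupIn ℚ,
        (repMat ρ b σ₀ - (repMat ρ b σ₀).det • 1) * (repMat ρ b τ - 1) = 0) :
    ρ.IsOrdinaryAt p := by
  classical
  intro A hA
  obtain ⟨σ₀, hσ₀, hu, hid⟩ := h A hA
  set M := repMat ρ b σ₀ with hM
  set c := M.det with hc
  -- the linear form of the identity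
  have hrep : ∀ g v, b.repr (ρ.ρ g v) = (repMat ρ b g).mulVec (b.repr v) := by
    intro g v
    rw [repMat_apply]
    exact (LinearMap.toMatrix_mulVec_repr b b (ρ.ρ g) v).symm
  have heig : ∀ τ ∈ A.inertiaSubgroupIn ℚ, ∀ v, ρ.ρ σ₀ (ρ.ρ τ v - v) = c • (ρ.ρ τ v - v) := by
    intro τ hτ v
    apply b.repr.injective
    apply Finsupp.ext
    intro i
    have h1 : (M - c • 1) *ᵥ ((repMat ρ b τ - 1) *ᵥ (b.repr v)) = 0 := by
      rw [Matrix.mulVec_mulVec, hid τ hτ, Matrix.zero_mulVec]
    have h2 : (repMat ρ b τ - 1) *ᵥ (b.repr v) = b.repr (ρ.ρ τ v - v) := by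
      rw [Matrix.sub_mulVec, Matrix.one_mulVec, ← hrep, map_sub]
      rfl
    rw [h2, Matrix.sub_mulVec, ← hrep, Matrix.smul_mulVec, Matrix.one_mulVec, sub_eq_zero] at h1
    rw [map_smul]
    exact congrFun h1 i
  have hcu : IsUnit c := by
    have h1 : IsUnit M := by
      have : M * repMat ρ b σ₀⁻¹ = 1 := by rw [hM, ← map_mul, mul_inv_cancel, map_one]
      exact IsUnit.of_mul_eq_one _ this
    exact (Matrix.isUnit_iff_isUnit_det M).mp h1
  -- residually nonscalar
  set k := ResidueField R with hk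
  have hc1 : residue R c ≠ 1 := by
    intro h1
    have h2 := (residue R).isUnit_map hu
    rw [map_sub, map_one, h1, sub_self] at h2
    exact not_isUnit_zero h2
  have hc0 : residue R c ≠ 0 := ((residue R).isUnit_map hcu).ne_zero
  have hdetk : residue R c = residue R (M 0 0) * residue R (M 1 1) -
      residue R (M 0 1) * residue R (M 1 0) := by
    rw [hc, Matrix.det_fin_two, map_sub, map_mul, map_mul]
  obtain ⟨i₀, j, hX⟩ : ∃ i j, residue R ((M - 1) i j) ≠ 0 := by
    by_contra hcon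
    push Not at hcon
    have e00 := hcon 0 0
    have e01 := hcon 0 1
    have e11 := hcon 1 1
    rw [Matrix.sub_apply, Matrix.one_apply_eq, map_sub, map_one, sub_eq_zero] at e00 e11
    rw [Matrix.sub_apply, Matrix.one_apply_ne (by decide), sub_zero] at e01
    rw [e00, e11, e01] at hdetk
    exact hc1 (by rw [hdetk]; ring)
  obtain ⟨i₁, l, hY⟩ : ∃ i j, residue R ((M - c • 1) i j) ≠ 0 := by
    by_contra hcon
    push Not at hcon
    have e00 := hcon 0 0
    have e01 := hcon 0 1
    have e11 := hcon 1 1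
    rw [Matrix.sub_apply, Matrix.smul_apply, Matrix.one_apply_eq, smul_eq_mul, mul_one, map_sub,
      sub_eq_zero] at e00 e11
    rw [Matrix.sub_apply, Matrix.smul_apply, Matrix.one_apply_ne (by decide), smul_eq_mul,
      mul_zero, sub_zero] at e01
    rw [e00, e11, e01, zero_mul, sub_zero] at hdetk
    exact hc1 (mul_left_cancel₀ hc0 (by rw [← hdetk, mul_one]))
  let e₀ := ρ.ρ σ₀ (b j) - b j
  let e₁ := ρ.ρ σ₀ (b l) - c • b l
  have he₀ : ρ.ρ σ₀ e₀ = c • e₀ := heig σ₀ hσ₀ (b j)
  have he₁ : ρ.ρ σ₀ e₁ = e₁ := by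
    have h1 := heig σ₀ hσ₀ (b l)
    rw [map_sub, smul_sub] at h1
    show ρ.ρ σ₀ (ρ.ρ σ₀ (b l) - c • b l) = ρ.ρ σ₀ (b l) - c • b l
    rw [map_sub, map_smul]
    rw [sub_eq_iff_eq_add] at h1 ⊢
    rw [h1]
    abel
  have hone : ∀ i j : Fin 2, b.repr (b j) i = (1 : Matrix (Fin 2) (Fin 2) R) i j := by
    intro i j
    rw [Module.Basis.repr_self, Finsupp.single_apply, Matrix.one_apply]
    exact if_congr eq_comm rfl rfl
  have hMb : ∀ i j : Fin 2, b.repr (ρ.ρ σ₀ (b j)) i = M i j := by
    intro i j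
    rw [hM, repMat_apply, LinearMap.toMatrix_apply]
  have hr0 : ∀ i, b.repr e₀ i = (M - 1) i j := by
    intro i
    show b.repr (ρ.ρ σ₀ (b j) - b j) i = _
    rw [map_sub, Finsupp.sub_apply, hMb, hone, Matrix.sub_apply]
  have hr1 : ∀ i, b.repr e₁ i = (M - c • 1) i l := by
    intro i
    show b.repr (ρ.ρ σ₀ (b l) - c • b l) i = _
    rw [map_sub, Finsupp.sub_apply, map_smul, Finsupp.smul_apply, hMb, hone, Matrix.sub_apply,
      Matrix.smul_apply]
  have hdet : IsUnit (b.det ![e₀, e₁]) := by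
    rw [Module.Basis.det_apply, Matrix.det_fin_two]
    simp only [Module.Basis.toMatrix_apply, Matrix.cons_val_zero, Matrix.cons_val_one]
    rw [hr0, hr0, hr1, hr1]
    by_contra hnu
    have hD : residue R ((M - 1) 0 j * (M - c • 1) 1 l - (M - c • 1) 0 l * (M - 1) 1 j) = 0 := by
      rw [residue_eq_zero_iff]
      exact hnu
    set x0 := residue R ((M - 1) 0 j) with hx0
    set x1 := residue R ((M - 1) 1 j) with hx1
    set y0 := residue R ((M - c • 1) 0 l) with hy0
    set y1 := residue R ((M - c • 1) 1 l) with hy1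
    rw [map_sub, map_mul, map_mul] at hD
    -- eigenvector equations
    have hv0 : M *ᵥ (fun i => (M - 1) i j) = c • (fun i => (M - 1) i j) := by
      have h1 : b.repr e₀ = fun i => (M - 1) i j := funext hr0
      rw [← h1, ← hrep, he₀, map_smul]
      rfl
    have hv1 : M *ᵥ (fun i => (M - c • 1) i l) = (fun i => (M - c • 1) i l) := by
      have h1 : b.repr e₁ = fun i => (M - c • 1) i l := funext hr1
      rw [← h1, ← hrep, he₁]
    have hmv : ∀ (w : Fin 2 → R) i, (M *ᵥ w) i = M i 0 * w 0 + M i 1 * w 1 := by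
      intro w i
      rw [Matrix.mulVec, dotProduct, Fin.sum_univ_two]
    have a0 := congrArg (residue R) (congrFun hv0 0)
    have a1 := congrArg (residue R) (congrFun hv0 1)
    have c0 := congrArg (residue R) (congrFun hv1 0)
    have c1 := congrArg (residue R) (congrFun hv1 1)
    rw [hmv, map_add, map_mul, map_mul] at a0 a1 c0 c1
    rw [Pi.smul_apply, smul_eq_mul, map_mul] at a0 a1
    rw [← hx0, ← hx1] at a0 a1
    rw [← hy0, ← hy1] at c0 c1
    have hcm : residue R c - 1 ≠ 0 := sub_ne_zero.mpr hc1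
    have p00 : x0 * y0 = 0 := by
      refine (mul_eq_zero.mp (?_ : (residue R c - 1) * (x0 * y0) = 0)).resolve_left hcm
      linear_combination (-y0) * a0 + x0 * c0 - residue R (M 0 1) * hD
    have p11 : x1 * y1 = 0 := by
      refine (mul_eq_zero.mp (?_ : (residue R c - 1) * (x1 * y1) = 0)).resolve_left hcm
      linear_combination (-y1) * a1 + x1 * c1 + residue R (M 1 0) * hD
    have p10 : x1 * y0 = 0 := by
      refine (mul_eq_zero.mp (?_ : (residue R c - 1) * (x1 * y0) = 0)).resolve_left hcm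
      linear_combination (-y0) * a1 + x0 * c1 - residue R (M 1 1) * hD + hD
    have p01 : x0 * y1 = 0 := by
      linear_combination hD + p10
    have hx : x0 ≠ 0 ∨ x1 ≠ 0 := by
      fin_cases i₀
      · exact Or.inl hX
      · exact Or.inr hX
    have hy : y0 ≠ 0 ∨ y1 ≠ 0 := by
      fin_cases i₁
      · exact Or.inl hY
      · exact Or.inr hY
    rcases hx with hx | hx <;> rcases hy with hy | hy
    · exact mul_ne_zero hx hy p00
    · exact mul_ne_zero hx hy p01
    · exact mul_ne_zero hx hy p10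
    · exact mul_ne_zero hx hy p11
  obtain ⟨hli, hsp⟩ := (Module.Basis.is_basis_iff_det b).mpr hdet
  let b' : Module.Basis (Fin 2) R ρ.V := Module.Basis.mk hli hsp.ge
  have hb'0 : b' 0 = e₀ := by simp [b']
  have hb'1 : b' 1 = e₁ := by simp [b']
  have hin : ∀ u : ρ.V, ρ.ρ σ₀ u = c • u → u ∈ Submodule.span R {b' 0} := by
    intro u hu'
    have h1 := b'.sum_repr u
    rw [Fin.sum_univ_two, hb'0, hb'1] at h1
    have h2 : b'.repr u 1 * (1 - c) = 0 := by
      have h3 : ρ.ρ σ₀ u - c • u = (b'.repr u 1 * (1 - c)) • b' 1 := by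
        conv_lhs => rw [← h1]
        rw [map_add, map_smul, map_smul, he₀, he₁, hb'1]
        module
      rw [hu', sub_self] at h3
      have h4 := congrArg (fun w => b'.repr w 1) h3
      simpa using h4.symm
    have h3 : b'.repr u 1 = 0 := by
      have h4 : IsUnit (1 - c) := by
        rw [← neg_sub]; exact hu.neg
      exact (h4.mul_left_eq_zero).mp h2
    rw [← h1, h3, zero_smul, add_zero, ← hb'0]
    exact Submodule.smul_mem _ _ (Submodule.mem_span_singleton_self _)
  have hinert : ∀ σ ∈ A.inertiaSubgroupIn ℚ, ∀ v : ρ.V, ρ.ρ σ v - v ∈ Submodule.span R {b' 0} :=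
    fun σ hσ v => hin _ (heig σ hσ v)
  refine ⟨Submodule.span R {b' 0}, ⟨b', rfl⟩, ?_, hinert⟩
  intro g hg v hv
  obtain ⟨a, rfl⟩ := Submodule.mem_span_singleton.mp hv
  rw [map_smul]
  refine Submodule.smul_mem _ _ ?_
  rw [hb'0]
  have h1 : ρ.ρ g e₀ = ρ.ρ (g * σ₀ * g⁻¹) (ρ.ρ g (b j)) - ρ.ρ g (b j) := by
    show ρ.ρ g (ρ.ρ σ₀ (b j) - b j) = _
    rw [map_sub, ← Module.End.mul_apply, ← Module.End.mul_apply, ← map_mul, ← map_mul,
      inv_mul_cancel_right]
  rw [h1, ← hb'0]
  exact hinert _ (TWGal.conj_mem_inertia' hg hσ₀) _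

end Res

end Fermat.Agent.AtP
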