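import Fermat.Agent.AtP.FlatAdic
import Fermat.Agent.AtP.OrdAlg
import Fermat.Agent.AtP.OrdRed
import Fermat.Agent.FlatHopf.S32Core
import Fermat.Agent.S19
import Fermat.Agent.MazurP.HeckeMod

/-!
# The `p`-old case
-/

set_option autoImplicit false
set_option linter.unusedSectionVars false
set_option linter.style.haveILetI false
set_option maxHeartbeats 400000
set_option synthInstance.maxHeartbeats 400000

noncomputable section

namespace Fermat.Agent.AtP

open Fermat.Agent.HeckeQ Fermat.Agent.MazurP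
open Fermat.Agent.AnJac Fermat.Agent.GalRep Fermat.Agent.GalRep.HData
open CuspForm Matrix IsLocalRing Fermat.Agent.DefRing Fermat.Agent.TWGal

local notation "Qbar" => AlgebraicClosure ℚ
local notation "GQ" => Qbar ≃ₐ[ℚ] Qbar

variable {A : ValuationSubring Qbar} {p : ℕ} [hp : Fact p.Prime]

/-- trace modulo the maximal ideal -/
theorem trace_mem {B : Type} [CommRing B] [IsLocalRing B] {X : Matrix (Fin 2) (Fin 2) B}
    (hX : IsUnit X.det)
    (h : ∀ i j, ((X - X.det • 1) * (X - 1)) i j ∈ maximalIdeal B) :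
    1 - X.trace + X.det ∈ maximalIdeal B := by
  have key : ∀ i j, (X.trace - X.det - 1) * X i j ∈ maximalIdeal B := by
    intro i j
    have h1 := h i j
    have h2 : ((X - X.det • 1) * (X - 1)) i j = (X.trace - X.det - 1) * X i j := by
      rw [Matrix.mul_apply, Fin.sum_univ_two]
      simp only [Matrix.sub_apply, Matrix.smul_apply, smul_eq_mul]
      rw [Matrix.trace_fin_two, Matrix.det_fin_two]
      fin_cases i <;> fin_cases j <;>
        simp only [Matrix.one_apply, Fin.zero_eta, Fin.mk_one, Fin.isValue, if_true,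
          one_ne_zero, zero_ne_one, if_false] <;> ring
    rwa [h2] at h1
  by_contra hcon
  have hu : IsUnit (X.trace - X.det - 1) := by
    have h1 : IsUnit (1 - X.trace + X.det) := by
      by_contra h2
      exact hcon h2
    have h2 : X.trace - X.det - 1 = -(1 - X.trace + X.det) := by ring
    rw [h2]
    exact h1.neg
  have key2 : ∀ i j, X i j ∈ maximalIdeal B := by
    intro i j
    obtain ⟨u, hu'⟩ := hu
    have h1 : X i j = (↑u⁻¹ : B) * ((X.trace - X.det - 1) * X i j) := by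
      rw [← mul_assoc, ← hu', Units.inv_mul, one_mul]
    rw [h1]
    exact Ideal.mul_mem_left _ _ (key i j)
  have h3 : X.det ∈ maximalIdeal B := by
    rw [Matrix.det_fin_two]
    exact Ideal.sub_mem _ (Ideal.mul_mem_left _ _ (key2 1 1)) (Ideal.mul_mem_left _ _ (key2 1 0))
  exact h3 hX

/-- **Ordinary representations which are flat at finite levels** -/
theorem ord_of_flat (hp2 : p ≠ 2) (hA : A.LiesOverPrime p)
    {B : Type} [CommRing B] [IsDomain B] [IsLocalRing B] [IsNoetherianRing B]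
    [IsAdicComplete (maximalIdeal B) B] [Finite (ResidueField B)] (hpB : (p : B) ∈ maximalIdeal B)
    {T : GQ →* Matrix (Fin 2) (Fin 2) B}
    (hfl : ∀ n : ℕ, n ≠ 0 → FlatLoc.IsFlatMod (FlatLoc.Zloc p) (vecRep (mapT (Ideal.Quotient.mk
      (maximalIdeal B ^ n)) T)))
    (hres : ∀ σ ∈ A.inertiaSubgroupIn ℚ, ∀ τ ∈ A.inertiaSubgroupIn ℚ, ∀ i j,
      ((T σ - (T σ).det • 1) * (T τ - 1)) i j ∈ maximalIdeal B)
    {σ₀ : GQ} (hσ₀ : σ₀ ∈ A.inertiaSubgroupIn ℚ) (hu : IsUnit ((T σ₀).det - 1)) :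
    ∀ τ ∈ A.inertiaSubgroupIn ℚ, (T σ₀ - (T σ₀).det • 1) * (T τ - 1) = 0 := by
  set d := (T σ₀).det with hd
  set t := (T σ₀).trace with ht
  have hdu : IsUnit d := by
    have h1 : IsUnit (T σ₀) := by
      have : T σ₀ * T σ₀⁻¹ = 1 := by rw [← map_mul, mul_inv_cancel, map_one]
      exact IsUnit.of_mul_eq_one _ this
    exact (Matrix.isUnit_iff_isUnit_det _).mp h1
  have htm : 1 - t + d ∈ maximalIdeal B := trace_mem hdu (hres σ₀ hσ₀ σ₀ hσ₀)
  have hu' : IsUnit (1 - d) := by rw [← neg_sub]; exact hu.neg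
  obtain ⟨a, b, hab, habd, hb1⟩ := hensel_two htm hu'
  have had : d - a ∈ maximalIdeal B := by
    have : d - a = a * (b - 1) := by rw [← habd]; ring
    rw [this]
    exact Ideal.mul_mem_left _ _ hb1
  have hba : IsUnit (b - a) := by
    by_contra hcon
    have h1 : b - a ∈ maximalIdeal B := hcon
    have h2 : 1 - d = (b - a) - (b - 1) - (d - a) := by ring
    have h3 : 1 - d ∈ maximalIdeal B := by
      rw [h2]
      exact Ideal.sub_mem _ (Ideal.sub_mem _ h1 hb1) had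
    exact h3 hu'
  have key := ord_adic hp2 hA hpB hfl hσ₀ (a := a) (b := b)
    (ch_two (T σ₀) hab.symm habd.symm) hba (fun τ hτ i j => by
      have h1 : (T σ₀ - a • 1) * (T τ - 1) = (T σ₀ - d • 1) * (T τ - 1) +
          (d - a) • (T τ - 1) := by
        simp only [sub_mul, smul_mul_assoc, one_mul, sub_smul]
        abel
      rw [h1, Matrix.add_apply, Matrix.smul_apply, smul_eq_mul]
      exact Ideal.add_mem _ (hres σ₀ hσ₀ τ hτ i j) (Ideal.mul_mem_right _ _ had))
  have hb : b = 1 := unit_root_eq_one hab.symm habd.symm (sub_ne_zero.mp hba.ne_zero)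
    (key σ₀ hσ₀)
  have ha : a = d := by rw [← habd, hb, mul_one]
  rw [← ha]
  exact key

/-- **The `p`-old case.** -/
theorem old_case (hp2 : p ≠ 2) (hA : A.LiesOverPrime p) {M : ℕ} [NeZero M]
    [NeZero (p * M)] (hpM : ¬ p ∣ M) {S : Set ℕ} (hS : S.Finite)
    (hSN : ∀ i : JS S, ¬ i.1 ∣ p * M) (hSM : ∀ i : JS S, ¬ i.1 ∣ M)
    (hMS : ∀ r : ℕ, r.Prime → r ∣ M → r ∈ S)
    {B : Type} [CommRing B] [IsDomain B] [IsLocalRing B] [IsNoetherianRing B]
    [IsAdicComplete (maximalIdeal B) B] [Finite (ResidueField B)] (hpB : (p : B) ∈ maximalIdeal B)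
    (θ : heckeAlgebra (p * M) 2 S →+* B)
    {T : GQ →* Matrix (Fin 2) (Fin 2) B} (hT : MatCont T)
    (hspan : Submodule.span B (Set.range T) = ⊤)
    (hπ : FrobCond (D := hdata (p * M) p (esHyp (p * M) p)) (S := S)
      (θ.comp (HData.Phi S (hdata_link (esHyp (p * M) p)))) T)
    (hold : ∀ P : FreeAlgebra ℤ (JS S), lat M P = 0 → θ (hkA (p * M) hSN P) = 0)
    (hres : ∀ σ ∈ A.inertiaSubgroupIn ℚ, ∀ τ ∈ A.inertiaSubgroupIn ℚ, ∀ i j,
      ((T σ - (T σ).det • 1) * (T τ - 1)) i j ∈ maximalIdeal B)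
    {σ₀ : GQ} (hσ₀ : σ₀ ∈ A.inertiaSubgroupIn ℚ) (hu : IsUnit ((T σ₀).det - 1)) :
    ∀ τ ∈ A.inertiaSubgroupIn ℚ, (T σ₀ - (T σ₀).det • 1) * (T τ - 1) = 0 := by
  obtain ⟨θM, hθM⟩ := exists_lift_theta M hSM hMS
    (θ.comp (hkA (p * M) hSN).toRingHom) hold
  have hfr : FrobCond (D := hdata M p (esHyp M p)) (S := S)
      (θM.comp (HData.Phi S (hdata_link (esHyp M p)))) T := by
    intro ℓ hℓ hℓN hℓS A hA τ hτ
    have hℓN' : ¬ ℓ ∣ (p * M) * p := by
      intro h
      rcases hℓ.dvd_mul.mp h with h | h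
      · rcases hℓ.dvd_mul.mp h with h | h
        · exact hℓN (h.mul_left M)
        · exact hℓN (h.mul_right p)
      · exact hℓN (h.mul_left M)
    obtain ⟨h1, h2⟩ := hπ ℓ hℓ hℓN' hℓS A hA τ hτ
    refine ⟨?_, h2⟩
    rw [h1, RingHom.comp_apply, HData.Phi_T S _ hℓ hℓN' hℓS, RingHom.comp_apply,
      HData.Phi_T S _ hℓ hℓN hℓS]
    have h3 := hθM (FreeAlgebra.ι ℤ ⟨ℓ, hℓ, hℓS⟩)
    rw [hkA_ι] at h3
    refine Eq.trans ?_ h3.symm
    show _ = θ (hkA (p * M) hSN (FreeAlgebra.ι ℤ ⟨ℓ, hℓ, hℓS⟩))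
    rw [hkA_ι]
  refine ord_of_flat hp2 hA hpB (fun n hn => ?_) hres hσ₀ hu
  have hne : maximalIdeal B ^ n ≠ ⊤ := fun h => by
    have h1 : maximalIdeal B ^ n ≤ maximalIdeal B := Ideal.pow_le_self hn
    rw [h, top_le_iff] at h1
    exact (maximalIdeal.isMaximal B).ne_top h1
  haveI : Nontrivial (B ⧸ maximalIdeal B ^ n) := Ideal.Quotient.nontrivial_iff.mpr hne
  haveI : IsLocalRing (B ⧸ maximalIdeal B ^ n) :=
    IsLocalRing.of_surjective' (Ideal.Quotient.mk _) Ideal.Quotient.mk_surjective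
  haveI : Finite (B ⧸ maximalIdeal B) := inferInstanceAs (Finite (ResidueField B))
  haveI : Finite (B ⧸ maximalIdeal B ^ n) :=
    Ideal.finite_quotient_pow (IsNoetherian.noetherian _) n
  exact FlatHopf.isFlatMod_of_S19 (N := M) (fun k => S19.result M p hpM k) hS hp2 hpB _ hT hfr
    hspan _ ⟨n, by
      rw [← map_natCast (Ideal.Quotient.mk (maximalIdeal B ^ n)), ← map_pow,
        Ideal.Quotient.eq_zero_iff_mem]
      exact Ideal.pow_mem_pow hpB n⟩

end Fermat.Agent.AtP
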