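import Fermat.Agent.AtP.Near
import Fermat.Agent.GoodRed.HauptChart

/-!
# Strictly polar parts
-/

set_option autoImplicit false
set_option linter.unusedSectionVars false
set_option linter.style.haveILetI false

noncomputable section

namespace Fermat.Agent.AtP

open AlgebraicCurve Fermat.Agent.Curves Fermat.Agent.Models Polynomial

variable {k κ : Type*} [Field k] [Field κ] {B : Res k κ} {F 𝓕 : Type*} [Field F] [Field 𝓕]
    [Algebra k F] [Algebra κ 𝓕]

/-- evaluation of integral polynomials -/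
def evO (B : Res k κ) (z : F) (A : (B.O)[X]) : F := aeval z (A.map B.O.subtype)

theorem evO_mul (z : F) (A A' : (B.O)[X]) : evO B z (A * A') = evO B z A * evO B z A' := by
  rw [evO, Polynomial.map_mul, map_mul]; rfl

theorem evO_one (z : F) : evO B z 1 = 1 := by rw [evO, Polynomial.map_one, map_one]

theorem evO_sub (z : F) (A A' : (B.O)[X]) : evO B z (A - A') = evO B z A - evO B z A' := by
  rw [evO, Polynomial.map_sub, map_sub]; rfl

theorem evO_C_mul (z : F) (a : B.O) (A : (B.O)[X]) :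
    evO B z (C a * A) = algebraMap k F a * evO B z A := by
  rw [evO, Polynomial.map_mul, map_mul, Polynomial.map_C, aeval_C]; rfl

variable (B) in
/-- quotients of distinguished polynomials of the same degree -/
def Uni (z x : F) : Prop := ∃ (m : ℕ) (A A' : (B.O)[X]), A.Monic ∧ A'.Monic ∧ A.natDegree = m ∧
  A'.natDegree = m ∧ A.map B.res = X ^ m ∧ A'.map B.res = X ^ m ∧ x = evO B z A / evO B z A'

theorem Uni.one (z : F) : Uni B z 1 :=
  ⟨0, 1, 1, monic_one, monic_one, natDegree_one, natDegree_one, by simp, by simp, by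
    rw [evO_one, div_one]⟩

theorem Uni.mul {z x y : F} (hx : Uni B z x) (hy : Uni B z y) : Uni B z (x * y) := by
  obtain ⟨m, A, A', h1, h2, h3, h4, h5, h6, rfl⟩ := hx
  obtain ⟨m', D, D', g1, g2, g3, g4, g5, g6, rfl⟩ := hy
  refine ⟨m + m', A * D, A' * D', h1.mul g1, h2.mul g2, ?_, ?_, ?_, ?_, ?_⟩
  · rw [h1.natDegree_mul g1, h3, g3]
  · rw [h2.natDegree_mul g2, h4, g4]
  · rw [Polynomial.map_mul, h5, g5, pow_add]
  · rw [Polynomial.map_mul, h6, g6, pow_add]
  · rw [evO_mul, evO_mul, mul_div_mul_comm]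

theorem Uni.inv {z x : F} (hx : Uni B z x) : Uni B z x⁻¹ := by
  obtain ⟨m, A, A', h1, h2, h3, h4, h5, h6, rfl⟩ := hx
  exact ⟨m, A', A, h2, h1, h4, h3, h6, h5, by rw [inv_div]⟩

theorem Uni.pow {z x : F} (hx : Uni B z x) (n : ℕ) : Uni B z (x ^ n) := by
  induction n with
  | zero => rw [pow_zero]; exact Uni.one z
  | succ n ih => rw [pow_succ]; exact ih.mul hx

theorem Uni.zpow {z x : F} (hx : Uni B z x) (n : ℤ) : Uni B z (x ^ n) := by
  obtain ⟨m, rfl | rfl⟩ := n.eq_nat_or_neg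
  · rw [zpow_natCast]; exact hx.pow m
  · rw [zpow_neg, zpow_natCast]; exact (hx.pow m).inv

theorem Uni.prod {z : F} {ι : Type*} (s : Finset ι) (f : ι → F) (h : ∀ i ∈ s, Uni B z (f i)) :
    Uni B z (∏ i ∈ s, f i) := by
  classical
  induction s using Finset.induction_on with
  | empty => rw [Finset.prod_empty]; exact Uni.one z
  | insert a s ha ih =>
    rw [Finset.prod_insert ha]
    exact (h a (Finset.mem_insert_self _ _)).mul (ih fun i hi => h i (Finset.mem_insert_of_mem hi))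

theorem Uni.single (z : F) {a : k} (ha : a ∈ B.O) (ha0 : B.r a = 0) :
    Uni B z ((z - algebraMap k F a) / z) := by
  refine ⟨1, X - C ⟨a, ha⟩, X, monic_X_sub_C _, monic_X, natDegree_X_sub_C _, natDegree_X, ?_, ?_, ?_⟩
  · rw [Polynomial.map_sub, Polynomial.map_X, Polynomial.map_C, pow_one]
    rw [Res.r_of_mem ha] at ha0
    rw [ha0, C_0, sub_zero]
  · rw [Polynomial.map_X, pow_one]
  · rw [evO, evO, Polynomial.map_sub, Polynomial.map_X, Polynomial.map_C, map_sub, aeval_X, aeval_C]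
    rfl

variable (C : Comp B F 𝓕)

theorem r_evO {z : F} (hz : z ∈ C.O) (A : (B.O)[X]) :
    evO B z A ∈ C.O ∧ C.r (evO B z A) = aeval (C.r z) (A.map B.res) := C.aeval_mem hz A

theorem r_evO_X {z : F} (hz : z ∈ C.O) {A : (B.O)[X]} {m : ℕ} (hA : A.map B.res = X ^ m) :
    C.r (evO B z A) = C.r z ^ m := by
  rw [(r_evO C hz A).2, hA, map_pow, aeval_X]

variable {C} in
theorem Uni.r_eq {z x : F} (hz : C.r z ≠ 0) (hx : Uni B z x) : C.r x = 1 := by
  obtain ⟨m, A, A', h1, h2, h3, h4, h5, h6, rfl⟩ := hx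
  have hzO := Res.mem_of_r_ne_zero hz
  rw [Res.r_div (r_evO C hzO A).1 (by rw [r_evO_X C hzO h6]; exact pow_ne_zero _ hz),
    r_evO_X C hzO h5, r_evO_X C hzO h6, div_self (pow_ne_zero _ hz)]

/-- the Gauss lemma for transcendental residues -/
theorem exists_integral {w : F} (hw : w ∈ C.O) (htr : Transcendental κ (C.r w)) {f : k[X]}
    (hf : aeval w f ∈ C.O) : ∃ f' : (B.O)[X], f'.map B.O.subtype = f := by
  rcases eq_or_ne f 0 with rfl | hf0
  · exact ⟨0, by simp⟩
  obtain ⟨c, hc, P, hP, hP0⟩ := exists_primitive (B := B) hf0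
  have h1 := C.aeval_mem hw P
  rw [hP, map_mul, aeval_C] at h1
  have h2 : C.r (algebraMap k F c * aeval w f) ≠ 0 := by
    rw [h1.2]
    intro h
    exact htr ⟨_, hP0, h⟩
  have hcO : c⁻¹ ∈ B.O := by
    rcases B.O.mem_or_inv_mem c with h | h
    · by_contra hc'
      have h3 : B.r c = 0 := by
        have := Res.r_inv_of_notMem hc'
        rwa [inv_inv] at this
      apply h2
      rw [Res.r_mul (C.algebraMap_mem c h) hf, C.r_algebraMap_eq_zero h h3, zero_mul]
    · exact h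
  refine ⟨Polynomial.C ⟨c⁻¹, hcO⟩ * P, ?_⟩
  rw [Polynomial.map_mul, hP, Polynomial.map_C, ← mul_assoc, ← C_mul]
  show Polynomial.C (c⁻¹ * c) * f = f
  rw [inv_mul_cancel₀ hc, C_1, one_mul]

theorem coeff_mem_of_map {f' : (B.O)[X]} {f : k[X]} (h : f'.map B.O.subtype = f) (j : ℕ) :
    f.coeff j ∈ B.O := by
  rw [← h, coeff_map]; exact (f'.coeff j).2

variable [IsAlgClosed κ] [IsFunctionField κ 𝓕]

/-- the order of a polynomial in a uniformizer -/
theorem ord_aeval_le {z : 𝓕} (𝔭 : Place κ 𝓕) (hz : 𝔭.ord z = 1) {Q : κ[X]} (hQ : Q ≠ 0) :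
    aeval z Q ≠ 0 ∧ 𝔭.ord (aeval z Q) ≤ Q.natDegree := by
  have htr : Transcendental κ z := transcendental_of_ord_ne_zero (v := 𝔭) (by rw [hz]; exact one_ne_zero)
  refine ⟨fun h => htr ⟨Q, hQ, h⟩, ?_⟩
  have hl : Q.leadingCoeff ≠ 0 := leadingCoeff_ne_zero.mpr hQ
  set H : κ[X] := Polynomial.C Q.leadingCoeff⁻¹ * Q with hH
  have hHm : H.Monic := by
    rw [hH, mul_comm]
    exact monic_mul_leadingCoeff_inv hQ
  have e : aeval z Q = algebraMap κ 𝓕 Q.leadingCoeff * aeval z H := by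
    rw [hH, map_mul, aeval_C, ← mul_assoc, ← map_mul, mul_inv_cancel₀ hl, map_one, one_mul]
  have h1 : aeval z H ≠ 0 := fun h => htr ⟨H, hHm.ne_zero, h⟩
  have hd : H.natDegree = Q.natDegree := by
    rw [hH, natDegree_C_mul (inv_ne_zero hl)]
  rw [e, 𝔭.ord_mul (by simpa using hl) h1, ord_algebraMap, zero_add, ← hd,
    Fermat.Agent.GoodRed.aeval_monic_eq hHm, Fermat.Agent.GoodRed.ord_multiset_prod 𝔭 _ htr,
    ← IsAlgClosed.card_roots_eq_natDegree]
  have h2 : ∀ s : Multiset κ, (s.map fun r => 𝔭.ord (z - algebraMap κ 𝓕 r)).sum ≤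
      (Multiset.card s : ℤ) := by
    intro s
    induction s using Multiset.induction_on with
    | empty => simp
    | cons a s ih =>
      rw [Multiset.map_cons, Multiset.sum_cons, Multiset.card_cons]
      have h3 : 𝔭.ord (z - algebraMap κ 𝓕 a) ≤ 1 := by
        rcases eq_or_ne a 0 with rfl | ha
        · rw [map_zero, sub_zero, hz]
        · rw [Fermat.Agent.GoodRed.ord_sub_of_pos 𝔭 (by omega) ha]; omega
      push_cast
      omega
  exact h2 _

variable {C}

/-- **the key computation**: `(δ x - 1) / β` for `x` a quotient of distinguished polynomials -/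
theorem Uni.key {z x : F} (hx : Uni B z x) (𝔭 : Place κ 𝓕) (hz0 : C.r z ≠ 0)
    (hz : 𝔭.ord (C.r z) = 1) {β : k} (hβ : β ≠ 0) (h : (x - 1) / algebraMap k F β ∈ C.O) :
    C.r ((x - 1) / algebraMap k F β) = 0 ∨ 𝔭.ord (C.r ((x - 1) / algebraMap k F β)) < 0 := by
  obtain ⟨m, A, A', h1, h2, h3, h4, h5, h6, rfl⟩ := hx
  have hzO := Res.mem_of_r_ne_zero hz0
  have htr : Transcendental κ (C.r z) :=
    transcendental_of_ord_ne_zero (v := 𝔭) (by rw [hz]; exact one_ne_zero)
  have hA'0 : C.r (evO B z A') ≠ 0 := by rw [r_evO_X C hzO h6]; exact pow_ne_zero _ hz0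
  have hA' : evO B z A' ≠ 0 := Res.ne_zero_of_r hA'0
  have hβF := algMap_ne (F := F) hβ
  -- the numerator
  have e1 : (evO B z A / evO B z A' - 1) / algebraMap k F β =
      (evO B z (A - A') / algebraMap k F β) / evO B z A' := by
    rw [evO_sub]; field_simp
  have hnum : evO B z (A - A') / algebraMap k F β ∈ C.O := by
    have : evO B z (A - A') / algebraMap k F β =
        (evO B z A / evO B z A' - 1) / algebraMap k F β * evO B z A' := by
      rw [e1, div_mul_cancel₀ _ hA']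
    rw [this]
    exact mul_mem h (Res.mem_of_r_ne_zero hA'0)
  have hnum' : aeval z (Polynomial.C β⁻¹ * (A - A').map B.O.subtype) ∈ C.O := by
    rw [map_mul, aeval_C, map_inv₀, mul_comm, ← div_eq_mul_inv]; exact hnum
  obtain ⟨Q, hQ⟩ := exists_integral C hzO htr hnum'
  have hQe : evO B z (A - A') / algebraMap k F β = evO B z Q := by
    rw [evO, evO, hQ, map_mul, aeval_C, map_inv₀, mul_comm, ← div_eq_mul_inv]
  rw [e1, hQe, Res.r_div (r_evO C hzO Q).1 hA'0, (r_evO C hzO Q).2, r_evO_X C hzO h6]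
  rcases eq_or_ne (Q.map B.res) 0 with hQ0 | hQ0
  · left; rw [hQ0, map_zero, zero_div]
  right
  obtain ⟨g1, g2⟩ := ord_aeval_le 𝔭 hz hQ0
  rw [div_eq_mul_inv, 𝔭.ord_mul g1 (inv_ne_zero (pow_ne_zero _ hz0)), 𝔭.ord_inv, ord_pow, hz]
  have hdeg : (Q.map B.res).natDegree < m := by
    have hAA : A ≠ A' := by
      rintro rfl
      apply hQ0
      have : Q = 0 := by
        apply Polynomial.map_injective B.O.subtype Subtype.val_injective
        rw [hQ, sub_self, Polynomial.map_zero, mul_zero]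
      rw [this, Polynomial.map_zero]
    have d1 : (A - A').natDegree < m := by
      have := natDegree_lt_natDegree (sub_ne_zero.mpr hAA) (degree_sub_lt (p := A) (q := A')
        (by rw [degree_eq_natDegree h1.ne_zero, degree_eq_natDegree h2.ne_zero, h3, h4])
        h1.ne_zero (by rw [h1.leadingCoeff, h2.leadingCoeff]))
      omega
    have d2 : Q.natDegree ≤ (A - A').natDegree := by
      have : (Q.map B.O.subtype).natDegree = Q.natDegree :=
        natDegree_map_eq_of_injective Subtype.val_injective Q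
      rw [← this, hQ]
      refine (natDegree_C_mul_le _ _).trans ?_
      exact natDegree_map_le
    exact (natDegree_map_le).trans_lt (d2.trans_lt d1)
  omega

/-- the leading coefficient -/
theorem Uni.lead {z x : F} (hx : Uni B z x) (𝔭 : Place κ 𝓕) (hz0 : C.r z ≠ 0)
    (hz : 𝔭.ord (C.r z) = 1) {δ β : k} (hδ : δ ∈ B.O) (hβ : β ≠ 0)
    (h : (algebraMap k F δ * x - 1) / algebraMap k F β ∈ C.O) : (δ - 1) / β ∈ B.O := by
  obtain ⟨m, A, A', h1, h2, h3, h4, h5, h6, rfl⟩ := hx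
  have hzO := Res.mem_of_r_ne_zero hz0
  have htr : Transcendental κ (C.r z) :=
    transcendental_of_ord_ne_zero (v := 𝔭) (by rw [hz]; exact one_ne_zero)
  have hA'0 : C.r (evO B z A') ≠ 0 := by rw [r_evO_X C hzO h6]; exact pow_ne_zero _ hz0
  have hA' : evO B z A' ≠ 0 := Res.ne_zero_of_r hA'0
  have hβF := algMap_ne (F := F) hβ
  have hnum' : aeval z (Polynomial.C β⁻¹ * (Polynomial.C δ * A.map B.O.subtype -
      A'.map B.O.subtype)) ∈ C.O := by
    have e : aeval z (Polynomial.C β⁻¹ * (Polynomial.C δ * A.map B.O.subtype -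
      A'.map B.O.subtype)) = (algebraMap k F δ * (evO B z A / evO B z A') - 1) /
        algebraMap k F β * evO B z A' := by
      rw [map_mul, map_sub, map_mul, aeval_C, aeval_C, map_inv₀]
      change (algebraMap k F β)⁻¹ * (algebraMap k F δ * evO B z A - evO B z A') = _
      field_simp
    rw [e]
    exact mul_mem h (Res.mem_of_r_ne_zero hA'0)
  obtain ⟨Q, hQ⟩ := exists_integral C hzO htr hnum'
  have := coeff_mem_of_map hQ m
  rw [coeff_C_mul, coeff_sub, coeff_C_mul, coeff_map, coeff_map] at this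
  have c1 : A.coeff m = 1 := by rw [← h3]; exact h1.coeff_natDegree
  have c2 : A'.coeff m = 1 := by rw [← h4]; exact h2.coeff_natDegree
  rw [c1, c2, map_one, mul_one, mul_comm, ← div_eq_mul_inv] at this
  exact this

/-- extracting roots -/
theorem Uni.root {z x : F} (hx : Uni B z x) (𝔭 : Place κ 𝓕) (hz0 : C.r z ≠ 0)
    (hz : 𝔭.ord (C.r z) = 1) {n : ℕ} {c : k} (hn : (n : k) ≠ 0) (hc : c ≠ 0)
    (h : Near C ((n : k) * c) (x ^ n)) : Near C c x := by
  rcases eq_or_ne x 1 with rfl | hx1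
  · exact Near.one C c
  rw [near_iff_div (mul_ne_zero hn hc)] at h
  obtain ⟨γ, hγ0, hγ⟩ := C.exists_scale (x - 1) (sub_ne_zero.mpr hx1)
  have hγ' : (x - 1) / algebraMap k F γ⁻¹ = algebraMap k F γ * (x - 1) := by
    rw [map_inv₀, div_inv_eq_mul, mul_comm]
  have hwr : C.r ((x - 1) / algebraMap k F γ⁻¹) ≠ 0 := by rw [hγ']; exact hγ
  set w : F := (x - 1) / algebraMap k F γ⁻¹ with hw
  have hwO := Res.mem_of_r_ne_zero hwr
  have hord := (hx.key 𝔭 hz0 hz (inv_ne_zero hγ0) hwO).resolve_left hwr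
  have htr : Transcendental κ (C.r w) := transcendental_of_ord_ne_zero (v := 𝔭) hord.ne
  have hxw : x = 1 + algebraMap k F γ⁻¹ * w := by
    rw [hw, mul_div_cancel₀ _ (algMap_ne (inv_ne_zero hγ0))]; ring
  -- the polynomial
  have e : aeval w (Polynomial.C ((n : k) * c)⁻¹ * ((1 + Polynomial.C γ⁻¹ * X) ^ n - 1)) =
      (x ^ n - 1) / algebraMap k F ((n : k) * c) := by
    rw [map_mul, map_sub, map_pow, map_add, map_mul, aeval_C, aeval_C, aeval_X, map_one, ← hxw,
      map_inv₀ _ ((n : k) * c), mul_comm, ← div_eq_mul_inv]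
  obtain ⟨Q, hQ⟩ := exists_integral C hwO htr (by rw [e]; exact h)
  have h1 := coeff_mem_of_map hQ 1
  obtain ⟨q, hq, -⟩ := one_add_pow' (Polynomial.C γ⁻¹ * X) n
  have h2 : ((1 + Polynomial.C γ⁻¹ * X) ^ n - 1 : k[X]).coeff 1 = n * γ⁻¹ := by
    have e2 : ((1 + Polynomial.C γ⁻¹ * X) ^ n - 1 : k[X]) = Polynomial.C (n * γ⁻¹) * X +
        Polynomial.C (γ⁻¹ ^ 2) * q * X ^ 2 := by
      rw [hq]
      simp only [Polynomial.C_mul, Polynomial.C_pow, map_natCast]
      ring
    rw [e2, coeff_add, coeff_C_mul, coeff_X_one, mul_one, coeff_mul_X_pow', if_neg (by omega),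
      add_zero]
  rw [coeff_C_mul, h2] at h1
  have h3 : γ⁻¹ / c ∈ B.O := by
    have : ((n : k) * c)⁻¹ * (n * γ⁻¹) = γ⁻¹ / c := by field_simp
    rwa [this] at h1
  refine ⟨algebraMap k F (γ⁻¹ / c) * w, mul_mem (C.algebraMap_mem _ h3) hwO, ?_⟩
  rw [← mul_assoc, ← map_mul, mul_div_cancel₀ _ hc]
  exact hxw

end Fermat.Agent.AtP
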