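import Fermat.Agent.AtP.Near

/-!
# Rigidity: divisor classes with trivial reduction modulo small constants
-/

set_option autoImplicit false
set_option linter.unusedSectionVars false
set_option linter.style.haveILetI false

noncomputable section

namespace Fermat.Agent.AtP

open AlgebraicCurve Fermat.Agent.Curves Fermat.Agent.Models Polynomial WithZero

open Fermat.Agent.GoodRed (InL inL_iff genPos genNeg genAll mulE mulE_zpow_apply exists_pow_inL
  zpow_mem_genAll inL_of_mem_span genNeg_eq h1_bound)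

variable {k κ : Type*} [Field k] [Field κ] {B : Res k κ} {F : Type*} [Field F] [Algebra k F]
  {ι : Type*} {𝓕 : ι → Type*} [∀ i, Field (𝓕 i)] [∀ i, Algebra κ (𝓕 i)]
  {C : ∀ i, Comp B F (𝓕 i)}
  [IsAlgClosed k] [IsAlgClosed κ] [IsFunctionField k F] [∀ i, IsFunctionField κ (𝓕 i)]
  [Fintype ι] [DecidableEq ι] [Nonempty ι]

/-- clearing denominators of a local section congruent to one -/
theorem exists_mul_near (hB : B.RankOne) (hC : Incomp C) {t : F} (ht : IsGood C t)
    (hS : Surj C t) {M : Ideal (chart C t)} (hM : IsPoint t M) (D : Divisor k F) {c : k}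
    (hcO : c ∈ B.O)
    {y : F} (hy : ∀ P ∈ gen t M, y = 0 ∨ 0 ≤ P.ord y + D P)
    (hyr : ∀ i, (spec t M i).Nonempty → Near (C i) c y) :
    ∃ s : chart C t, s ∉ M ∧ InL t D ((s : F) * y) ∧
      ∀ i, (s : F) * y ∈ (C i).O ∧
        ∃ z ∈ (C i).O, (s : F) * y - s = algebraMap k F c * z := by
  classical
  have hMp := hM.isMaximal.isPrime
  have hone : (1 : chart C t) ∉ M := fun h => hM.isMaximal.ne_top ((Ideal.eq_top_iff_one _).mpr h)
  obtain ⟨s₁, hs₁, h1, h2⟩ := exists_mul_global hB hC ht hS hM D (fun i => (C i).r y) hy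
    (fun i hi => ⟨(hyr i hi).mem hcO, rfl⟩)
  rcases eq_or_ne c 0 with rfl | hc
  · -- `y = 1` unless all branches are missing
    obtain ⟨φ, hφ⟩ := hM
    obtain ⟨i₀, hi₀⟩ := exists_spec hB hC ht hS (N := M) (IsPoint.isMaximal ⟨φ, hφ⟩)
      fun a ha ha0 => IsPoint.small_mem ⟨φ, hφ⟩ ha ha0
    obtain ⟨z, -, hz⟩ := hyr i₀ hi₀
    rw [map_zero, zero_mul, add_zero] at hz
    subst hz
    exact ⟨s₁, hs₁, h1, fun i => ⟨(h2 i).1, 0, zero_mem _, by ring⟩⟩
  have hcF := algMap_ne (F := F) hc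
  have h3 : ∀ i, ∃ σ : chart C t, σ ∉ M ∧ (¬ (spec t M i).Nonempty →
      (σ : F) * ((y - 1) / algebraMap k F c) ∈ (C i).O) := by
    intro i
    by_cases hi : (spec t M i).Nonempty
    · exact ⟨1, hone, fun h => absurd hi h⟩
    · obtain ⟨σ, hσ, hσ0⟩ := exists_kill_comp hB hC ht hS hM hi
      obtain ⟨n, hn, hn0⟩ := (C i).exists_pow_mul hB (σ.2.2 i) hσ0 ((y - 1) / algebraMap k F c)
      refine ⟨σ ^ n, fun h => hσ (hMp.mem_of_pow_mem _ h), fun _ => ?_⟩
      rw [SubmonoidClass.coe_pow]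
      exact hn
  choose σ hσ1 hσ2 using h3
  refine ⟨(∏ i, σ i) * s₁, fun h => ?_, ?_, fun i => ⟨?_, ?_⟩⟩
  · rcases hMp.mem_or_mem h with h | h
    · obtain ⟨i, -, hi⟩ := (hMp.prod_mem_iff).mp h
      exact hσ1 i hi
    · exact hs₁ h
  · have e : (((∏ i, σ i) * s₁ : chart C t) : F) * y =
        ((∏ i, σ i : chart C t) : F) * ((s₁ : F) * y) := by push_cast; ring
    rw [e]
    exact h1.mul_aff (∏ i, σ i : chart C t).2.1
  · have e : (((∏ i, σ i) * s₁ : chart C t) : F) * y =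
        ((∏ i, σ i : chart C t) : F) * ((s₁ : F) * y) := by push_cast; ring
    rw [e]
    exact mul_mem ((∏ i, σ i : chart C t).2.2 i) (h2 i).1
  · refine ⟨(((∏ i, σ i) * s₁ : chart C t) : F) * ((y - 1) / algebraMap k F c), ?_, by
      field_simp⟩
    by_cases hi : (spec t M i).Nonempty
    · exact mul_mem (((∏ i, σ i) * s₁ : chart C t).2.2 i) ((near_iff_div hc).mp (hyr i hi))
    · have e0 : (((∏ i, σ i) * s₁ : chart C t) : F) =
          ((∏ j ∈ Finset.univ.erase i, σ j) * s₁ : chart C t) * (σ i : F) := by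
        rw [← Finset.prod_erase_mul Finset.univ σ (Finset.mem_univ i)]
        push_cast
        ring
      rw [e0, mul_assoc]
      exact mul_mem (((∏ j ∈ Finset.univ.erase i, σ j) * s₁ : chart C t).2.2 i) (hσ2 i hi)

/-- local generators congruent to one -/
def NearGen (C : ∀ i, Comp B F (𝓕 i)) (t : F) (D : Divisor k F) (c : k)
    (M : Ideal (chart C t)) : Prop :=
  ∃ h : F, h ≠ 0 ∧ (∀ P ∈ gen t M, P.ord h = D P) ∧
    ∀ i, (spec t M i).Nonempty → Near (C i) c h

/-- **Patching** modulo `c`. -/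
theorem exists_lift_near (hB : B.RankOne) (hC : Incomp C) {t : F} (ht : IsGood C t)
    (hS : Surj C t) {D : Divisor k F} {c : k} (hcO : c ∈ B.O) (hc : c ≠ 0) (hc0 : B.r c = 0)
    (hL : ∀ M : Ideal (chart C t), IsPoint t M → NearGen C t D c M) :
    ∃ y : F, InL t D y ∧ ∀ i, Near (C i) c y := by
  classical
  let J : Ideal (chart C t) :=
    { carrier := {s | ∃ y, InL t D y ∧ ∀ i, y ∈ (C i).O ∧ ∃ z ∈ (C i).O,
        y - (s : F) = algebraMap k F c * z}
      add_mem' := by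
        rintro a b ⟨y, hy1, hy2⟩ ⟨z, hz1, hz2⟩
        refine ⟨y + z, hy1.add hz1, fun i => ⟨add_mem (hy2 i).1 (hz2 i).1, ?_⟩⟩
        obtain ⟨v, hv, e1⟩ := (hy2 i).2
        obtain ⟨w, hw, e2⟩ := (hz2 i).2
        refine ⟨v + w, add_mem hv hw, ?_⟩
        rw [show ((a + b : chart C t) : F) = a + b from rfl]
        linear_combination e1 + e2
      zero_mem' := ⟨0, InL.zero t D, fun i => ⟨zero_mem _, 0, zero_mem _, by simp⟩⟩
      smul_mem' := by
        rintro a b ⟨y, hy1, hy2⟩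
        refine ⟨a * y, hy1.mul_aff a.2.1, fun i => ⟨mul_mem (a.2.2 i) (hy2 i).1, ?_⟩⟩
        obtain ⟨v, hv, e1⟩ := (hy2 i).2
        refine ⟨a * v, mul_mem (a.2.2 i) hv, ?_⟩
        rw [smul_eq_mul, show ((a * b : chart C t) : F) = a * b from rfl]
        linear_combination (a : F) * e1 }
  have hJ : J = ⊤ := by
    by_contra hne
    obtain ⟨N, hN, hJN⟩ := Ideal.exists_le_maximal J hne
    have hcN : (⟨algebraMap k F c, algebraMap_mem_chart t hcO⟩ : chart C t) ∈ N :=
      hJN ⟨0, InL.zero t D, fun i => ⟨zero_mem _, -1, neg_mem (one_mem _), by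
        show 0 - algebraMap k F c = _; ring⟩⟩
    obtain ⟨i, hi⟩ := exists_spec hB hC ht hS hN fun a ha ha0 => by
      obtain ⟨n, hn, hn0⟩ := hB a ha ha0 c⁻¹
      refine hN.isPrime.mem_of_pow_mem n ?_
      have e : (⟨algebraMap k F a, algebraMap_mem_chart t ha⟩ : chart C t) ^ n =
          ⟨algebraMap k F (a ^ n * c⁻¹), algebraMap_mem_chart t hn⟩ *
            ⟨algebraMap k F c, algebraMap_mem_chart t hcO⟩ := by
        apply Subtype.ext
        show (algebraMap k F a) ^ n = algebraMap k F (a ^ n * c⁻¹) * algebraMap k F c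
        rw [← map_pow, ← map_mul, inv_mul_cancel_right₀ hc]
      rw [e]
      exact N.mul_mem_left _ hcN
    have hNp := isPoint_of_spec hB hC ht hi
    obtain ⟨h, h0, hP, hh⟩ := hL N hNp
    obtain ⟨s, hs, hs1, hs2⟩ := exists_mul_near hB hC ht hS hNp D hcO (y := h⁻¹)
      (fun P hPM => Or.inr (by rw [P.ord_inv, hP P hPM]; omega))
      (fun i hi => (hh i hi).inv hcO hc0)
    exact hs (hJN ⟨_, hs1, hs2⟩)
  have h1 : (1 : chart C t) ∈ J := by rw [hJ]; trivial
  obtain ⟨y, hy1, hy2⟩ := h1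
  refine ⟨y, hy1, fun i => ?_⟩
  obtain ⟨z, hz, e⟩ := (hy2 i).2
  refine ⟨z, hz, ?_⟩
  rw [OneMemClass.coe_one] at e
  linear_combination e

theorem regular_pow_mul {n : ℕ} {t u y : F} (hy0 : y ≠ 0) (hu0 : u ≠ 0) {D : Divisor k F}
    (hD : ∀ P : Place k F, P.ord u = n * D P) (hy : InL t D y) {v : Place k F}
    (hv : t ∈ v.toValuationSubring) : y ^ n * u ∈ v.toValuationSubring := by
  rw [mem_iff_ord v (mul_ne_zero (pow_ne_zero _ hy0) hu0), v.ord_mul (pow_ne_zero _ hy0) hu0,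
    ord_pow, hD, ← mul_add]
  exact mul_nonneg (by positivity) ((hy v hv).resolve_left hy0)

/-- the Newton approximations -/
theorem exists_approx_near {t : F} {n : ℕ} (hn : (n : k) ≠ 0) {u y : F} {D : Divisor k F}
    (hu0 : u ≠ 0) (hD : ∀ P : Place k F, P.ord u = n * D P) (hyD : InL t D y)
    {a : k} (haO : a ∈ B.O) (ha : B.r a = 0) (ha0 : a ≠ 0)
    (hy : ∀ i, Near (C i) ((n : k) * a) y) (hu : ∀ i, Near (C i) ((n : k) ^ 2 * a) u) (N : ℕ) :
    ∃ w c, InL t D w ∧ (∀ i, Near (C i) ((n : k) * a) w) ∧ (∀ i, c ∈ (C i).O) ∧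
      w ^ n * u = 1 + algebraMap k F ((n : k) ^ 2 * a ^ (N + 1)) * c := by
  have hnO : (n : k) ∈ B.O := natCast_mem B.O n
  have hnaO : (n : k) * a ∈ B.O := mul_mem hnO haO
  have hna0 : B.r ((n : k) * a) = 0 := by rw [Res.r_mul hnO haO, ha, mul_zero]
  have haF := algMap_ne (F := F) ha0
  have hnF := algMap_ne (F := F) hn
  induction N with
  | zero =>
    refine ⟨y, (y ^ n * u - 1) / algebraMap k F ((n : k) ^ 2 * a ^ (0 + 1)), hyD, hy, fun i => ?_, ?_⟩
    · have h1 := (hy i).pow_n haO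
      have h2 := h1.mul (mul_mem (pow_mem hnO 2) haO) (hu i)
      rw [zero_add, pow_one]
      exact (near_iff_div (mul_ne_zero (pow_ne_zero 2 hn) ha0)).mp h2
    · rw [mul_div_cancel₀ _ (algMap_ne (mul_ne_zero (pow_ne_zero 2 hn) (pow_ne_zero _ ha0)))]
      ring
  | succ N ih =>
    obtain ⟨w, c, hw, hwn, hc, e⟩ := ih
    have hw0 : w ≠ 0 := (hwn (Classical.arbitrary ι)).ne hnaO hna0
    have hcc : c ∈ chart C t := by
      refine ⟨fun v hv => ?_, hc⟩
      have h1 : algebraMap k F ((n : k) ^ 2 * a ^ (N + 1)) * c ∈ v.toValuationSubring := by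
        have h2 := sub_mem (regular_pow_mul hw0 hu0 hD hw hv) (one_mem v.toValuationSubring)
        rwa [e, add_sub_cancel_left] at h2
      have h3 : c = algebraMap k F ((n : k) ^ 2 * a ^ (N + 1))⁻¹ *
          (algebraMap k F ((n : k) ^ 2 * a ^ (N + 1)) * c) := by
        rw [← mul_assoc, ← map_mul, inv_mul_cancel₀
          (mul_ne_zero (pow_ne_zero 2 hn) (pow_ne_zero _ ha0)), map_one, one_mul]
      rw [h3]
      exact mul_mem (v.algebraMap_mem' _) h1
    have hbO : (n : k) * a ^ (N + 1) ∈ B.O := mul_mem hnO (pow_mem haO _)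
    set x : F := algebraMap k F ((n : k) * a ^ (N + 1)) * c with hx
    have hxc : x ∈ chart C t := mul_mem (algebraMap_mem_chart t hbO) hcc
    obtain ⟨q, hq, hqS⟩ := one_sub_pow x n
    have hqc : q ∈ chart C t := hqS _ hxc
    refine ⟨(1 - x) * w, algebraMap k F (a ^ N) * c ^ 2 * (q - algebraMap k F ((n : k) ^ 2) +
        algebraMap k F ((n : k) ^ 2 * a ^ (N + 1)) * c * q),
      hw.mul_aff (sub_mem (one_mem _) hxc).1, fun i => Near.mul hnaO ?_ (hwn i), fun i => ?_, ?_⟩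
    · refine ⟨-(algebraMap k F (a ^ N) * c), neg_mem (mul_mem ((C i).algebraMap_mem _
        (pow_mem haO N)) (hc i)), ?_⟩
      rw [hx]
      simp only [map_mul, map_pow]
      ring
    · have hn2 := (C i).algebraMap_mem _ (pow_mem hnO 2)
      exact mul_mem (mul_mem ((C i).algebraMap_mem _ (pow_mem haO N)) (pow_mem (hc i) 2))
        (add_mem (sub_mem (hqc.2 i) hn2) (mul_mem (mul_mem ((C i).algebraMap_mem _
          (mul_mem (pow_mem hnO 2) (pow_mem haO _))) (hc i)) (hqc.2 i)))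
    · rw [mul_pow, mul_assoc, e, hq, hx]
      simp only [map_mul, map_pow, map_natCast]
      ring

/-- comparison of approximate roots -/
theorem exists_sub_near {n : ℕ} (hn : (n : k) ≠ 0) {u p p' : F} {a : k} (haO : a ∈ B.O)
    (ha : B.r a = 0) (hu0 : u ≠ 0) (hu : ∀ i, (C i).r u ≠ 0)
    (hp : ∀ i, Near (C i) ((n : k) * a) p) (hp' : ∀ i, Near (C i) ((n : k) * a) p')
    {α : k} (hαne : α ≠ 0) {c c' : F} (hc : ∀ i, c ∈ (C i).O)
    (hc' : ∀ i, c' ∈ (C i).O)
    (h : p ^ n * u = 1 + algebraMap k F ((n : k) ^ 2 * α) * c)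
    (h' : p' ^ n * u = 1 + algebraMap k F ((n : k) ^ 2 * α) * c') :
    ∃ x, (∀ i, x ∈ (C i).O) ∧ p - p' = algebraMap k F α * x := by
  have hnO : (n : k) ∈ B.O := natCast_mem B.O n
  have hnaO : (n : k) * a ∈ B.O := mul_mem hnO haO
  have hαF : algebraMap k F α ≠ 0 := algMap_ne hαne
  have hnF : algebraMap k F (n : k) ≠ 0 := algMap_ne hn
  refine ⟨(algebraMap k F α)⁻¹ * (p - p'), fun i => ?_, by rw [mul_inv_cancel_left₀ hαF]⟩
  have hgeom : (∑ j ∈ Finset.range n, p ^ j * p' ^ (n - 1 - j)) * (p - p') = p ^ n - p' ^ n :=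
    Commute.geom_sum₂_mul (Commute.all _ _) n
  -- the geometric sum is `n` times a unit
  have hS : ∃ z ∈ (C i).O, ∑ j ∈ Finset.range n, p ^ j * p' ^ (n - 1 - j) =
      algebraMap k F (n : k) * (1 + algebraMap k F a * z) := by
    have h1 : ∀ j ∈ Finset.range n, ∃ z ∈ (C i).O, p ^ j * p' ^ (n - 1 - j) =
        1 + algebraMap k F ((n : k) * a) * z := by
      intro j _
      exact ((hp i).pow hnaO j).mul hnaO ((hp' i).pow hnaO _)
    choose! z hz1 hz2 using h1
    refine ⟨∑ j ∈ Finset.range n, z j, sum_mem hz1, ?_⟩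
    rw [Finset.sum_congr rfl hz2, Finset.sum_add_distrib, Finset.sum_const, Finset.card_range,
      nsmul_eq_mul, mul_one, ← Finset.mul_sum, map_mul, map_natCast]
    ring
  obtain ⟨z, hz, hSe⟩ := hS
  rw [hSe] at hgeom
  have h1z : (C i).r (1 + algebraMap k F a * z) = 1 := by
    rw [Res.r_add (one_mem _) (mul_mem ((C i).algebraMap_mem a haO) hz), Res.r_one,
      Res.r_mul ((C i).algebraMap_mem a haO) hz, (C i).r_algebraMap_eq_zero haO ha, zero_mul,
      add_zero]
  have h1z' : (C i).r (1 + algebraMap k F a * z) ≠ 0 := by rw [h1z]; exact one_ne_zero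
  have h1ne : 1 + algebraMap k F a * z ≠ 0 := Res.ne_zero_of_r h1z'
  have hdiff : (p ^ n - p' ^ n) * u = algebraMap k F ((n : k) ^ 2 * α) * (c - c') := by
    linear_combination h - h'
  have e : (algebraMap k F α)⁻¹ * (p - p') = algebraMap k F (n : k) * ((c - c') * u⁻¹) *
      (1 + algebraMap k F a * z)⁻¹ := by
    rw [← hgeom, map_mul, map_pow] at hdiff
    field_simp
    have h3 : algebraMap k F (n : k) * ((p - p') * (1 + algebraMap k F a * z) * u) =
        algebraMap k F (n : k) * (algebraMap k F (n : k) * algebraMap k F α * (c - c')) := by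
      linear_combination hdiff
    have h4 := mul_left_cancel₀ hnF h3
    linear_combination h4
  rw [e]
  exact mul_mem (mul_mem ((C i).algebraMap_mem _ hnO) (mul_mem (sub_mem (hc i) (hc' i))
    (Res.inv_mem_of_r (hu i)))) (Res.inv_mem_of_r h1z')

/-- **Rigidity.** -/
theorem rigid [CharZero k] (hB : B.RankOne) (hC : Incomp C) {t : F}
    (ht : IsGood C t) (hS : Surj C t) (hS' : Surj C t⁻¹) {n : ℕ} (hn0 : n ≠ 0)
    {a : k} (haO : a ∈ B.O) (ha : B.r a = 0) (ha0 : a ≠ 0)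
    {u : F} (hu : ∀ i, Near (C i) ((n : k) ^ 2 * a) u)
    {D : Divisor k F} (hD : ∀ P : Place k F, P.ord u = n * D P)
    (hL : ∀ M : Ideal (chart C t), IsPoint t M → NearGen C t D ((n : k) * a) M)
    (hL' : ∀ M : Ideal (chart C t⁻¹), IsPoint t⁻¹ M → NearGen C t⁻¹ D ((n : k) * a) M) :
    ∃ f : F, u = f ^ n := by
  classical
  have hn : (n : k) ≠ 0 := Nat.cast_ne_zero.mpr hn0
  have hnO : (n : k) ∈ B.O := natCast_mem B.O n
  have hnaO : (n : k) * a ∈ B.O := mul_mem hnO haO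
  have hna0 : B.r ((n : k) * a) = 0 := by rw [Res.r_mul hnO haO, ha, mul_zero]
  have hnane : (n : k) * a ≠ 0 := mul_ne_zero hn ha0
  have hn2O : (n : k) ^ 2 * a ∈ B.O := mul_mem (pow_mem hnO 2) haO
  have hn20 : B.r ((n : k) ^ 2 * a) = 0 := by rw [Res.r_mul (pow_mem hnO 2) haO, ha, mul_zero]
  have hur : ∀ i, (C i).r u ≠ 0 := fun i => by
    rw [(hu i).r_eq hn2O hn20]; exact one_ne_zero
  have hu0 : u ≠ 0 := Res.ne_zero_of_r (hur (Classical.arbitrary ι))
  have ht0 : t ≠ 0 := Res.ne_zero_of_r (ht.r_ne_zero (Classical.arbitrary ι))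
  obtain ⟨y, hyD, hyr⟩ := exists_lift_near hB hC ht hS hnaO hnane hna0 hL
  obtain ⟨y', hyD', hyr'⟩ := exists_lift_near hB hC ht.inv hS' hnaO hnane hna0 hL'
  have happ := fun N => exists_approx_near (C := C) hn hu0 hD hyD haO ha ha0 hyr hu N
  have happ' := fun N => exists_approx_near (C := C) hn hu0 hD hyD' haO ha ha0 hyr' hu N
  -- the modules
  obtain ⟨s, hs, as, has0, hsgen⟩ := exists_lattice hB hC ht ht0 D
  obtain ⟨s', hs', as', has0', hsgen'⟩ := exists_lattice hB hC ht.inv (inv_ne_zero ht0) D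
  rw [genNeg_eq ht0 s'] at hsgen'
  set s₁ := s.image fun x => as' • x with hs₁
  have hTO : ∀ i, t ∈ (C i).O := ht.mem
  have hTO' : ∀ i, t⁻¹ ∈ (C i).O := ht.inv.mem
  have hs₁m : ∀ y ∈ s₁, InL t D y ∧ ∀ i, y ∈ (C i).O := by
    intro y hy
    obtain ⟨z, hz, rfl⟩ := Finset.mem_image.mp hy
    rw [Algebra.smul_def]
    exact ⟨(hs z hz).1.mul_aff (Fermat.Agent.GoodRed.algebraMap_mem_affineRing t (as' : k)),
      fun i => mul_mem ((C i).algebraMap_mem _ as'.2) ((hs z hz).2 i)⟩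
  set A : B.O := as' * as with hA
  have hA0 : A ≠ 0 := mul_ne_zero has0' has0
  have hgen1 : ∀ x, InL t D x → (∀ i, x ∈ (C i).O) → A • x ∈ genPos B.O (mulE k t ht0) s₁ := by
    intro x hx hxO
    rw [hA, mul_smul]
    exact smul_mem_genPos_image ht0 s as' (hsgen x hx hxO)
  have hgen2 : ∀ x, InL t⁻¹ D x → (∀ i, x ∈ (C i).O) →
      A • x ∈ genNeg B.O (mulE k t ht0) s' := by
    intro x hx hxO
    rw [hA, mul_comm, mul_smul]
    exact Submodule.smul_mem _ _ (hsgen' x hx hxO)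
  by_cases h0 : Submodule.span k (genPos B.O (mulE k t ht0) s₁ : Set F) ⊓
      Submodule.span k (genNeg B.O (mulE k t ht0) s' : Set F) = ⊥
  swap
  · obtain ⟨x, hx, hx0⟩ := Submodule.exists_mem_ne_zero_of_ne_bot h0
    refine isPow_of_global hn0 hu0 hD hx0 (inL_of_mem_span ht0 (fun y hy => (hs₁m y hy).1) hx.1) ?_
    have h1 := hx.2
    rw [← genNeg_eq ht0 s'] at h1
    exact inL_of_mem_span (inv_ne_zero ht0) (fun y hy => (hs' y hy).1) h1
  exfalso
  have h1 : ∀ x ∈ s₁, ∃ j : ℕ, ((mulE k t ht0) ^ (-(j : ℤ))) x ∈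
      genNeg B.O (mulE k t ht0) s' := by
    intro x hx
    obtain ⟨z, hz, rfl⟩ := Finset.mem_image.mp hx
    obtain ⟨N, hN⟩ := exists_pow_inL (inv_ne_zero ht0) D z (fun w _ hw => by
      rw [inv_inv] at hw
      exact (hs z hz).1 w hw)
    refine ⟨N, ?_⟩
    rw [mulE_zpow_apply, zpow_neg, zpow_natCast, ← inv_pow, mul_smul_comm]
    exact hsgen' _ hN fun i => mul_mem (pow_mem (hTO' i) N) ((hs z hz).2 i)
  obtain ⟨c, hc0, hc⟩ := h1_bound (R := B.O) (K := k) (mulE k t ht0) s₁ s' h1 h0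
  have hcK : (c : k) ≠ 0 := fun h => hc0 (Subtype.ext h)
  have hAK : (A : k) ≠ 0 := fun h => hA0 (Subtype.ext h)
  obtain ⟨N, hN, -⟩ := hB a haO ha ((c : k) * A)⁻¹
  obtain ⟨p, cp, hpD, hpr, hcp, hpu⟩ := happ N
  obtain ⟨p', cp', hpD', hpr', hcp', hpu'⟩ := happ' N
  have ha₀N : a ^ (N + 1) ≠ 0 := pow_ne_zero _ ha0
  obtain ⟨z, hzO, hpp⟩ := exists_sub_near hn haO ha hu0 hur hpr hpr' ha₀N hcp hcp' hpu hpu'
  have hzall : A • z ∈ genAll B.O (mulE k t ht0) s₁ := by
    obtain ⟨M, hM⟩ := exists_pow_inL ht0 D z (fun v hv hv' => by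
      have h3 : v.adicValuation p ≤ exp (D v) := inL_iff.1 hpD v hv
      have h4 : v.adicValuation p' ≤ exp (D v) := inL_iff.1 hpD' v hv'
      have h5 : v.adicValuation (p - p') ≤ exp (D v) :=
        (Valuation.map_sub _ _ _).trans (max_le h3 h4)
      rw [hpp, map_mul, val_algebraMap v ha₀N, one_mul] at h5
      rcases eq_or_ne z 0 with h6 | h6
      · exact Or.inl h6
      · right
        rw [← neg_neg (D v), val_le_exp_iff v h6] at h5
        omega)
    have h2 := zpow_mem_genAll ht0 (hgen1 _ hM fun i => mul_mem (pow_mem (hTO i) M) (hzO i))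
      (-(M : ℤ))
    rwa [zpow_neg, zpow_natCast, mul_smul_comm, ← mul_assoc,
      inv_mul_cancel₀ (pow_ne_zero _ ht0), one_mul] at h2
  obtain ⟨v, hv, hcv⟩ := hc ⟨a ^ (N + 1), pow_mem haO _⟩ (A • p)
    (hgen1 p hpD fun i => (hpr i).mem hnaO)
    (A • p') (hgen2 p' hpD' fun i => (hpr' i).mem hnaO) (A • z) hzall (by
      rw [← smul_sub, hpp, Algebra.smul_def, Algebra.smul_def, Algebra.smul_def]
      show algebraMap k F (A : k) * (algebraMap k F (a ^ (N + 1)) * z) =
        algebraMap k F (a ^ (N + 1)) * (algebraMap k F (A : k) * z)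
      ring)
  -- contradiction
  set i₀ : ι := Classical.arbitrary ι
  have hvO : v ∈ (C i₀).O := mem_O_of_genPos ht0 (hTO i₀) (fun y hy => (hs₁m y hy).2 i₀) hv
  have hpv : p = algebraMap k F a * (algebraMap k F (a ^ N * ((c : k) * A)⁻¹) * v) := by
    rw [Algebra.smul_def, Algebra.smul_def, Algebra.smul_def] at hcv
    change algebraMap k F (c : k) * (algebraMap k F (A : k) * p) =
      algebraMap k F (a ^ (N + 1)) * v at hcv
    have hcF : algebraMap k F ((c : k) * A) ≠ 0 := by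
      simpa using And.intro hcK hAK
    apply mul_left_cancel₀ hcF
    rw [map_mul, mul_assoc, hcv]
    have : a ^ (N + 1) = (c : k) * A * (a * (a ^ N * ((c : k) * A)⁻¹)) := by
      field_simp
      ring
    rw [this]
    simp only [map_mul]
    ring
  have hpr0 : (C i₀).r p = 0 := by
    rw [hpv, Res.r_mul ((C i₀).algebraMap_mem _ haO) (mul_mem ((C i₀).algebraMap_mem _ hN) hvO),
      (C i₀).r_algebraMap_eq_zero haO ha, zero_mul]
  rw [(hpr i₀).r_eq hnaO hna0] at hpr0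
  exact one_ne_zero hpr0

end Fermat.Agent.AtP
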