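import Fermat.Agent.TWCoh.JointEig
import Fermat.Agent.Newform.Conj
import Fermat.Prelude.Def_CuspForm_HeckeGaloisRepDatum
import Fermat.Prelude.Thm_IsLocalRing_isAdicComplete_of_module_finite

/-!
# The anemic Hecke algebra is reduced; points with values in domains
-/

set_option autoImplicit false
set_option linter.unusedSectionVars false
set_option linter.style.haveILetI false

noncomputable section

universe u

namespace Fermat.Agent.AtP

open IsLocalRing Polynomial

open scoped TensorProduct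

section Sqfree

open Newform in
theorem hecke_sqfree (N : ℕ) [NeZero N] {l : ℕ} (hl : l.Prime) (hlN : ¬ l ∣ N) :
    ∃ P : Polynomial ℤ, Polynomial.aeval (DSLift.heckeOp N 2 hl) P = 0 ∧
      ∀ (K : Type u) [Field K] [CharZero K], Squarefree (P.map (Int.castRingHom K)) := by
  set T : Module.End ℂ (S2 N) := DSLift.heckeOp N 2 hl with hT
  letI : Algebra ℚ (Module.End ℂ (S2 N)) := Algebra.compHom _ (algebraMap ℚ ℂ)
  refine TWCoh.exists_sqfree (T := T) ?_ fun R hR => ?_
  · have h1 : IsIntegral ℤ (⟨T, heckeOp_mem_heckeAlgebra hl (Set.notMem_empty _)⟩ :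
        CuspForm.heckeAlgebra N 2 ∅) := Algebra.IsIntegral.isIntegral _
    exact h1.map (CuspForm.heckeAlgebra N 2 ∅).val
  · have key : ∀ (χ : GP N → ℂ) (f : S2 N), f ∈ Eig N N χ → ∀ R : Polynomial ℚ,
        Polynomial.aeval T R f = Polynomial.aeval (χ ⟨l, hl, hlN⟩) R • f := by
      intro χ f hf R
      have h1 : T f = χ ⟨l, hl, hlN⟩ • f := mem_Eig.1 hf ⟨l, hl, hlN⟩
      induction R using Polynomial.induction_on' with
      | add p q hp hq => rw [map_add, map_add, LinearMap.add_apply, hp, hq, add_smul]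
      | monomial n a =>
        rw [Polynomial.aeval_monomial, Polynomial.aeval_monomial, Module.End.mul_apply]
        have h2 : ∀ n : ℕ, (T ^ n) f = (χ ⟨l, hl, hlN⟩ ^ n) • f := by
          intro n
          induction n with
          | zero => rw [pow_zero, pow_zero, one_smul]; rfl
          | succ n ih => rw [pow_succ', Module.End.mul_apply, ih, map_smul, h1, smul_smul,
              pow_succ]
        rw [h2, mul_smul]
        have h3 : ∀ g : S2 N, (algebraMap ℚ (Module.End ℂ (S2 N)) a) g = (a : ℂ) • g := by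
          intro g
          have : (algebraMap ℚ (Module.End ℂ (S2 N)) a) = algebraMap ℂ _ (a : ℂ) := rfl
          rw [this]
          rfl
        rw [h3]
        rfl
    have h1 : (⊤ : Submodule ℂ (S2 N)) ≤ LinearMap.ker (Polynomial.aeval T R) := by
      rw [← iSup_Eig (M := N) (D := N) dvd_rfl, iSup_le_iff]
      intro χ f hf
      rw [LinearMap.mem_ker, key χ f hf]
      have h2 : (Polynomial.aeval T R * Polynomial.aeval T R) f = 0 := by rw [hR]; rfl
      rw [Module.End.mul_apply, key χ f hf, map_smul, key χ f hf, smul_smul] at h2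
      rcases smul_eq_zero.1 h2 with h3 | h3
      · rw [mul_self_eq_zero.1 h3, zero_smul]
      · rw [h3, smul_zero]
    exact LinearMap.ext fun f => h1 trivial

end Sqfree

section Red

variable {O T : Type} [CommRing O] [IsDomain O] [CharZero O] [CommRing T] [Algebra O T]
  [Module.Finite O T] [Module.Free O T]

/-- finite free algebras generated by elements with separable annihilators are reduced -/
theorem isReduced_of_sqfree {X : Set T} (hX : Algebra.adjoin O X = ⊤)
    (h : ∀ x ∈ X, ∃ P : ℤ[X], P.eval₂ (Int.castRingHom T) x = 0 ∧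
      ∀ (K : Type) [Field K] [CharZero K], Squarefree (P.map (Int.castRingHom K))) :
    IsReduced T := by
  let K := FractionRing O
  haveI : CharZero K := IsFractionRing.charZero_of_isFractionRing O
  let A := K ⊗[O] T
  let i : T →+* A := (Algebra.TensorProduct.includeRight : T →ₐ[O] A).toRingHom
  have hi : Function.Injective i :=
    Algebra.TensorProduct.includeRight_injective (IsFractionRing.injective O K)
  let μ : A →ₐ[K] Module.End K A := Algebra.lmul K A
  have hμ : ∀ a b, μ a b = a * b := fun a b => rfl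
  have hcomm : ∀ a b, Commute (μ a) (μ b) := fun a b => (Commute.all a b).map μ
  have hgen : ∀ x ∈ X, (μ (i x)).IsSemisimple := by
    intro x hx
    obtain ⟨P, hP, hsq⟩ := h x hx
    refine Module.End.isSemisimple_of_squarefree_aeval_eq_zero (hsq K) ?_
    rw [Polynomial.aeval_algHom_apply]
    have h1 : aeval (i x) (P.map (Int.castRingHom K)) = i (P.eval₂ (Int.castRingHom T) x) := by
      rw [Polynomial.aeval_def, Polynomial.eval₂_map, Polynomial.hom_eval₂]
      congr 1
      exact RingHom.ext_int _ _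
    rw [h1, hP, map_zero, map_zero]
  have hall : ∀ x : T, (μ (i x)).IsSemisimple := by
    intro x
    have hx : x ∈ Algebra.adjoin O X := by rw [hX]; trivial
    induction hx using Algebra.adjoin_induction with
    | mem x hx => exact hgen x hx
    | algebraMap r =>
      have h1 : i (algebraMap O T r) = algebraMap K A (algebraMap O K r) := by
        show (1 : K) ⊗ₜ[O] (algebraMap O T r) = (algebraMap O K r) ⊗ₜ[O] (1 : T)
        rw [Algebra.algebraMap_eq_smul_one, Algebra.algebraMap_eq_smul_one,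
          TensorProduct.smul_tmul]
      rw [h1, AlgHom.commutes]
      exact Module.End.IsSemisimple_smul _ (Module.End.isSemisimple_id (R := K) (M := A))
    | add x y _ _ hx hy =>
      rw [map_add, map_add]
      exact Module.End.IsSemisimple.add_of_commute (hcomm _ _) hx hy
    | mul x y _ _ hx hy =>
      rw [map_mul, map_mul]
      exact Module.End.IsSemisimple.mul_of_commute (hcomm _ _) hx hy
  constructor
  intro x hx
  have h1 : IsNilpotent (μ (i x)) := (hx.map i).map μ
  have h2 : μ (i x) = 0 := Module.End.eq_zero_of_isNilpotent_isSemisimple h1 (hall x)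
  have h3 : i x = 0 := by
    have h4 := LinearMap.congr_fun h2 1
    rw [hμ, mul_one] at h4
    exact h4
  exact (map_eq_zero_iff i hi).mp h3

/-- domain points of reduced algebras -/
theorem exists_prime_notMem [IsReduced T] {x : T} (hx : x ≠ 0) :
    ∃ P : Ideal T, P.IsPrime ∧ x ∉ P ∧ ∀ a : O, algebraMap O T a ∈ P → a = 0 := by
  have h1 : ∃ P ∈ minimalPrimes T, x ∉ P := by
    by_contra hcon
    push Not at hcon
    apply hx
    have h2 : x ∈ sInf (minimalPrimes T) := Ideal.mem_sInf.mpr fun {P} hP => hcon P hP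
    have h3 : sInf (minimalPrimes T) = nilradical T := by
      have := Ideal.sInf_minimalPrimes (I := (⊥ : Ideal T))
      exact this
    rw [h3, nilradical_eq_zero] at h2
    exact h2
  obtain ⟨P, hP, hxP⟩ := h1
  refine ⟨P, hP.1.1, hxP, fun a ha => ?_⟩
  obtain ⟨y, hy, hxy⟩ := Ideal.exists_mul_mem_of_mem_minimalPrimes (I := (⊥ : Ideal T)) hP ha
  rw [Ideal.mem_bot, ← Algebra.smul_def] at hxy
  rcases smul_eq_zero.mp hxy with h | h
  · exact h
  · exact absurd (h ▸ zero_mem _) hy

end Red

section Hecke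

variable {N : ℕ} [NeZero N] {S : Finset ℕ}
  {𝒪 : Type} [CommRing 𝒪] [IsDomain 𝒪] [IsDiscreteValuationRing 𝒪]
  [IsAdicComplete (IsLocalRing.maximalIdeal 𝒪) 𝒪]
  {θ : CuspForm.heckeAlgebra N 2 (↑S : Set ℕ) →+* IsLocalRing.ResidueField 𝒪}
  {T : Type} [CommRing T] [IsLocalRing T] [IsNoetherianRing T]
  [IsAdicComplete (IsLocalRing.maximalIdeal T) T] [Algebra 𝒪 T] [IsLocalHom (algebraMap 𝒪 T)]
  [Module.Finite 𝒪 T] [Module.Free 𝒪 T]

/-- the ring of a datum is reduced -/
theorem isReduced_datum [CharZero 𝒪] (hNS : ∀ q : ℕ, q.Prime → q ∣ N → q ∈ S)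
    (H : CuspForm.HeckeGaloisRepDatum N (↑S : Set ℕ) 𝒪 θ T) : IsReduced T := by
  refine isReduced_of_sqfree (O := 𝒪) (X := {t | ∃ (ℓ : ℕ) (hℓ : ℓ.Prime) (hℓN : ¬ ℓ ∣ N)
    (hℓS : ℓ ∉ (↑S : Set ℕ)), t = H.π (CuspForm.heckeAlgebra.T hℓ hℓN hℓS)}) ?_ ?_
  · rw [← H.adjoin_range_π]
    refine le_antisymm (Algebra.adjoin_mono ?_) (Algebra.adjoin_le ?_)
    · rintro _ ⟨ℓ, hℓ, hℓN, hℓS, rfl⟩
      exact ⟨_, rfl⟩
    · rintro _ ⟨⟨x, hx⟩, rfl⟩
      show H.π ⟨x, hx⟩ ∈ Algebra.adjoin 𝒪 _
      induction hx using Algebra.adjoin_induction with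
      | mem x hx =>
        rcases hx with ⟨ℓ, hℓ, hℓN, hℓS, rfl⟩ | ⟨q, hqN, hq, hqS, rfl⟩
        · exact Algebra.subset_adjoin ⟨ℓ, hℓ, hℓN, hℓS, rfl⟩
        · exact absurd (hNS q hq hqN) hqS
      | algebraMap m =>
        have h1 : (⟨algebraMap ℤ _ m, (CuspForm.heckeAlgebra N 2 (↑S : Set ℕ)).algebraMap_mem m⟩ :
            CuspForm.heckeAlgebra N 2 (↑S : Set ℕ)) = (m : CuspForm.heckeAlgebra N 2 (↑S : Set ℕ)) :=
          Subtype.ext (eq_intCast (algebraMap ℤ (Module.End ℂ _)) m)
        refine Eq.subst (motive := fun z => H.π z ∈ _) h1.symm ?_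
        rw [map_intCast]
        exact intCast_mem _ m
      | add x y hx' hy' hx hy =>
        have h1 : H.π ⟨x + y, add_mem hx' hy'⟩ = H.π ⟨x, hx'⟩ + H.π ⟨y, hy'⟩ := by
          rw [← map_add]; rfl
        rw [h1]
        exact add_mem hx hy
      | mul x y hx' hy' hx hy =>
        have h1 : H.π ⟨x * y, mul_mem hx' hy'⟩ = H.π ⟨x, hx'⟩ * H.π ⟨y, hy'⟩ := by
          rw [← map_mul]; rfl
        rw [h1]
        exact mul_mem hx hy
  · rintro _ ⟨ℓ, hℓ, hℓN, hℓS, rfl⟩
    obtain ⟨P, hP, hsq⟩ := hecke_sqfree.{0} N hℓ hℓN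
    refine ⟨P, ?_, hsq⟩
    have h1 : P.eval₂ (Int.castRingHom (CuspForm.heckeAlgebra N 2 (↑S : Set ℕ)))
        (CuspForm.heckeAlgebra.T hℓ hℓN hℓS) = 0 := by
      have h2 : Polynomial.aeval (CuspForm.heckeAlgebra.T hℓ hℓN hℓS :
          CuspForm.heckeAlgebra N 2 (↑S : Set ℕ)) P = 0 := by
        apply Subtype.ext
        have h3 : ((Polynomial.aeval (CuspForm.heckeAlgebra.T hℓ hℓN hℓS :
          CuspForm.heckeAlgebra N 2 (↑S : Set ℕ)) P : CuspForm.heckeAlgebra N 2 (↑S : Set ℕ)) :
            Module.End ℂ (CuspForm (CongruenceSubgroup.Gamma0 N) 2)) =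
          Polynomial.aeval (DSLift.heckeOp N 2 hℓ) P := by
          rw [show (DSLift.heckeOp N 2 hℓ) = (CuspForm.heckeAlgebra N 2 (↑S : Set ℕ)).val
            (CuspForm.heckeAlgebra.T hℓ hℓN hℓS) from ?_]
          · rw [Polynomial.aeval_algHom_apply]
            rfl
          · show _ = CuspForm.heckeTLin 2 hℓ hℓN
            rw [DSLift.heckeOp, dif_neg hℓN]
        rw [h3, hP]
        rfl
      rw [← h2, Polynomial.aeval_def]
      congr 1
    have h2 := congrArg H.π h1
    rw [map_zero, Polynomial.hom_eval₂] at h2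
    rw [← h2]
    congr 1
    exact RingHom.ext_int _ _

end Hecke

end Fermat.Agent.AtP
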