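import Fermat.Agent.AtP.NewCase
import Fermat.Agent.AtP.OldCase
import Fermat.Agent.AtP.TRed

/-!
# S33
-/

set_option autoImplicit false
set_option linter.unusedSectionVars false
set_option linter.style.haveILetI false
set_option maxHeartbeats 400000
set_option synthInstance.maxHeartbeats 400000

noncomputable section

namespace Fermat.Agent.AtP

open Fermat.Agent.HeckeQ Fermat.Agent.MazurP
open Fermat.Agent.AnJac Fermat.Agent.GalRep Fermat.Agent.GalRep.HData
open CuspForm Matrix IsLocalRing Fermat.Agent.DefRing Fermat.Agent.TWGal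

local notation "Qbar" => AlgebraicClosure ℚ
local notation "GQ" => Qbar ≃ₐ[ℚ] Qbar

variable {p : ℕ} {M : ℕ} [NeZero (p * M)] {S : Finset ℕ}
  {𝒪 : Type} [CommRing 𝒪] [IsDomain 𝒪] [IsDiscreteValuationRing 𝒪]
  [IsAdicComplete (IsLocalRing.maximalIdeal 𝒪) 𝒪]
  {θ : CuspForm.heckeAlgebra (p * M) 2 (↑S : Set ℕ) →+* IsLocalRing.ResidueField 𝒪}
  {T : Type} [CommRing T] [IsLocalRing T] [IsNoetherianRing T]
  [IsAdicComplete (IsLocalRing.maximalIdeal T) T] [Algebra 𝒪 T] [IsLocalHom (algebraMap 𝒪 T)]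
  [Module.Finite 𝒪 T] [Module.Free 𝒪 T]

/-- **S33** -/
theorem s33 [Finite (IsLocalRing.ResidueField 𝒪)] [CharZero 𝒪]
    (hp : p.Prime) (hp2 : p ≠ 2) (hp𝒪 : (p : 𝒪) ∈ IsLocalRing.maximalIdeal 𝒪)
    (hN2 : ¬ p ^ 2 ∣ p * M) (hNS : ∀ q : ℕ, q.Prime → q ∣ p * M → q ∈ S)
    (H : CuspForm.HeckeGaloisRepDatum (p * M) (↑S : Set ℕ) 𝒪 θ T)
    (hres : (GaloisRepAdic.ofResidualGaloisRep H.ρ.residual).IsOrdinaryAt p) :
    H.ρ.IsOrdinaryAt p := by
  haveI : Fact p.Prime := ⟨hp⟩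
  have hN0 : p * M ≠ 0 := NeZero.ne _
  haveI : NeZero M := ⟨fun h => hN0 (by rw [h, mul_zero])⟩
  have hpM : ¬ p ∣ M := fun h => hN2 (by rw [sq]; exact mul_dvd_mul_left p h)
  have hqM : Nat.Coprime p M := (Nat.Prime.coprime_iff_not_dvd hp).mpr hpM
  have hpS : p ∈ S := hNS p hp (dvd_mul_right p M)
  have hSN : ∀ i : JS (↑S : Set ℕ), ¬ i.1 ∣ p * M := fun i h => i.2.2 (hNS i.1 i.2.1 h)
  have hSM : ∀ i : JS (↑S : Set ℕ), ¬ i.1 ∣ M := fun i h => hSN i (h.mul_left p)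
  have hSp : ∀ i : JS (↑S : Set ℕ), ¬ i.1 ∣ (p * M) * p := fun i h => by
    rcases i.2.1.dvd_mul.mp h with h | h
    · exact hSN i h
    · exact hSN i (h.mul_right M)
  have hMS : ∀ r : ℕ, r.Prime → r ∣ M → r ∈ (↑S : Set ℕ) := fun r hr h =>
    hNS r hr (h.mul_left p)
  let b : Module.Basis (Fin 2) T H.ρ.V := Module.finBasisOfFinrankEq T H.ρ.V H.ρ.finrank_eq
  have hpT : (p : T) ∈ maximalIdeal T := by
    have h1 : algebraMap 𝒪 T (p : 𝒪) ∈ maximalIdeal T := by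
      have : (p : 𝒪) ∈ nonunits 𝒪 := hp𝒪
      exact fun hu => this ((isUnit_map_iff (algebraMap 𝒪 T) _).mp hu)
    rwa [map_natCast] at h1
  have hfr : FrobCond (D := hdata (p * M) p (esHyp (p * M) p)) (S := (↑S : Set ℕ))
      (H.π.comp (HData.Phi (↑S : Set ℕ) (hdata_link (esHyp (p * M) p)))) (repMat H.ρ b) :=
    FlatHopf.repMat_frobCond _ _ H b
  have hT : MatCont (repMat H.ρ b) := repMat_matCont H.ρ b
  have hspan := repMat_span H.ρ b H.residual_absIrr
  have hdet := det_cyc (D := hdata (p * M) p (esHyp (p * M) p)) S.finite_toSet hN0 hpT hT hfr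
  haveI := isReduced_datum hNS H
  haveI : Finite (ResidueField T) := by
    haveI : Module.Finite (ResidueField 𝒪) (ResidueField T) := by
      haveI : Module.Finite 𝒪 (ResidueField T) :=
        Module.Finite.of_surjective ((IsScalarTower.toAlgHom 𝒪 T (ResidueField T)).toLinearMap)
          residue_surjective
      exact Module.Finite.of_restrictScalars_finite 𝒪 (ResidueField 𝒪) (ResidueField T)
    exact Module.finite_of_finite (ResidueField 𝒪)
  refine isOrdinaryAt_of_identity H.ρ b fun A hA => ?_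
  obtain ⟨σ₀, hσ₀, hu⟩ := exists_inertia_unit hp2 hA
  have hu0 : IsUnit ((repMat H.ρ b σ₀).det - 1) := by
    rw [hdet, ← map_one (padicTo p (maximalIdeal T) hpT), ← map_sub]
    exact hu.map _
  refine ⟨σ₀, hσ₀, hu0, fun τ hτ => ?_⟩
  by_contra hne
  obtain ⟨i, j, hij⟩ : ∃ i j, ((repMat H.ρ b σ₀ - (repMat H.ρ b σ₀).det • 1) *
      (repMat H.ρ b τ - 1)) i j ≠ 0 := by
    by_contra hcon
    push Not at hcon
    exact hne (Matrix.ext hcon)
  obtain ⟨P, hP, hxP, hPO⟩ := exists_prime_notMem (O := 𝒪) hij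
  -- the domain `B = T / P`
  haveI : Nontrivial (T ⧸ P) := Ideal.Quotient.nontrivial_iff.mpr hP.ne_top
  haveI : IsLocalRing (T ⧸ P) :=
    IsLocalRing.of_surjective' (Ideal.Quotient.mk P) Ideal.Quotient.mk_surjective
  have hloc : IsLocalHom (Ideal.Quotient.mk P) :=
    IsLocalHom.of_surjective _ Ideal.Quotient.mk_surjective
  haveI : IsLocalHom (algebraMap T (T ⧸ P)) := hloc
  haveI : IsAdicComplete (maximalIdeal (T ⧸ P)) (T ⧸ P) :=
    IsLocalRing.isAdicComplete_of_module_finite (𝒪 := T)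
  have hinj : Function.Injective (algebraMap 𝒪 (T ⧸ P)) := by
    rw [injective_iff_map_eq_zero]
    intro a ha
    exact hPO a (Ideal.Quotient.eq_zero_iff_mem.mp ha)
  haveI : CharZero (T ⧸ P) := charZero_of_injective_algebraMap hinj
  haveI : Finite (ResidueField (T ⧸ P)) := by
    refine Finite.of_surjective (ResidueField.map (Ideal.Quotient.mk P)) fun y => ?_
    obtain ⟨y, rfl⟩ := residue_surjective y
    obtain ⟨t, rfl⟩ := Ideal.Quotient.mk_surjective y
    exact ⟨residue T t, rfl⟩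
  set φ : T →+* T ⧸ P := Ideal.Quotient.mk P with hφ
  have hφm : ∀ x ∈ maximalIdeal T, φ x ∈ maximalIdeal (T ⧸ P) := fun x hx => map_nonunit φ x hx
  have hpB : (p : T ⧸ P) ∈ maximalIdeal (T ⧸ P) := by
    rw [← map_natCast φ]
    exact hφm _ hpT
  have hTB : MatCont (mapT φ (repMat H.ρ b)) := MatCont.map φ hloc hT
  have hspanB : Submodule.span (T ⧸ P) (Set.range (mapT φ (repMat H.ρ b))) = ⊤ :=
    span_map_eq_top φ hspan
  have hfrB : FrobCond (D := hdata (p * M) p (esHyp (p * M) p)) (S := (↑S : Set ℕ))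
      ((φ.comp H.π).comp (HData.Phi (↑S : Set ℕ) (hdata_link (esHyp (p * M) p))))
      (mapT φ (repMat H.ρ b)) := by
    intro ℓ hℓ hℓN hℓS A' hA' τ' hτ'
    obtain ⟨h1, h2⟩ := hfr ℓ hℓ hℓN hℓS A' hA' τ' hτ'
    constructor
    · have h3 := congrArg φ h1
      rw [Matrix.trace_fin_two, map_add] at h3
      rw [Matrix.trace_fin_two]
      exact h3
    · have h3 := congrArg φ h2
      rw [map_natCast] at h3
      rw [← h3]
      exact (RingHom.map_det φ _).symm
  have hmap : ∀ σ, mapT φ (repMat H.ρ b) σ = φ.mapMatrix (repMat H.ρ b σ) := fun _ => rfl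
  have hmdet : ∀ σ, (mapT φ (repMat H.ρ b) σ).det = φ (repMat H.ρ b σ).det := fun σ =>
    (RingHom.map_det φ _).symm
  have hprod : ∀ σ τ, (mapT φ (repMat H.ρ b) σ - (mapT φ (repMat H.ρ b) σ).det • 1) *
      (mapT φ (repMat H.ρ b) τ - 1) = φ.mapMatrix ((repMat H.ρ b σ -
        (repMat H.ρ b σ).det • 1) * (repMat H.ρ b τ - 1)) := by
    intro σ τ
    rw [hmdet, hmap, hmap, map_mul, map_sub, map_sub, map_one, map_smul_one]
  have hresB : ∀ σ ∈ A.inertiaSubgroupIn ℚ, ∀ τ ∈ A.inertiaSubgroupIn ℚ, ∀ i j,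
      ((mapT φ (repMat H.ρ b) σ - (mapT φ (repMat H.ρ b) σ).det • 1) *
        (mapT φ (repMat H.ρ b) τ - 1)) i j ∈ maximalIdeal (T ⧸ P) := by
    intro σ hσ τ hτ i j
    rw [hprod]
    exact hφm _ (res_matrix H.ρ b hres hA hσ hτ i j)
  have huB : IsUnit ((mapT φ (repMat H.ρ b) σ₀).det - 1) := by
    rw [hmdet, ← map_one φ, ← map_sub]
    exact hu0.map φ
  have key : (mapT φ (repMat H.ρ b) σ₀ - (mapT φ (repMat H.ρ b) σ₀).det • 1) *
      (mapT φ (repMat H.ρ b) τ - 1) = 0 := by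
    by_cases hold : ∀ Q : FreeAlgebra ℤ (JS (↑S : Set ℕ)), lat M Q = 0 →
        (φ.comp H.π) (hkA (p * M) hSN Q) = 0
    · exact old_case hp2 hA hpM S.finite_toSet hSN hSM hMS hpB (φ.comp H.π) hTB hspanB hfrB hold
        hresB hσ₀ huB τ hτ
    · push Not at hold
      obtain ⟨Q, hQ, hQ'⟩ := hold
      exact new_case hp2 hA hqM S.finite_toSet hSN hSp hpB (φ.comp H.π) hTB hspanB hfrB hQ hQ'
        σ₀ hσ₀ τ hτ
  rw [hprod] at key
  have h1 := congrFun (congrFun key i) j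
  exact hxP (Ideal.Quotient.eq_zero_iff_mem.mp h1)

end Fermat.Agent.AtP
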