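import Fermat.Agent.AtP.Contract

/-!
# Classes with trivial residue on a component and `U² = 1`
-/

set_option autoImplicit false
set_option linter.unusedSectionVars false
set_option linter.style.haveILetI false

noncomputable section

namespace Fermat.Agent.AtP

open ModularCurve Fermat.Agent.GoodRed Fermat.Agent.Models Fermat.Agent.ModFun
open Fermat.Agent.HeckeQ Fermat.Agent.SSMod

local notation "ℒ" => LaurentSeries

variable {K κ : Type*} [Field K] [Field κ] {A : ValuationSubring K} {π : A →+* κ}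
  {q M : ℕ} [NeZero M] [IsLocalHom π] [hq : Fact q.Prime] [CharP κ q]
  [IsAlgClosed K] [IsAlgClosed κ] [CharZero K] [NeZero q]
  {hπ : Function.Surjective π} (ι : K →+* ℂ) (hqM : Nat.Coprime q M)
  (E : IntermediateField κ (ℒ κ)) (hE : E = @resField K κ _ _ A π q hq ‹_› hπ (q * M))

theorem near_true_iff {c : K} (hc : c ≠ 0) {x : modularFunctionFieldFullC K (q * M)} :
    Near (two hπ ι hqM E hE true) c x ↔ NearL π c (x : ℒ K) := by
  constructor
  · rintro ⟨y, hy, rfl⟩
    refine ⟨(y : ℒ K), _, two_true_spec ι hqM hE hy, ?_⟩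
    rw [ModFun.C_eq_algebraMap]
    rfl
  · rintro ⟨g, y, hg, hx⟩
    have hcF : algebraMap K (modularFunctionFieldFullC K (q * M)) c ≠ 0 := by simpa using hc
    have hcL : (HahnSeries.C c : ℒ K) ≠ 0 := by simpa using hc
    refine ⟨(x - 1) / algebraMap K _ c, ?_, by field_simp; ring⟩
    have e : (((x - 1) / algebraMap K (modularFunctionFieldFullC K (q * M)) c :
        modularFunctionFieldFullC K (q * M)) : ℒ K) = g := by
      have h1 : (((x - 1) / algebraMap K (modularFunctionFieldFullC K (q * M)) c :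
        modularFunctionFieldFullC K (q * M)) : ℒ K) = ((x : ℒ K) - 1) / HahnSeries.C c := by
        rw [ModFun.C_eq_algebraMap]
        rfl
      rw [h1, hx]
      field_simp
      ring
    have hyE : y ∈ E := by
      rw [hE]
      exact ⟨g, by rw [← e]; exact SetLike.coe_mem _, hg⟩
    exact (two_true_r ι hqM hE (y := ⟨y, hyE⟩) (by rw [e]; exact hg)).1

theorem near_false_iff {c : K} {x : modularFunctionFieldFullC K (q * M)} :
    Near (two hπ ι hqM E hE false) c x ↔ Near (two hπ ι hqM E hE true) c (al ι hqM x) := by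
  constructor
  · rintro ⟨y, hy, rfl⟩
    refine ⟨al ι hqM y, ?_, by rw [map_add, map_one, map_mul, al_const]⟩
    rw [two_mem_al]; exact hy
  · rintro ⟨y, hy, hx⟩
    refine ⟨al ι hqM y, ?_, ?_⟩
    · rw [two_mem_al]; exact hy
    · have h1 := congrArg (al ι hqM) hx
      rw [al_al, map_add, map_one, map_mul, al_const] at h1
      exact h1

theorem split_false_iff {n : ℕ} {u : modularFunctionFieldFullC K (q * M)} :
    Split (two hπ ι hqM E hE) false n u ↔ Split (two hπ ι hqM E hE) true n (al ι hqM u) := by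
  constructor
  · intro h c hcO hc
    obtain ⟨a, ha0, ha⟩ := h c hcO hc
    refine ⟨al ι hqM a, by simpa using ha0, ?_⟩
    rw [near_false_iff, map_mul, map_pow] at ha
    exact ha
  · intro h c hcO hc
    obtain ⟨a, ha0, ha⟩ := h c hcO hc
    refine ⟨al ι hqM a, by simpa using ha0, ?_⟩
    rw [near_false_iff, map_mul, map_pow, al_al]
    exact ha

/-- functions with residue one are close to one -/
theorem exists_nearL {x : ℒ K} (hx : x ∈ modularFunctionFieldFullC K (q * M)) (h : LR π x 1) :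
    ∃ c : A, c ≠ 0 ∧ π c = 0 ∧ NearL π (c : K) x := by
  by_cases h0 : x - 1 = 0
  · refine ⟨(q : A), ?_, ?_, 0, 0, LR.zero π, by rw [mul_zero, add_zero]; exact sub_eq_zero.mp h0⟩
    · intro h1
      have h2 := congrArg (fun z : A => (z : K)) h1
      simp only [ZeroMemClass.coe_zero] at h2
      have h3 : ((q : A) : K) = (q : K) := by simp
      rw [h3] at h2
      exact (Nat.cast_ne_zero.mpr hq.out.ne_zero) h2
    · rw [map_natCast]; exact CharP.cast_eq_zero κ q
  · obtain ⟨c, hc0, y, hy, hcy⟩ := scale_full (π := π) q (q * M) (x - 1)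
      (sub_mem hx (one_mem _)) h0
    have h1 : LR π (x - 1) 0 := by
      have := LR.sub h (LR.one π)
      rwa [sub_self] at this
    have hcA : c ∉ A := by
      intro hcA
      have h2 := (LR.C (π := π) ⟨c, hcA⟩).mul h1
      rw [mul_zero] at h2
      exact hy (hcy.unique h2)
    have hc1 : c⁻¹ ∈ A := (A.mem_or_inv_mem c).resolve_left hcA
    have hcL : (HahnSeries.C c : ℒ K) ≠ 0 := by simpa using hc0
    refine ⟨⟨c⁻¹, hc1⟩, ?_, ?_, HahnSeries.C c * (x - 1), y, hcy, ?_⟩
    · intro h2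
      exact inv_ne_zero hc0 (congrArg Subtype.val h2)
    · by_contra h2
      have h3 : IsUnit (⟨c⁻¹, hc1⟩ : A) := by
        have := isUnit_of_map_unit π ⟨c⁻¹, hc1⟩ (IsUnit.mk0 _ h2)
        exact this
      obtain ⟨v, hv⟩ := h3
      apply hcA
      have h4 : ((v⁻¹ : Aˣ) : A) * ⟨c⁻¹, hc1⟩ = 1 := by rw [← hv]; exact v.inv_mul
      have h5 := congrArg Subtype.val h4
      have h6 : (((v⁻¹ : Aˣ) : A) : K) * c⁻¹ = 1 := h5
      have h7 : (((v⁻¹ : Aˣ) : A) : K) = c := by
        field_simp at h6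
        exact h6
      rw [← h7]
      exact Subtype.mem _
    · show x = 1 + HahnSeries.C c⁻¹ * (HahnSeries.C c * (x - 1))
      rw [← mul_assoc, ← map_mul, inv_mul_cancel₀ hc0, map_one]
      ring

variable [HasPrim A q] [HasPrim K q]

/-- the contraction principle with rationality, at the component `∞` -/
theorem contract_true (hr : GoodRed.RankOne π) {R : ℒ K → Prop} (hR : UStable K q R)
    {n l : ℕ} (hn : n = q ^ l) {u f : ℒ K} (hu0 : u ≠ 0)
    (hu : HeckeQ.hW q (HeckeQ.hW q u) = u * f ^ n) (hf : R f) {lam : K}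
    (hlam : lam ≠ 0) (hlR : R (HahnSeries.C lam)) {θ : ℒ K} (hθ0 : θ ≠ 0) (hθ : R θ)
    (hmem : HahnSeries.C lam * u * θ ^ n ∈ modularFunctionFieldFullC K (q * M))
    (hres : LR π (HahnSeries.C lam * u * θ ^ n) 1) {α : A} (hα : α ≠ 0) :
    ∃ a, R a ∧ a ≠ 0 ∧ NearL π (α : K) (a ^ n * u) := by
  obtain ⟨c, hc0, hc, hx⟩ := exists_nearL hmem hres
  exact contract hr hR hn hu0 hu hf hlam hlR hθ0 hθ hc0 hc hx hα

/-- classes with `U² = 1` and trivial residue at the component `∞` are split there -/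
theorem split_true (hr : GoodRed.RankOne π)
    (hmem : ∀ u ∈ modularFunctionFieldFullC K (q * M), hW q u ∈ modularFunctionFieldFullC K (q * M))
    {n l : ℕ} (hn : n = q ^ l) {u f : modularFunctionFieldFullC K (q * M)} (hu0 : u ≠ 0)
    (hu : HeckeQ.hW q (HeckeQ.hW q (u : ℒ K)) = (u : ℒ K) * (f : ℒ K) ^ n)
    (hres : ∃ c : K, c ≠ 0 ∧ ∃ h : E, h ≠ 0 ∧
      (two hπ ι hqM E hE true).r (algebraMap K _ c * u) = h ^ n) :
    Split (two hπ ι hqM E hE) true n u := by
  obtain ⟨c, hc0, h, hh0, hh⟩ := hres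
  have hn0 : n ≠ 0 := by rw [hn]; exact pow_ne_zero _ hq.out.ne_zero
  obtain ⟨θ, hθO, hθ⟩ := (two hπ ι hqM E hE true).r_surjective h
  have hθr : (two hπ ι hqM E hE true).r θ ≠ 0 := by rw [hθ]; exact hh0
  have hθ0 : θ ≠ 0 := Res.ne_zero_of_r hθr
  have hθL0 : ((θ⁻¹ : modularFunctionFieldFullC K (q * M)) : ℒ K) ≠ 0 := by
    intro h0
    exact inv_ne_zero hθ0 (Subtype.ext h0)
  have huL0 : (u : ℒ K) ≠ 0 := fun h0 => hu0 (Subtype.ext h0)
  have hcu : (two hπ ι hqM E hE true).r (algebraMap K _ c * u) ≠ 0 := by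
    rw [hh]; exact pow_ne_zero _ hh0
  have h1 : (two hπ ι hqM E hE true).r (algebraMap K _ c * u * θ⁻¹ ^ n) = 1 := by
    rw [Res.r_mul (Res.mem_of_r_ne_zero hcu) (pow_mem (Res.inv_mem_of_r hθr) n), hh,
      Res.r_pow (Res.inv_mem_of_r hθr), Res.r_inv hθr, hθ, inv_pow, mul_inv_cancel₀
        (pow_ne_zero _ hh0)]
  have h2O : algebraMap K _ c * u * θ⁻¹ ^ n ∈ (two hπ ι hqM E hE true).O :=
    Res.mem_of_r_ne_zero (by rw [h1]; exact one_ne_zero)
  have h2 := two_true_spec ι hqM hE h2O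
  rw [h1] at h2
  have e : ((algebraMap K _ c * u * θ⁻¹ ^ n : modularFunctionFieldFullC K (q * M)) : ℒ K) =
      HahnSeries.C c * (u : ℒ K) * ((θ⁻¹ : modularFunctionFieldFullC K (q * M)) : ℒ K) ^ n := by
    rw [ModFun.C_eq_algebraMap]
    rfl
  rw [e] at h2
  intro α hαO hα0
  obtain ⟨a, haR, ha0, ha⟩ := contract_true (M := M) (π := π) hr
    (R := fun x => x ∈ modularFunctionFieldFullC K (q * M))
    ⟨one_mem _, fun hx hy => mul_mem hx hy, fun hx => hmem _ hx⟩ hn huL0 hu f.2 hc0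
    (by rw [ModFun.C_eq_algebraMap]; exact IntermediateField.algebraMap_mem _ _) hθL0 (SetLike.coe_mem _)
    (by rw [← e]; exact SetLike.coe_mem _) h2 (α := ⟨α, hαO⟩) (fun h0 => hα0 (congrArg Subtype.val h0))
  refine ⟨⟨a, haR⟩, fun h0 => ha0 (congrArg Subtype.val h0), ?_⟩
  rw [near_true_iff ι hqM E hE hα0]
  exact ha

/-- classes with `U² = 1` and trivial residue at the component `0` are split there -/
theorem split_false (hr : GoodRed.RankOne π)
    (hmem : ∀ u ∈ modularFunctionFieldFullC K (q * M), hW q u ∈ modularFunctionFieldFullC K (q * M))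
    {n l : ℕ} (hn : n = q ^ l) {u f : modularFunctionFieldFullC K (q * M)} (hu0 : u ≠ 0)
    (hu : HeckeQ.hW q (HeckeQ.hW q (al ι hqM u : ℒ K)) = (al ι hqM u : ℒ K) * (f : ℒ K) ^ n)
    (hres : ∃ c : K, c ≠ 0 ∧ ∃ h : E, h ≠ 0 ∧
      (two hπ ι hqM E hE false).r (algebraMap K _ c * u) = h ^ n) :
    Split (two hπ ι hqM E hE) false n u := by
  rw [split_false_iff]
  refine split_true ι hqM E hE hr hmem hn (by simpa using hu0) hu ?_
  obtain ⟨c, hc0, h, hh0, hh⟩ := hres
  refine ⟨c, hc0, h, hh0, ?_⟩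
  have h1 := two_r_al (ι := ι) (hqM := hqM) (hE := hE) true (algebraMap K _ c * u)
  rw [map_mul, al_const] at h1
  rw [← hh, h1]
  rfl

end Fermat.Agent.AtP
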